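import Fermat.Agent.S55.G1b.CardJT
import Fermat.Agent.S55.G.SumDeg
import Fermat.Agent.S55.G.LocFin
import Fermat.Agent.S55.L.IndexField

/-! # S55 G1b (CM): `|J_T(F)/p| = p^(2t + [F:ℚ])` -/

set_option autoImplicit false
set_option linter.unusedSectionVars false
set_option linter.unusedVariables false
set_option linter.style.haveILetI false

namespace Fermat.Agent.S55Lib

noncomputable section

/-- the local factor -/
theorem CM_card_local (p : ℕ) [Fact p.Prime] (F : IntermediateField ℚ Qbar)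
    [FiniteDimensional ℚ F] (hμ : HasMu p F) (q : Nat.Primes) (g : GQ) :
    Nat.card (modp p (Additive (↥(locF q g F))ˣ)) =
      p ^ 2 * (if (q : ℕ) = p then p ^ Module.finrank ℚ_[(q : ℕ)] (locF q g F) else 1) := by
  have h := (card_modp_units (q : ℕ) p (F := ↥(locF q g F))).2.2
  rw [h, card_torp_locF p F hμ q g, sq]

theorem card_JT_mod_p (p : ℕ) [Fact p.Prime] (hp2 : p ≠ 2)
    (F : IntermediateField ℚ Qbar) [FiniteDimensional ℚ F] (hμ : HasMu p F)
    (T : Finset Nat.Primes) (hpT : (⟨p, Fact.out⟩ : Nat.Primes) ∈ T)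
    (t : ℕ) (ht : IsPlaceCount F T t) :
    Nat.card (↥(JF F ⊓ JT T) ⧸ (powMonoidHom p : ↥(JF F ⊓ JT T) →* ↥(JF F ⊓ JT T)).range) =
      p ^ (2 * t + Module.finrank ℚ F) := by
  classical
  obtain ⟨R, hR1, hR2, rfl⟩ := ht
  obtain ⟨e⟩ := CJ_exists_addEquiv F T R hR1 hR2
  rw [← card_modp_additive, (card_modp_congr p e).1,
    (card_modp_pi p (fun w : PlT T R => Additive (↥(locF w.1.1 w.2.1 F))ˣ)).1]
  obtain ⟨φ, hφ⟩ : ∃ φ : Nat.Primes → GQ → ℕ, φ = fun (q : Nat.Primes) (g : GQ) =>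
      p ^ 2 * (if (q : ℕ) = p then p ^ Module.finrank ℚ_[(q : ℕ)] (locF q g F) else 1) := ⟨_, rfl⟩
  have h1 : ∀ w : PlT T R, Nat.card (modp p (Additive (↥(locF w.1.1 w.2.1 F))ˣ)) =
      φ w.1.1 w.2.1 := fun w => by
    rw [hφ]; exact CM_card_local p F hμ _ _
  rw [Finset.prod_congr rfl fun w _ => h1 w, CJ_prod_PlT T R φ]
  obtain ⟨p0, hp0⟩ : ∃ p0 : Nat.Primes, p0 = ⟨p, Fact.out⟩ := ⟨_, rfl⟩
  rw [← hp0] at hpT
  have hp0' : (p0 : ℕ) = p := by rw [hp0]
  have h2 : ∀ q ∈ T, ∏ g ∈ R q, φ q g =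
      p ^ (2 * (R q).card) * (if q = p0 then p ^ Module.finrank ℚ F else 1) := by
    intro q _
    rw [hφ]
    simp only [Finset.prod_mul_distrib, Finset.prod_const]
    rw [← pow_mul]
    congr 1
    by_cases hq : q = p0
    · subst hq
      rw [if_pos rfl]
      simp only [hp0', if_true]
      rw [Finset.prod_pow_eq_pow_sum, sum_local_degrees F q (R q) (hR1 q) (hR2 q)]
    · have hq' : (q : ℕ) ≠ p := fun h => hq (Subtype.ext (h.trans hp0'.symm))
      rw [if_neg hq]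
      simp only [hq', if_false, Finset.prod_const_one]
  have h3 : ∏ q ∈ T, (if q = p0 then p ^ Module.finrank ℚ F else 1) =
      p ^ Module.finrank ℚ F := by
    rw [Finset.prod_eq_single_of_mem p0 hpT (fun q _ hq => if_neg hq), if_pos rfl]
  rw [Finset.prod_congr rfl h2, Finset.prod_mul_distrib, Finset.prod_pow_eq_pow_sum, h3,
    ← Finset.mul_sum, ← pow_add]

end

end Fermat.Agent.S55Lib
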