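import Fermat.Agent.S55.H.Chevalley

/-! # S55 G1b (AB): abstract counting (`modp`, `torp`, `qInd`) -/

set_option autoImplicit false
set_option linter.unusedSectionVars false
set_option linter.unusedVariables false
set_option linter.style.haveILetI false

namespace Fermat.Agent.S55Lib

noncomputable section

open groupCohomology

lemma AB_mulp_apply (p : ℕ) {A : Type} [AddCommGroup A] (a : A) : mulp p A a = p • a := rfl

/-- multiplicative versus additive notation -/
theorem card_modp_additive (p : ℕ) (G : Type) [CommGroup G] :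
    Nat.card (modp p (Additive G)) = Nat.card (G ⧸ (powMonoidHom p : G →* G).range) := by
  show (AddMonoidHom.range (p • AddMonoidHom.id (Additive G))).index =
    (powMonoidHom p : G →* G).range.index
  rw [← Subgroup.index_toAddSubgroup]
  congr 1

theorem card_modp_congr (p : ℕ) {A B : Type} [AddCommGroup A] [AddCommGroup B] (e : A ≃+ B) :
    Nat.card (modp p A) = Nat.card (modp p B) ∧ Nat.card (torp p A) = Nat.card (torp p B) := by
  constructor
  · show (AddMonoidHom.range (mulp p A)).index = (AddMonoidHom.range (mulp p B)).index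
    rw [← AddSubgroup.index_map_equiv (AddMonoidHom.range (mulp p A)) e]
    congr 1
    ext b
    constructor
    · rintro ⟨_, ⟨a, rfl⟩, rfl⟩
      exact ⟨e a, by
        show p • e a = e (p • a)
        rw [map_nsmul]⟩
    · rintro ⟨b, rfl⟩
      refine ⟨_, ⟨e.symm b, rfl⟩, ?_⟩
      show e (p • e.symm b) = p • b
      rw [map_nsmul, e.apply_symm_apply]
  · have h : (torp p A).map (e : A →+ B) = torp p B := by
      ext b
      constructor
      · rintro ⟨a, ha, rfl⟩
        have ha' : p • a = 0 := ha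
        show p • e a = 0
        rw [← map_nsmul, ha', map_zero]
      · intro hb
        have hb' : p • b = 0 := hb
        refine ⟨e.symm b, ?_, e.apply_symm_apply b⟩
        show p • e.symm b = 0
        rw [← map_nsmul, hb', map_zero]
    rw [← h]
    exact Nat.card_congr (e.addSubgroupMap (torp p A)).toEquiv

lemma AB_index_pi {ι : Type} [Fintype ι] (A : ι → Type) [∀ i, AddCommGroup (A i)]
    (H : ∀ i, AddSubgroup (A i)) :
    (AddSubgroup.pi Set.univ H).index = ∏ i, (H i).index := by
  simp_rw [AddSubgroup.index, ← Nat.card_pi]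
  refine Nat.card_congr
    ((Quotient.congrRight (fun x y ↦ ?_)).trans (Setoid.piQuotientEquiv _).symm)
  rw [QuotientAddGroup.leftRel_pi]

theorem card_modp_pi (p : ℕ) {ι : Type} [Fintype ι] (A : ι → Type) [∀ i, AddCommGroup (A i)] :
    Nat.card (modp p (∀ i, A i)) = ∏ i, Nat.card (modp p (A i)) ∧
    Nat.card (torp p (∀ i, A i)) = ∏ i, Nat.card (torp p (A i)) := by
  constructor
  · show (AddMonoidHom.range (mulp p (∀ i, A i))).index =
      ∏ i, (AddMonoidHom.range (mulp p (A i))).index
    rw [← AB_index_pi]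
    congr 1
    ext x
    rw [AddSubgroup.mem_pi]
    constructor
    · rintro ⟨y, rfl⟩ i -
      exact ⟨y i, rfl⟩
    · intro h
      choose y hy using fun i => h i (Set.mem_univ i)
      exact ⟨y, funext hy⟩
  · rw [← Nat.card_pi]
    refine Nat.card_congr
      { toFun := fun x i => ⟨(x : ∀ i, A i) i, congrFun x.2 i⟩
        invFun := fun y => ⟨fun i => (y i : A i), funext fun i => (y i).2⟩
        left_inv := fun x => rfl
        right_inv := fun y => rfl }

theorem qInd_congr {A B : Type} [AddCommGroup A] [AddCommGroup B] (e : A ≃+ B) (p : ℕ)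
    (h : QFin (mulp p A)) : QFin (mulp p B) ∧ qInd (mulp p B) = qInd (mulp p A) := by
  obtain ⟨h1, h2⟩ := card_modp_congr p e
  have e1 : qInd (mulp p A) = (Nat.card (modp p A) : ℚ) / Nat.card (torp p A) := rfl
  have e2 : qInd (mulp p B) = (Nat.card (modp p B) : ℚ) / Nat.card (torp p B) := rfl
  refine ⟨⟨?_, ?_⟩, by rw [e1, e2, h1, h2]⟩
  · haveI : Finite (modp p A) := h.1
    apply Nat.finite_of_card_ne_zero
    show Nat.card (modp p B) ≠ 0
    rw [← h1]
    exact Nat.card_pos.ne'
  · haveI : Finite (torp p A) := h.2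
    apply Nat.finite_of_card_ne_zero
    show Nat.card (torp p B) ≠ 0
    rw [← h2]
    exact Nat.card_pos.ne'

/-- from cardinalities to `qInd` -/
theorem qInd_of_card (p : ℕ) [Fact p.Prime] {A : Type} [AddCommGroup A] {a b : ℕ}
    (h1 : Nat.card (modp p A) = p ^ a) (h2 : Nat.card (torp p A) = p ^ b) :
    QFin (mulp p A) ∧ qInd (mulp p A) * (p : ℚ) ^ b = (p : ℚ) ^ a := by
  have hp : p.Prime := Fact.out
  have hp0 : (p : ℚ) ≠ 0 := by exact_mod_cast hp.ne_zero
  refine ⟨⟨?_, ?_⟩, ?_⟩
  · apply Nat.finite_of_card_ne_zero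
    show Nat.card (modp p A) ≠ 0
    rw [h1]; exact pow_ne_zero _ hp.ne_zero
  · apply Nat.finite_of_card_ne_zero
    show Nat.card (torp p A) ≠ 0
    rw [h2]; exact pow_ne_zero _ hp.ne_zero
  · have e1 : qInd (mulp p A) = (Nat.card (modp p A) : ℚ) / Nat.card (torp p A) := rfl
    rw [e1, h1, h2]
    push_cast
    rw [div_mul_cancel₀ _ (pow_ne_zero _ hp0)]

/-- the numerical part of the first inequality, from `herbrand_eq` -/
theorem herbrand_of_qInd (p : ℕ) [Fact p.Prime] {A : Type} [AddCommGroup A]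
    (σ : AddMonoid.End A) (hσ : σ ^ p = 1) (m : ℕ)
    (hA : QFin (mulp p A)) (hqA : qInd (mulp p A) = (p : ℚ) ^ (p * m + 1))
    (hB : QFin (mulp p (fixσ σ))) (hqB : qInd (mulp p (fixσ σ)) = (p : ℚ) ^ (m + 1)) :
    Finite (Hhat0 p σ) ∧ Finite (Hhat1 p σ) ∧
      Nat.card (Hhat0 p σ) = p * Nat.card (Hhat1 p σ) := by
  have hp : p.Prime := Fact.out
  have hp0 : (p : ℚ) ≠ 0 := by exact_mod_cast hp.ne_zero
  obtain ⟨h0, h1, -, heq⟩ := herbrand_eq p σ hσ hA
  refine ⟨h0, h1, ?_⟩
  rw [hqA, hqB] at heq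
  have n1 : (Nat.card (Hhat1 p σ) : ℚ) ≠ 0 := by exact_mod_cast Nat.card_pos.ne'
  set x : ℚ := (Nat.card (Hhat0 p σ) : ℚ) / Nat.card (Hhat1 p σ) with hx
  have hx0 : 0 ≤ x := by positivity
  have e1 : ((p : ℚ) ^ (m + 1)) ^ p = (p : ℚ) ^ (p - 1) * (p : ℚ) ^ (p * m + 1) := by
    rw [← pow_mul, ← pow_add]
    congr 1
    have : 1 ≤ p := hp.one_lt.le
    have e : (m + 1) * p = p * m + p := by ring
    omega
  rw [e1] at heq
  have h2 : x ^ (p - 1) = (p : ℚ) ^ (p - 1) := mul_right_cancel₀ (pow_ne_zero _ hp0) heq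
  have h3 : x = p := by
    have hne : p - 1 ≠ 0 := by have := hp.two_le; omega
    exact (pow_left_inj₀ hx0 (by positivity) hne).1 h2
  rw [hx, div_eq_iff n1] at h3
  exact_mod_cast h3

end

end Fermat.Agent.S55Lib
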