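import Fermat.Agent.S55.G1b.Defs
import Fermat.Agent.S55.G.TUnits
import Fermat.Agent.S55.G.LocSurj

/-! # S55 G1b (LT): `μ_p ⊆ F_w` -/

set_option autoImplicit false
set_option linter.unusedSectionVars false
set_option linter.unusedVariables false
set_option linter.style.haveILetI false

namespace Fermat.Agent.S55Lib

noncomputable section

theorem LT_card_torp_units (p : ℕ) (K : Type) [CommRing K] :
    Nat.card (torp p (Additive Kˣ)) = Nat.card (rootsOfUnity p K) := by
  apply Nat.card_congr
  exact
    { toFun := fun a => ⟨Additive.toMul (a : Additive Kˣ), by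
        rw [mem_rootsOfUnity]
        have h2 : p • (a : Additive Kˣ) = 0 := a.2
        exact h2⟩
      invFun := fun z => ⟨Additive.ofMul (z : Kˣ), by
        have hz : (z : Kˣ) ^ p = 1 := (mem_rootsOfUnity _ _).mp z.2
        show p • Additive.ofMul (z : Kˣ) = 0
        exact congrArg Additive.ofMul hz⟩
      left_inv := fun a => rfl
      right_inv := fun z => rfl }

/-- `|F_w^×[p]| = p`: the `p` roots of `X^p - 1` in `ℚ̄` lie in `F`, map injectively. -/
theorem card_torp_locF (p : ℕ) [Fact p.Prime] (F : IntermediateField ℚ Qbar) (hμ : HasMu p F)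
    (q : Nat.Primes) (g : GQ) : Nat.card (torp p (Additive (↥(locF q g F))ˣ)) = p := by
  have hp : p.Prime := Fact.out
  haveI : NeZero p := ⟨hp.ne_zero⟩
  obtain ⟨z, hz⟩ := HasEnoughRootsOfUnity.exists_primitiveRoot Qbar p
  have hzF : z ∈ F := hμ z hz.pow_eq_one
  have h1 : IsPrimitiveRoot (g z) p := hz.map_of_injective g.injective
  have h2 : IsPrimitiveRoot (iq q (g z)) p := h1.map_of_injective (iq q).injective
  have h3 : iq q (g z) ∈ locF q g F := iq_mem_locF q g F hzF
  have h4 : IsPrimitiveRoot (⟨iq q (g z), h3⟩ : ↥(locF q g F)) p :=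
    IsPrimitiveRoot.of_map_of_injective (f := (locF q g F).val) h2 (locF q g F).val.injective
  rw [LT_card_torp_units]
  exact h4.card_rootsOfUnity

theorem card_torp_EFT (p : ℕ) [Fact p.Prime] (F : IntermediateField ℚ Qbar) (hμ : HasMu p F)
    (T : Finset Nat.Primes) : Nat.card (torp p (Additive (EFT F T))) = p :=
  TU7_card_torsion p F hμ T

end

end Fermat.Agent.S55Lib
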