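import Fermat.Agent.S55.G1b.JTEquiv
import Fermat.Agent.S55.G1b.LocTors
import Fermat.Agent.S55.G1b.AbsCard
import Fermat.Agent.S55.G.Reps

/-! # S55 G1b (CJ): `|J_T(F)[p]| = p^t` -/

set_option autoImplicit false
set_option linter.unusedSectionVars false
set_option linter.unusedVariables false
set_option linter.style.haveILetI false

namespace Fermat.Agent.S55Lib

noncomputable section

/-- products over the places above `T` -/
theorem CJ_prod_PlT (T : Finset Nat.Primes) (R : ∀ q : Nat.Primes, Finset GQ)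
    (φ : Nat.Primes → GQ → ℕ) :
    ∏ w : PlT T R, φ w.1.1 w.2.1 = ∏ q ∈ T, ∏ g ∈ R q, φ q g := by
  rw [Fintype.prod_sigma]
  have h1 : ∀ q : {q // q ∈ T}, ∏ g : {g // g ∈ R q.1}, φ q.1 g.1 = ∏ g ∈ R q.1, φ q.1 g :=
    fun q => Finset.prod_coe_sort (R q.1) (fun g => φ q.1 g)
  calc ∏ q : {q // q ∈ T}, ∏ g : {g // g ∈ R q.1}, φ q.1 g.1
      = ∏ q : {q // q ∈ T}, ∏ g ∈ R q.1, φ q.1 g := Finset.prod_congr rfl fun q _ => h1 q
    _ = ∏ q ∈ T, ∏ g ∈ R q, φ q g := Finset.prod_coe_sort T (fun q => ∏ g ∈ R q, φ q g)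

/-- the additive form of `exists_JT_equiv` -/
theorem CJ_exists_addEquiv (F : IntermediateField ℚ Qbar) [FiniteDimensional ℚ F]
    (T : Finset Nat.Primes) (R : ∀ q : Nat.Primes, Finset GQ)
    (hR : ∀ q g, ∃ g₀ ∈ R q, SamePlace q F g₀ g)
    (hR' : ∀ q, ∀ g ∈ R q, ∀ g' ∈ R q, SamePlace q F g g' → g = g') :
    Nonempty (Additive ↥(JF F ⊓ JT T) ≃+
      (∀ w : PlT T R, Additive (↥(locF w.1.1 w.2.1 F))ˣ)) := by
  obtain ⟨e, -⟩ := exists_JT_equiv F T R hR hR'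
  exact ⟨(MulEquiv.toAdditive e).trans (AddEquiv.piAdditive _)⟩

/-- `|J_T(F)[p]| = p^t` -/
theorem card_JT_tor_p (p : ℕ) [Fact p.Prime]
    (F : IntermediateField ℚ Qbar) [FiniteDimensional ℚ F] (hμ : HasMu p F)
    (T : Finset Nat.Primes) (t : ℕ) (ht : IsPlaceCount F T t) :
    Nat.card (torp p (Additive ↥(JF F ⊓ JT T))) = p ^ t := by
  classical
  obtain ⟨R, hR1, hR2, rfl⟩ := ht
  obtain ⟨e⟩ := CJ_exists_addEquiv F T R hR1 hR2
  rw [(card_modp_congr p e).2,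
    (card_modp_pi p (fun w : PlT T R => Additive (↥(locF w.1.1 w.2.1 F))ˣ)).2]
  have h1 : ∀ w : PlT T R, Nat.card (torp p (Additive (↥(locF w.1.1 w.2.1 F))ˣ)) =
      (fun (_ : Nat.Primes) (_ : GQ) => p) w.1.1 w.2.1 := fun w => card_torp_locF p F hμ _ _
  rw [Finset.prod_congr rfl fun w _ => h1 w,
    CJ_prod_PlT T R (fun (_ : Nat.Primes) (_ : GQ) => p)]
  simp only [Finset.prod_const]
  rw [Finset.prod_pow_eq_pow_sum]

theorem exists_isPlaceCount (F : IntermediateField ℚ Qbar) [FiniteDimensional ℚ F]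
    (T : Finset Nat.Primes) : ∃ t, IsPlaceCount F T t := by
  choose R hR1 hR2 using fun q => exists_reps F q
  exact ⟨_, R, hR1, hR2, rfl⟩

end

end Fermat.Agent.S55Lib
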