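import Fermat.Agent.S55.G1b.Eqv

/-! # S55 G1b (DC): an equivariant function supported on one place -/

set_option autoImplicit false
set_option linter.unusedSectionVars false
set_option linter.unusedVariables false

namespace Fermat.Agent.S55Lib

noncomputable section

open groupCohomology

/-- `ζ g = h • z` if `g = r(h) g₀ s` (`s ∈ U_L`; choice of `h`; well defined by `hz`), `1` else. -/
theorem exists_dcExt (L : IntermediateField ℚ Qbar) (q : Nat.Primes) (g₀ : GQ) (z : (Om q)ˣ)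
    (hz : ∀ h ∈ Wg q g₀ L, h • z = z) :
    ∃ ζ : GQ → (Om q)ˣ, IsEqv q L ζ ∧ ζ g₀ = z ∧ (∀ g, ¬ SamePlace q L g₀ g → ζ g = 1) ∧
      (‖(z : Om q)‖ = 1 → IsUnitVal q ζ) := by
  classical
  set ζ : GQ → (Om q)ˣ := fun g => if H : SamePlace q L g₀ g then H.choose • z else 1 with hζdef
  have key : ∀ (h : Gq q) (s : GQ), s ∈ L.fixingSubgroup → ζ (rq q h * g₀ * s) = h • z := by
    intro h s hs
    have H : SamePlace q L g₀ (rq q h * g₀ * s) := ⟨h, s, hs, rfl⟩
    have h1 : ζ (rq q h * g₀ * s) = H.choose • z := by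
      simp only [hζdef, dif_pos H]
    obtain ⟨s', hs', heq⟩ := H.choose_spec
    set h' := H.choose
    rw [h1]
    have h2 : h'⁻¹ * h ∈ Wg q g₀ L := by
      rw [mem_Wg]
      have : g₀⁻¹ * rq q (h'⁻¹ * h) * g₀ = s' * s⁻¹ := by
        rw [map_mul, map_inv]
        have e1 : rq q h * g₀ = rq q h' * g₀ * s' * s⁻¹ := by rw [← heq]; group
        calc g₀⁻¹ * ((rq q h')⁻¹ * rq q h) * g₀ = g₀⁻¹ * (rq q h')⁻¹ * (rq q h * g₀) := by group
          _ = g₀⁻¹ * (rq q h')⁻¹ * (rq q h' * g₀ * s' * s⁻¹) := by rw [e1]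
          _ = s' * s⁻¹ := by group
      rw [this]
      exact mul_mem hs' (inv_mem hs)
    have h3 := hz _ h2
    rw [mul_smul] at h3
    calc h' • z = h' • (h'⁻¹ • h • z) := by rw [h3]
      _ = h • z := by rw [smul_smul, mul_inv_cancel, one_smul]
  have hout : ∀ g, ¬ SamePlace q L g₀ g → ζ g = 1 := by
    intro g hg
    simp only [hζdef, dif_neg hg]
  refine ⟨ζ, ?_, ?_, hout, ?_⟩
  · intro h g s hs
    by_cases H : SamePlace q L g₀ g
    · obtain ⟨h₁, s₁, hs₁, rfl⟩ := H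
      have e : rq q h * (rq q h₁ * g₀ * s₁) * s = rq q (h * h₁) * g₀ * (s₁ * s) := by
        rw [map_mul]; group
      rw [e, key _ _ (mul_mem hs₁ hs), key _ _ hs₁, mul_smul]
    · have H' : ¬ SamePlace q L g₀ (rq q h * g * s) := by
        rintro ⟨h₁, s₁, hs₁, heq⟩
        apply H
        refine ⟨h⁻¹ * h₁, s₁ * s⁻¹, mul_mem hs₁ (inv_mem hs), ?_⟩
        rw [map_mul, map_inv]
        calc g = (rq q h)⁻¹ * (rq q h * g * s) * s⁻¹ := by group
          _ = (rq q h)⁻¹ * (rq q h₁ * g₀ * s₁) * s⁻¹ := by rw [heq]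
          _ = _ := by group
      rw [hout _ H', hout _ H, smul_one]
  · have := key 1 1 (one_mem _)
    rwa [map_one, one_mul, mul_one, one_smul] at this
  · intro hz1 g
    by_cases H : SamePlace q L g₀ g
    · obtain ⟨h₁, s₁, hs₁, rfl⟩ := H
      rw [key _ _ hs₁, norm_smul_Om, hz1]
    · rw [hout _ H]; simp

end

end Fermat.Agent.S55Lib
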