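import Fermat.Agent.S55.G.G1Defs

/-! # S55 chapter G1b: definitions (decomposition groups, equivariant functions, `C_T(F)`) -/

set_option autoImplicit false
set_option linter.unusedSectionVars false
set_option linter.unusedVariables false

namespace Fermat.Agent.S55Lib

noncomputable section

open groupCohomology

/-- the decomposition-type subgroup of `G_q` at the place `(q,g)` of `F`:
`h ∈ Wg q g F ↔ g⁻¹ r(h) g ∈ U_F` -/
def Wg (q : Nat.Primes) (g : GQ) (F : IntermediateField ℚ Qbar) : Subgroup (Gq q) where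
  carrier := {h | g⁻¹ * rq q h * g ∈ F.fixingSubgroup}
  one_mem' := by simp
  mul_mem' := fun {a b} ha hb => by
    have : g⁻¹ * rq q (a * b) * g = (g⁻¹ * rq q a * g) * (g⁻¹ * rq q b * g) := by
      rw [map_mul]; group
    simp only [Set.mem_ofPred_eq] at ha hb ⊢
    rw [this]; exact mul_mem ha hb
  inv_mem' := fun {a} ha => by
    have : g⁻¹ * rq q a⁻¹ * g = (g⁻¹ * rq q a * g)⁻¹ := by
      rw [map_inv]; group
    simp only [Set.mem_ofPred_eq] at ha ⊢
    rw [this]; exact inv_mem ha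

lemma mem_Wg {q : Nat.Primes} {g : GQ} {F : IntermediateField ℚ Qbar} {h : Gq q} :
    h ∈ Wg q g F ↔ g⁻¹ * rq q h * g ∈ F.fixingSubgroup := Iff.rfl

/-- the norm of a layer -/
def Nσ {A : Type} [CommGroup A] [MulDistribMulAction GQ A] (p : ℕ) (σ : GQ) (a : A) : A :=
  ∏ i ∈ Finset.range p, σ ^ i • a

/-- functions `G_ℚ → Ω_q^×` which are left `G_q`-equivariant and right `U_L`-invariant
(= families of components at the places of `L` above `q`) -/
def IsEqv (q : Nat.Primes) (L : IntermediateField ℚ Qbar) (ζ : GQ → (Om q)ˣ) : Prop :=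
  ∀ (h : Gq q) (g s : GQ), s ∈ L.fixingSubgroup → ζ (rq q h * g * s) = h • ζ g

/-- unit valued -/
def IsUnitVal (q : Nat.Primes) (ζ : GQ → (Om q)ˣ) : Prop :=
  ∀ g, ‖((ζ g : (Om q)ˣ) : Om q)‖ = 1

/-- the `T`-part of an idele -/
def cutT (T : Finset Nat.Primes) : JJ →* JJ where
  toFun x := ⟨fun q => if q ∈ T then (x : ∀ q : Nat.Primes, Jq q) q else 1, by
    obtain ⟨⟨U, hU, hx⟩, hfx⟩ := x.2
    refine ⟨⟨U, hU, fun s hs q => ?_⟩, hfx.subset ?_⟩
    · by_cases hq : q ∈ T
      · simp only [hq, if_true]; exact hx s hs q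
      · simp only [hq, if_false]; exact smul_one s
    · intro q hq hcon
      apply hq
      by_cases hqT : q ∈ T
      · simp only [hqT, if_true]; exact hcon
      · simp only [hqT, if_false]; exact one_mem _⟩
  map_one' := by
    apply Subtype.ext
    funext q
    by_cases hq : q ∈ T
    · simp only [hq, if_true]
    · simp only [hq, if_false]; rfl
  map_mul' x y := by
    apply Subtype.ext
    funext q
    by_cases hq : q ∈ T
    · simp only [hq, if_true, Subgroup.coe_mul, Pi.mul_apply]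
    · simp only [hq, if_false, Subgroup.coe_mul, Pi.mul_apply, mul_one]

lemma cmp_cutT_of_mem {T : Finset Nat.Primes} (x : JJ) {q : Nat.Primes} (hq : q ∈ T) (g : GQ) :
    cmp (cutT T x) q g = cmp x q g := by
  show ((((if q ∈ T then (x : ∀ q : Nat.Primes, Jq q) q else 1) : Jq q) : GQ → (Om q)ˣ) g) = _
  rw [if_pos hq]; rfl

lemma cmp_cutT_of_not_mem {T : Finset Nat.Primes} (x : JJ) {q : Nat.Primes} (hq : q ∉ T) (g : GQ) :
    cmp (cutT T x) q g = 1 := by
  show ((((if q ∈ T then (x : ∀ q : Nat.Primes, Jq q) q else 1) : Jq q) : GQ → (Om q)ˣ) g) = _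
  rw [if_neg hq]; rfl

lemma smul_cutT (T : Finset Nat.Primes) (γ : GQ) (x : JJ) : γ • cutT T x = cutT T (γ • x) := by
  apply JJ.ext
  intro q g
  by_cases hq : q ∈ T
  · rw [cmp_smul, cmp_cutT_of_mem _ hq, cmp_cutT_of_mem _ hq, cmp_smul]
  · rw [cmp_smul, cmp_cutT_of_not_mem _ hq, cmp_cutT_of_not_mem _ hq]

/-- `F^× · U^T(F)` inside `J(F)` -/
def PT (T : Finset Nat.Primes) (F : IntermediateField ℚ Qbar) : Subgroup ↥(JF F) where
  carrier := {x | ∃ a ∈ FX F, ∃ u ∈ UId T, (x : JJ) = diag a * u}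
  one_mem' := ⟨1, one_mem _, 1, one_mem _, by simp⟩
  mul_mem' := by
    rintro x y ⟨a, ha, u, hu, hx⟩ ⟨b, hb, v, hv, hy⟩
    exact ⟨a * b, mul_mem ha hb, u * v, mul_mem hu hv, by
      rw [Subgroup.coe_mul, hx, hy, map_mul]; exact mul_mul_mul_comm _ _ _ _⟩
  inv_mem' := by
    rintro x ⟨a, ha, u, hu, hx⟩
    exact ⟨a⁻¹, inv_mem ha, u⁻¹, inv_mem hu, by
      rw [Subgroup.coe_inv, hx, map_inv, mul_inv]⟩

/-- `C_T(F) = J(F) / F^× U^T(F)`, additively -/
def AT (T : Finset Nat.Primes) (F : IntermediateField ℚ Qbar) : Type :=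
  Additive (↥(JF F) ⧸ PT T F)

instance instAddCommGroupAT (T : Finset Nat.Primes) (F : IntermediateField ℚ Qbar) :
    AddCommGroup (AT T F) :=
  inferInstanceAs (AddCommGroup (Additive (↥(JF F) ⧸ PT T F)))

/-- the class of an idele of `F` in `C_T(F)` -/
def AT.mk (T : Finset Nat.Primes) (F : IntermediateField ℚ Qbar) : Additive ↥(JF F) →+ AT T F :=
  MonoidHom.toAdditive (QuotientGroup.mk' (PT T F))

lemma AT.mk_surjective (T : Finset Nat.Primes) (F : IntermediateField ℚ Qbar) :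
    Function.Surjective (AT.mk T F) := by
  intro c
  obtain ⟨x, hx⟩ := QuotientGroup.mk'_surjective (PT T F) (Additive.toMul c)
  exact ⟨Additive.ofMul x, hx⟩

lemma AT.mk_eq_zero_iff {T : Finset Nat.Primes} {F : IntermediateField ℚ Qbar}
    (x : Additive ↥(JF F)) :
    AT.mk T F x = 0 ↔ ∃ a ∈ FX F, ∃ u ∈ UId T, ((Additive.toMul x : ↥(JF F)) : JJ) = diag a * u := by
  have : AT.mk T F x = 0 ↔ (Additive.toMul x : ↥(JF F)) ∈ PT T F := by
    rw [← QuotientGroup.eq_one_iff]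
    exact Iff.rfl
  rw [this]
  exact Iff.rfl

/-- the specification of the action of `σ` on `C_T(L)` -/
def IsSigmaAT (σ : GQ) (T : Finset Nat.Primes) (L : IntermediateField ℚ Qbar)
    (σA : AddMonoid.End (AT T L)) : Prop :=
  ∀ (x : JF L) (y : JF L), (y : JJ) = σ • (x : JJ) →
    σA (AT.mk T L (Additive.ofMul x)) = AT.mk T L (Additive.ofMul y)

/-- the hypotheses of the local bridge: `K'/K` cyclic of degree `p` generated by `h₀`,
inertia acts trivially -/
structure IsLocLayer (p : ℕ) (q : Nat.Primes) (K K' : IntermediateField ℚ_[(q : ℕ)] (Om q))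
    (h₀ : Gq q) : Prop where
  le : K ≤ K'
  mem : h₀ ∈ K.fixingSubgroup
  not_mem : h₀ ∉ K'.fixingSubgroup
  pow_mem : h₀ ^ p ∈ K'.fixingSubgroup
  gen : ∀ h ∈ K.fixingSubgroup, ∃ i < p, ∃ w ∈ K'.fixingSubgroup, h = h₀ ^ i * w
  conj : ∀ h ∈ K.fixingSubgroup, ∀ w ∈ K'.fixingSubgroup, h * w * h⁻¹ ∈ K'.fixingSubgroup
  unram : ∀ h ∈ inertiaq q, h ∈ K.fixingSubgroup → h ∈ K'.fixingSubgroup

/-- index set: the places above `T` (for a system `R` of representatives) -/
abbrev PlT (T : Finset Nat.Primes) (R : ∀ q : Nat.Primes, Finset GQ) : Type :=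
  Σ q : {q // q ∈ T}, {g // g ∈ R q.1}

end

end Fermat.Agent.S55Lib
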