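import Fermat.Agent.S55.G1b.Layer

/-! # S55 G1b (LH): Hilbert 90 for a layer -/

set_option autoImplicit false
set_option linter.unusedSectionVars false
set_option linter.unusedVariables false
set_option linter.style.haveILetI false

namespace Fermat.Agent.S55Lib

noncomputable section

open groupCohomology

lemma LH_coe_Nσ (p : ℕ) (σ : GQ) (a : Qbarˣ) :
    ((Nσ p σ a : Qbarˣ) : Qbar) = ∏ j ∈ Finset.range p, (σ ^ j) (a : Qbar) := by
  unfold Nσ
  rw [Units.coe_prod]
  rfl

/-- Hilbert 90 for the layer: `a ∈ L^×`, `N a = 1` ⇒ `a = σ b / b`. -/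
theorem IsLayer.hilbert90 {p : ℕ} [Fact p.Prime] {F L : IntermediateField ℚ Qbar} {σ : GQ}
    (hL : IsLayer p F L σ) (a : Qbarˣ) (ha : a ∈ FX L) (hN : Nσ p σ a = 1) :
    ∃ b ∈ FX L, a = σ • b / b := by
  classical
  have hp : p.Prime := Fact.out
  have haL : (a : Qbar) ∈ L := ha
  have hpowL : ∀ (j : ℕ) (x : Qbar), x ∈ L → (σ ^ j) x ∈ L := fun j x hx =>
    hL.normal _ (Subgroup.pow_mem _ hL.mem j) x hx
  set c : ℕ → Qbar := fun i => ∏ j ∈ Finset.range i, (σ ^ j) (a : Qbar) with hc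
  have hcL : ∀ i, c i ∈ L := fun i => prod_mem (fun j _ => hpowL j _ haL)
  have hcp : c p = 1 := by
    rw [hc]
    show ∏ j ∈ Finset.range p, (σ ^ j) (a : Qbar) = 1
    rw [← LH_coe_Nσ, hN, Units.val_one]
  have hc0 : c 0 = 1 := by simp [hc]
  have hcs : ∀ i, (a : Qbar) * σ (c i) = c (i + 1) := by
    intro i
    simp only [hc]
    rw [Finset.prod_range_succ', map_prod, pow_zero, mul_comm]
    congr 1
    apply Finset.prod_congr rfl
    intro k _
    rw [pow_succ', AlgEquiv.mul_apply]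
  let χ : Fin p → (↥L →* Qbar) := fun i =>
    { toFun := fun x => (σ ^ (i : ℕ)) (x : Qbar)
      map_one' := by simp
      map_mul' := fun x y => by simp }
  have hinj : Function.Injective χ := by
    have key : ∀ i j : Fin p, (i : ℕ) ≤ j → χ i = χ j → i = j := by
      intro i j hij h
      have h1 : σ ^ ((j : ℕ) - i) ∈ L.fixingSubgroup := by
        rw [IntermediateField.mem_fixingSubgroup_iff]
        intro x hx
        have h2 : (σ ^ (i : ℕ)) x = (σ ^ (j : ℕ)) x := DFunLike.congr_fun h (⟨x, hx⟩ : L)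
        have h3 : (σ ^ (j : ℕ)) x = (σ ^ (i : ℕ)) ((σ ^ ((j : ℕ) - i)) x) := by
          rw [← AlgEquiv.mul_apply, ← pow_add, Nat.add_sub_cancel' hij]
        rw [h3] at h2
        exact ((σ ^ (i : ℕ)).injective h2).symm
      rw [hL.pow_mem_iff] at h1
      have h4 : (j : ℕ) - i = 0 := Nat.eq_zero_of_dvd_of_lt h1 (by omega)
      exact Fin.ext (by omega)
    intro i j h
    rcases le_total (i : ℕ) j with hij | hij
    · exact key i j hij h
    · exact (key j i hij h.symm).symm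
  have hli := (linearIndependent_monoidHom ↥L Qbar).comp χ hinj
  have hex : ∃ θ : L, ∑ i : Fin p, c i * (σ ^ (i : ℕ)) (θ : Qbar) ≠ 0 := by
    by_contra hcon
    push Not at hcon
    have h0 := Fintype.linearIndependent_iff.1 hli (fun i => c i) (by
      funext θ
      simp only [Finset.sum_apply, Pi.smul_apply, Function.comp, smul_eq_mul, Pi.zero_apply]
      exact hcon θ) ⟨0, hp.pos⟩
    simp only [hc0] at h0
    exact one_ne_zero h0
  obtain ⟨θ, hθ⟩ := hex
  rw [Fin.sum_univ_eq_sum_range (fun i => c i * (σ ^ i) (θ : Qbar)) p] at hθ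
  set β : Qbar := ∑ i ∈ Finset.range p, c i * (σ ^ i) (θ : Qbar) with hβ
  have hβL : β ∈ L := sum_mem (fun i _ => mul_mem (hcL i) (hpowL i _ θ.2))
  have hσp : (σ ^ p) (θ : Qbar) = θ :=
    (IntermediateField.mem_fixingSubgroup_iff _ _).1 hL.pow_mem _ θ.2
  have hkey : (a : Qbar) * σ β = β := by
    rw [hβ, map_sum, Finset.mul_sum]
    have h1 : ∀ i, (a : Qbar) * σ (c i * (σ ^ i) (θ : Qbar)) = c (i + 1) * (σ ^ (i + 1)) (θ : Qbar) := by
      intro i
      rw [map_mul, ← mul_assoc, hcs, pow_succ', AlgEquiv.mul_apply]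
    simp only [h1]
    have h2 := Finset.sum_range_succ (fun i => c i * (σ ^ i) (θ : Qbar)) p
    have h3 := Finset.sum_range_succ' (fun i => c i * (σ ^ i) (θ : Qbar)) p
    rw [h2] at h3
    simp only [hcp, hσp, hc0, pow_zero, AlgEquiv.one_apply] at h3
    exact (add_right_cancel h3).symm
  refine ⟨(Units.mk0 β hθ)⁻¹, inv_mem (show (β : Qbar) ∈ L from hβL), ?_⟩
  apply Units.ext
  have hσβ : σ β ≠ 0 := by
    intro h
    rw [h, mul_zero] at hkey
    exact hθ hkey.symm
  show (a : Qbar) = _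
  rw [Units.val_div_eq_div_val]
  show (a : Qbar) = σ ((((Units.mk0 β hθ)⁻¹ : Qbarˣ) : Qbar)) / (((Units.mk0 β hθ)⁻¹ : Qbarˣ) : Qbar)
  rw [Units.val_inv_eq_inv_val, Units.val_mk0, map_inv₀]
  field_simp
  exact hkey

end

end Fermat.Agent.S55Lib
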