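import Fermat.Agent.S55.G1b.Eqv

/-! # S55 G1b (GL): gluing an idele from an equivariant family of components -/

set_option autoImplicit false
set_option linter.unusedSectionVars false
set_option linter.unusedVariables false
set_option linter.style.haveILetI false

namespace Fermat.Agent.S55Lib

noncomputable section

open groupCohomology

lemma GL_exists_level (L : IntermediateField ℚ Qbar) [FiniteDimensional ℚ L] :
    ∃ U ∈ levAll.mem, U ≤ L.fixingSubgroup := by
  refine ⟨(IntermediateField.normalClosure ℚ L Qbar).fixingSubgroup,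
    ⟨IntermediateField.normalClosure ℚ L Qbar, normalClosure.is_finiteDimensional _ _ _, ?_,
      trivial, rfl⟩, IntermediateField.fixingSubgroup_antitone (IntermediateField.le_normalClosure L)⟩
  intro σ x hx
  haveI : Normal ℚ (IntermediateField.normalClosure ℚ L Qbar) := normalClosure.normal _ _ _
  have := (IntermediateField.normal_iff_forall_map_le'.mp this) σ
  exact this ⟨x, hx, rfl⟩

/-- an equivariant family of components is an idele of `L`. -/
theorem exists_idele_of_family (L : IntermediateField ℚ Qbar) [FiniteDimensional ℚ L]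
    (ζ : ∀ q : Nat.Primes, GQ → (Om q)ˣ) (heq : ∀ q, IsEqv q L (ζ q))
    (hfin : {q : Nat.Primes | ¬ IsUnitVal q (ζ q)}.Finite) :
    ∃ x ∈ JF L, ∀ q g, cmp x q g = ζ q g := by
  obtain ⟨U, hU, hUL⟩ := GL_exists_level L
  have h1 : ∀ q, ζ q ∈ Jq q := fun q =>
    ⟨fun h g => (heq q).left h g, U, hU, fun g s hs => (heq q).right g s (hUL hs)⟩
  have h2 : (fun q => (⟨ζ q, h1 q⟩ : Jq q)) ∈ JJ := by
    refine ⟨⟨U, hU, fun s hs q => ?_⟩, hfin.subset ?_⟩
    · apply Subtype.ext
      funext g
      exact (heq q).right g s (hUL hs)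
    · intro q hq hcon
      exact hq hcon
  refine ⟨⟨_, h2⟩, ?_, fun q g => rfl⟩
  intro s hs
  apply JJ.ext
  intro q g
  rw [cmp_smul]
  exact (heq q).right g s hs

theorem cmp_Nσ (p : ℕ) (σ : GQ) (x : JJ) (q : Nat.Primes) (g : GQ) :
    cmp (Nσ p σ x) q g = ∏ i ∈ Finset.range p, cmp x q (g * σ ^ i) := by
  unfold Nσ
  induction p with
  | zero => simp
  | succ n ih => rw [Finset.prod_range_succ, Finset.prod_range_succ, cmp_mul, ih, cmp_smul]

end

end Fermat.Agent.S55Lib
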