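import Fermat.Agent.S55.G1b.LBUnitsNorm

/-! # S55 G1b (LB9): `Ĥ^{-1}` of the units vanishes in an unramified local layer -/

set_option autoImplicit false
set_option linter.unusedSectionVars false
set_option linter.unusedVariables false

namespace Fermat.Agent.S55Lib

noncomputable section

variable {q : Nat.Primes}

section
variable {p : ℕ} {K K' : IntermediateField ℚ_[(q : ℕ)] (Om q)} {h₀ : Gq q}

/-- `K'` is stable under `Fix K` -/
lemma IsLocLayer.LB9_stable (H : IsLocLayer p q K K' h₀) (h : Gq q) (hh : h ∈ K.fixingSubgroup)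
    (x : Om q) (hx : x ∈ K') : h x ∈ K' := by
  apply LB8_mem_of_fixed
  intro n hn
  have h1 := H.conj h⁻¹ (inv_mem hh) n hn
  rw [inv_inv] at h1
  have h2 := (IntermediateField.mem_fixingSubgroup_iff _ _).1 h1 x hx
  have h3 : n (h x) = h ((h⁻¹ * n * h) x) := by
    show n (h x) = h (h⁻¹ (n (h x)))
    exact (AlgEquiv.apply_symm_apply h _).symm
  rw [h3]
  exact congrArg h h2

lemma IsLocLayer.LB9_pow_mem (H : IsLocLayer p q K K' h₀) (i : ℕ) (x : Om q) (hx : x ∈ K') :
    (h₀ ^ i) x ∈ K' :=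
  H.LB9_stable _ (_root_.pow_mem H.mem i) x hx

/-- the powers `h₀^i`, `i < p`, are distinct on `K'` -/
lemma IsLocLayer.LB9_inj [Fact p.Prime] (H : IsLocLayer p q K K' h₀) (i j : ℕ) (hi : i < p)
    (hj : j < p) (hij : ∀ x ∈ K', (h₀ ^ i) x = (h₀ ^ j) x) : i = j := by
  have key : ∀ i j : ℕ, i < j → j < p → (∀ x ∈ K', (h₀ ^ i) x = (h₀ ^ j) x) → False := by
    intro i j hlt hj hij
    have h1 : h₀ ^ (j - i) ∈ K'.fixingSubgroup := by
      rw [IntermediateField.mem_fixingSubgroup_iff]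
      intro x hx
      have h2 := hij x hx
      have h3 : h₀ ^ j = h₀ ^ i * h₀ ^ (j - i) := by rw [← pow_add]; congr 1; omega
      rw [h3] at h2
      exact ((h₀ ^ i).injective h2).symm
    have hcop : Nat.Coprime (j - i) p := by
      apply Nat.Coprime.symm
      rw [Nat.Prime.coprime_iff_not_dvd (Fact.out : p.Prime)]
      intro hd
      have := Nat.le_of_dvd (by omega) hd
      omega
    apply H.not_mem
    have h4 : h₀ ^ (Nat.gcd (j - i) p : ℤ) ∈ K'.fixingSubgroup := by
      rw [Nat.gcd_eq_gcd_ab, zpow_add, zpow_mul, zpow_mul, zpow_natCast, zpow_natCast]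
      exact mul_mem (zpow_mem h1 _) (zpow_mem H.pow_mem _)
    rw [hcop] at h4
    simpa using h4
  rcases lt_trichotomy i j with h | h | h
  · exact (key i j h hj hij).elim
  · exact h
  · exact (key j i h hi fun x hx => (hij x hx).symm).elim

/-- Dedekind: a Poincare series does not vanish identically -/
lemma IsLocLayer.LB9_series [Fact p.Prime] (H : IsLocLayer p q K K' h₀) (c : ℕ → Om q)
    (hc : c 0 = 1) : ∃ x ∈ K', ∑ i ∈ Finset.range p, c i * (h₀ ^ i) x ≠ 0 := by
  by_contra hcon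
  push Not at hcon
  have hp : 0 < p := (Fact.out : p.Prime).pos
  let χ : Fin p → (K' →* Om q) := fun i =>
    ((h₀ ^ (i : ℕ) : Gq q) : Om q →* Om q).comp (K'.val : K' →* Om q)
  have hχ : Function.Injective χ := by
    intro i j hij
    apply Fin.ext
    apply H.LB9_inj i j i.2 j.2
    intro x hx
    exact DFunLike.congr_fun hij (⟨x, hx⟩ : K')
  have hli := (linearIndependent_monoidHom K' (Om q)).comp χ hχ
  rw [Fintype.linearIndependent_iff] at hli
  have h0 := hli (fun i => c i) (by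
    funext x
    have := hcon x x.2
    rw [Finset.sum_range] at this
    simpa [χ] using this) ⟨0, hp⟩
  rw [show c ((⟨0, hp⟩ : Fin p) : ℕ) = 1 from hc] at h0
  exact one_ne_zero h0

end

/-- (LB9) LBUnitsH90.lean : `Ĥ^{-1}` of the units vanishes.  Hilbert 90
(`groupCohomology.exists_div_of_norm_eq_one` through (LB4), or the Poincare series) gives
`w = h₀ z / z`, `z ∈ K'^×`; `unram_nm` gives `y ∈ K` with `‖y‖ = ‖z‖`; replace `z` by `z / y`. -/
theorem LB_units_h90 {p : ℕ} [Fact p.Prime] {K K' : IntermediateField ℚ_[(q : ℕ)] (Om q)}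
    [FiniteDimensional ℚ_[(q : ℕ)] K] [FiniteDimensional ℚ_[(q : ℕ)] K'] {h₀ : Gq q}
    (H : IsLocLayer p q K K' h₀) (w : (Om q)ˣ) (hw : (w : Om q) ∈ K') (hw1 : ‖(w : Om q)‖ = 1)
    (hN : ∏ i ∈ Finset.range p, h₀ ^ i • w = 1) :
    ∃ z : (Om q)ˣ, (z : Om q) ∈ K' ∧ ‖(z : Om q)‖ = 1 ∧ w = h₀ • z / z := by
  have hp : 0 < p := (Fact.out : p.Prime).pos
  have hN' : ∏ i ∈ Finset.range p, (h₀ ^ i) (w : Om q) = 1 := by
    rw [← LB8_val_prod, hN, Units.val_one]
  let c : ℕ → Om q := fun i => ∏ j ∈ Finset.range i, (h₀ ^ j) (w : Om q)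
  have hc0 : c 0 = 1 := Finset.prod_range_zero _
  have hcK : ∀ i, c i ∈ K' := fun i => prod_mem fun j _ => H.LB9_pow_mem j _ hw
  have hcs : ∀ i, (w : Om q) * h₀ (c i) = c (i + 1) := by
    intro i
    show (w : Om q) * h₀ (∏ j ∈ Finset.range i, (h₀ ^ j) (w : Om q)) =
      ∏ j ∈ Finset.range (i + 1), (h₀ ^ j) (w : Om q)
    rw [Finset.prod_range_succ', map_prod, mul_comm]
    congr 1
    apply Finset.prod_congr rfl
    intro j _
    rw [pow_succ']
    rfl
  obtain ⟨x, hx, hne⟩ := H.LB9_series c hc0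
  set z' : Om q := ∑ i ∈ Finset.range p, c i * (h₀ ^ i) x with hz'
  have hz'K : z' ∈ K' := sum_mem fun i _ => mul_mem (hcK i) (H.LB9_pow_mem i x hx)
  have hxp : (h₀ ^ p) x = x := (IntermediateField.mem_fixingSubgroup_iff _ _).1 H.pow_mem x hx
  have hrel : (w : Om q) * h₀ z' = z' := by
    have e1 : (w : Om q) * h₀ z' = ∑ i ∈ Finset.range p, c (i + 1) * (h₀ ^ (i + 1)) x := by
      rw [hz', map_sum, Finset.mul_sum]
      apply Finset.sum_congr rfl
      intro i _
      rw [map_mul, ← mul_assoc, hcs, pow_succ']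
      rfl
    have e2 := Finset.sum_range_succ' (fun i => c i * (h₀ ^ i) x) p
    have e3 := Finset.sum_range_succ (fun i => c i * (h₀ ^ i) x) p
    rw [e3] at e2
    have e4 : c p = 1 := hN'
    simp only [e4, hxp, hc0, pow_zero, one_mul] at e2
    rw [e1]
    have e5 : (1 : Gq q) x = x := rfl
    rw [e5] at e2
    exact (add_right_cancel e2).symm
  obtain ⟨ζ', hζ'⟩ := LB8_exists_prim K p hp
  obtain ⟨y, hyK, hy⟩ := Om_unram_nm p hp ζ' hζ' z' fun h hh hhζ =>
    (IntermediateField.mem_fixingSubgroup_iff _ _).1 ((H.fix_iff ζ' hζ' h hh).2 hhζ) z' hz'K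
  have hy0 : y ≠ 0 := by
    intro h0
    rw [h0, norm_zero, norm_eq_zero] at hy
    exact hne hy
  have hh0y : h₀ y = y := (IntermediateField.mem_fixingSubgroup_iff _ _).1 H.mem y hyK
  have hh0z : h₀ z' ≠ 0 := by
    intro h0
    rw [h0, mul_zero] at hrel
    exact hne hrel.symm
  refine ⟨Units.mk0 (y / z') (div_ne_zero hy0 hne), div_mem (H.le hyK) hz'K, ?_, ?_⟩
  · rw [Units.val_mk0, norm_div, hy, div_self]
    rw [← hy]
    exact norm_ne_zero_iff.2 hne
  · apply Units.ext
    rw [Units.val_div_eq_div_val]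
    show (w : Om q) = h₀ (y / z') / (y / z')
    rw [map_div₀, hh0y]
    field_simp
    exact hrel

end

end Fermat.Agent.S55Lib
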