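import Fermat.Agent.S55.G1b.WgFix
import Fermat.Agent.S55.G1b.DcExt
import Fermat.Agent.S55.G1b.Glue
import Fermat.Agent.S55.G1b.LBUnitsH90

/-! # S55 G1b (UH): `Ĥ^{-1}` of the unramified unit ideles vanishes (ROOT `unit_ideles_h90`) -/

set_option autoImplicit false
set_option linter.unusedSectionVars false
set_option linter.unusedVariables false
set_option linter.style.haveILetI false

namespace Fermat.Agent.S55Lib

noncomputable section

open groupCohomology

section UH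
variable {p : ℕ} [Fact p.Prime] {F L : IntermediateField ℚ Qbar} {σ : GQ}

lemma UH_units_fixed_iff {q : Nat.Primes} (h : Gq q) (z : (Om q)ˣ) :
    h • z = z ↔ h (z : Om q) = (z : Om q) := by
  rw [Units.ext_iff]; rfl

lemma UH_samePlace_mono (hL : IsLayer p F L σ) {q : Nat.Primes} {g₀ g : GQ}
    (h : SamePlace q L g₀ g) : SamePlace q F g₀ g := by
  obtain ⟨h₁, s, hs, rfl⟩ := h
  exact ⟨h₁, s, hL.fix_le hs, rfl⟩

/-- one place. -/
theorem layer_h90_place (hL : IsLayer p F L σ) (q : Nat.Primes) (hur : UnramAt q F L)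
    (w : GQ → (Om q)ˣ) (hw : IsEqv q L w) (hw1 : IsUnitVal q w)
    (hN : ∀ g, ∏ i ∈ Finset.range p, w (g * σ ^ i) = 1) (g₀ : GQ) :
    ∃ z : GQ → (Om q)ˣ, IsEqv q L z ∧ IsUnitVal q z ∧
      (∀ g, SamePlace q F g₀ g → w g = z (g * σ) / z g) ∧
      (∀ g, ¬ SamePlace q F g₀ g → z g = 1) := by
  classical
  haveI := hL.finF
  haveI := hL.finL
  have hp : p.Prime := Fact.out
  rcases layer_dichotomy hL q g₀ with Hs | ⟨h₀, s, hs, hh⟩
  · -- split
    set c : ℕ → (Om q)ˣ := fun k => ∏ j ∈ Finset.range k, w (g₀ * σ ^ j) with hc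
    have hcfix : ∀ k, ∀ h ∈ Wg q (g₀ * σ ^ k) L, h • c k = c k := by
      intro k h hh
      rw [hL.Wg_shift g₀ _ (Subgroup.pow_mem _ hL.mem k)] at hh
      simp only [hc, Finset.smul_prod']
      apply Finset.prod_congr rfl
      intro j _
      apply hw.smul_eq
      rw [hL.Wg_shift g₀ _ (Subgroup.pow_mem _ hL.mem j)]
      exact hh
    have hc1 : ∀ k, ‖((c k : (Om q)ˣ) : Om q)‖ = 1 := by
      intro k
      exact IsUnitVal.prod (Finset.range k) (ζ := fun j g => w (g * σ ^ j))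
        (fun j _ g => hw1 _) g₀
    choose ζ hζ1 hζ2 hζ3 hζ4 using fun k => exists_dcExt L q (g₀ * σ ^ k) (c k) (hcfix k)
    set z : GQ → (Om q)ˣ := fun g => ∏ k ∈ Finset.range p, ζ k g with hz
    have hzE : IsEqv q L z := IsEqv.prod _ (fun k _ => hζ1 k)
    have hzlt : ∀ m < p, z (g₀ * σ ^ m) = c m := by
      intro m hm
      simp only [hz]
      rw [Finset.prod_eq_single m]
      · exact hζ2 m
      · intro k hk hkm
        apply hζ3
        intro hcon
        exact hkm (Hs k m (Finset.mem_range.1 hk) hm hcon)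
      · intro h
        exact absurd (Finset.mem_range.2 hm) h
    have hzle : ∀ m ≤ p, z (g₀ * σ ^ m) = c m := by
      intro m hm
      rcases Nat.lt_or_ge m p with h | h
      · exact hzlt m h
      · have hmp : m = p := le_antisymm hm h
        subst hmp
        rw [hzE.right g₀ _ hL.pow_mem]
        have h0 := hzlt 0 hp.pos
        rw [pow_zero, mul_one] at h0
        rw [h0]
        simp only [hc, Finset.range_zero, Finset.prod_empty]
        exact (hN g₀).symm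
    refine ⟨z, hzE, IsUnitVal.prod _ (fun k _ => hζ4 k (hc1 k)), ?_, ?_⟩
    · intro g hg
      obtain ⟨k, hk, hkg⟩ := hL.exists_samePlace hg
      have hδ : IsEqv q L (fun g => z (g * σ) / z g) := (hL.isEqv_shift hzE σ hL.mem).div hzE
      refine hw.eq_of_samePlace hδ hkg ?_
      show w (g₀ * σ ^ k) = z (g₀ * σ ^ k * σ) / z (g₀ * σ ^ k)
      rw [mul_assoc, ← pow_succ, hzle (k + 1) hk, hzle k hk.le]
      simp only [hc, Finset.prod_range_succ]
      rw [mul_div_cancel_left]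
    · intro g hg
      apply Finset.prod_eq_one
      intro k _
      apply hζ3
      rintro ⟨h₁, s, hs, rfl⟩
      apply hg
      exact ⟨h₁, σ ^ k * s, mul_mem (Subgroup.pow_mem _ hL.mem k) (hL.fix_le hs), by group⟩
  · -- non-split
    have HL := isLocLayer_of_nonsplit hL q hur g₀ h₀ s hs hh
    have hmem : ((w g₀ : (Om q)ˣ) : Om q) ∈ locF q g₀ L := by
      rw [mem_locF_iff_fixed]
      intro h hh'
      exact (UH_units_fixed_iff h _).1 (hw.smul_eq g₀ h hh')
    have hN0 : ∏ i ∈ Finset.range p, h₀ ^ i • w g₀ = 1 := by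
      rw [← hN g₀]
      apply Finset.prod_congr rfl
      intro i _
      rw [hL.eqv_nonsplit hs hh hw i]
    obtain ⟨c, hc, hc1, hcw⟩ := LB_units_h90 HL (w g₀) hmem (hw1 g₀) hN0
    obtain ⟨z, h1, h2, h3, h4⟩ := exists_dcExt L q g₀ c (fun h hh' => (UH_units_fixed_iff h c).2
      ((mem_locF_iff_fixed L q g₀ _).1 hc h hh'))
    refine ⟨z, h1, h4 hc1, ?_, ?_⟩
    · intro g hg
      have hg' := hL.samePlace_nonsplit hs hh hg
      have hδ : IsEqv q L (fun g => z (g * σ) / z g) := (hL.isEqv_shift h1 σ hL.mem).div h1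
      refine hw.eq_of_samePlace hδ hg' ?_
      show w g₀ = z (g₀ * σ) / z g₀
      have e := hL.eqv_nonsplit hs hh h1 1
      rw [pow_one, pow_one] at e
      rw [e, h2]
      exact hcw
    · intro g hg
      apply h3
      intro hcon
      exact hg (UH_samePlace_mono hL hcon)

theorem layer_h90_local (hL : IsLayer p F L σ) (q : Nat.Primes) (hur : UnramAt q F L)
    (w : GQ → (Om q)ˣ) (hw : IsEqv q L w) (hw1 : IsUnitVal q w)
    (hN : ∀ g, ∏ i ∈ Finset.range p, w (g * σ ^ i) = 1) :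
    ∃ z : GQ → (Om q)ˣ, IsEqv q L z ∧ IsUnitVal q z ∧ ∀ g, w g = z (g * σ) / z g := by
  classical
  haveI := hL.finF
  obtain ⟨R, hR, hR'⟩ := exists_reps F q
  choose z hz1 hz2 hz3 hz4 using layer_h90_place hL q hur w hw hw1 hN
  refine ⟨fun g => ∏ g₀ ∈ R, z g₀ g, IsEqv.prod R (fun g₀ _ => hz1 g₀),
    IsUnitVal.prod R (fun g₀ _ => hz2 g₀), ?_⟩
  intro g
  obtain ⟨g₁, hg₁, hsp⟩ := hR g
  have hspσ : SamePlace q F g₁ (g * σ) := by
    obtain ⟨h₁, s, hs, rfl⟩ := hsp
    exact ⟨h₁, s * σ, mul_mem hs hL.mem, by group⟩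
  have hne : ∀ g', SamePlace q F g₁ g' → ∀ g₀ ∈ R, g₀ ≠ g₁ → z g₀ g' = 1 := by
    intro g' hg' g₀ hg₀ hne
    apply hz4
    intro hcon
    exact hne (hR' g₀ hg₀ g₁ hg₁ (hcon.trans hg'.symm))
  show w g = (∏ g₀ ∈ R, z g₀ (g * σ)) / ∏ g₀ ∈ R, z g₀ g
  rw [Finset.prod_eq_single g₁ (hne _ hspσ) (fun h => absurd hg₁ h),
    Finset.prod_eq_single g₁ (hne _ hsp) (fun h => absurd hg₁ h)]
  exact hz3 g₁ g hsp

end UH

/-! ## ROOT -/

theorem unit_ideles_h90 (p : ℕ) [Fact p.Prime] (F L : IntermediateField ℚ Qbar) (σ : GQ)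
    (hL : IsLayer p F L σ) (T : Finset Nat.Primes) (hur : ∀ q ∉ T, UnramAt q F L)
    (w : JJ) (hw : w ∈ JF L ⊓ UId T) (hN : ∏ i ∈ Finset.range p, σ ^ i • w = 1) :
    ∃ z ∈ JF L ⊓ UId T, w = σ • z / z := by
  classical
  haveI := hL.finL
  have hN' : ∀ q g, ∏ i ∈ Finset.range p, cmp w q (g * σ ^ i) = 1 := by
    intro q g
    have h := cmp_Nσ p σ w q g
    unfold Nσ at h
    rw [← h, hN]; rfl
  have key : ∀ q : Nat.Primes, ∃ z : GQ → (Om q)ˣ, IsEqv q L z ∧ IsUnitVal q z ∧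
      (q ∈ T → ∀ g, z g = 1) ∧ ∀ g, cmp w q g = z (g * σ) / z g := by
    intro q
    by_cases hq : q ∈ T
    · refine ⟨fun _ => 1, isEqv_one, fun g => by simp, fun _ _ => rfl, fun g => ?_⟩
      rw [hw.2.1 q hq g]; simp
    · obtain ⟨z, h1, h2, h3⟩ := layer_h90_local hL q (hur q hq) (cmp w q) (cmp_isEqv hw.1 q)
        (fun g => hw.2.2 q hq g) (hN' q)
      exact ⟨z, h1, h2, fun h => absurd h hq, h3⟩
  choose z hz1 hz2 hz3 hz4 using key
  obtain ⟨x, hx, hxc⟩ := exists_idele_of_family L z hz1 (by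
    have : {q : Nat.Primes | ¬ IsUnitVal q (z q)} = ∅ := by
      ext q; simp [hz2 q]
    rw [this]; exact Set.finite_empty)
  refine ⟨x, ⟨hx, fun q hq g => by rw [hxc, hz3 q hq g], fun q hq g => by
    rw [hxc]; exact hz2 q g⟩, ?_⟩
  apply JJ.ext
  intro q g
  rw [div_eq_mul_inv, cmp_mul, cmp_inv, cmp_smul, hxc, hxc, ← div_eq_mul_inv]
  exact hz4 q g

end

end Fermat.Agent.S55Lib
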