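import Fermat.Agent.S55.G1b.SigmaAT
import Fermat.Agent.S55.G1b.LayerH90
import Fermat.Agent.S55.G1b.UnitH90
import Fermat.Agent.S55.RootDefs

/-! # S55 G1b (DS) (FE): descent for `C_T`: `C_T(L)^σ = C_T(F)` -/

set_option autoImplicit false
set_option linter.unusedSectionVars false
set_option linter.unusedVariables false
set_option linter.style.haveILetI false

namespace Fermat.Agent.S55Lib

noncomputable section

open groupCohomology

section DS
variable {p : ℕ} [Fact p.Prime] {F L : IntermediateField ℚ Qbar} {σ : GQ}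

theorem AT_descent (hL : IsLayer p F L σ) (T : Finset Nat.Primes) (hT : T.Nonempty)
    (hur : ∀ q ∉ T, UnramAt q F L) (x : JJ) (hx : x ∈ JF L)
    (hfix : ∃ a ∈ FX L, ∃ u ∈ UId T, σ • x = x * (diag a * u)) :
    ∃ y ∈ JF F, ∃ b ∈ FX L, ∃ v ∈ UId T, x = y * (diag b * v) := by
  haveI := hL.finL
  obtain ⟨a, ha, u, hu, hxa⟩ := hfix
  have hdaL : diag a ∈ JF L := (diag_mem_JF_iff L a).2 ha
  have hσx : σ • x ∈ JF L := hL.smul_mem_JF σ hL.mem hx
  have hu_eq : u = (σ • x) * x⁻¹ * (diag a)⁻¹ := by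
    rw [hxa, mul_comm x, mul_assoc (diag a * u), mul_inv_cancel, mul_one, mul_comm (diag a),
      mul_assoc, mul_inv_cancel, mul_one]
  have huL : u ∈ JF L := by
    rw [hu_eq]
    exact mul_mem (mul_mem hσx (inv_mem hx)) (inv_mem hdaL)
  have hN : diag (Nσ p σ a) * Nσ p σ u = 1 := by
    have h1 : Nσ p σ (σ • x) = Nσ p σ x * (diag (Nσ p σ a) * Nσ p σ u) := by
      rw [hxa, Nσ_mul, Nσ_mul, Nσ_diag]
    rw [hL.Nσ_smul hx] at h1
    exact (mul_eq_left.1 h1.symm)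
  have hNa : Nσ p σ a = 1 := by
    apply eq_one_of_diag_mem_UId T hT
    rw [eq_inv_of_mul_eq_one_left hN]
    exact inv_mem (Nσ_mem_UId p σ T hu)
  have hNu : Nσ p σ u = 1 := by
    rw [hNa, map_one, one_mul] at hN
    exact hN
  obtain ⟨b, hb, hab⟩ := hL.hilbert90 a ha hNa
  obtain ⟨z, hz, huz⟩ := unit_ideles_h90 p F L σ hL T hur u ⟨huL, hu⟩ hNu
  have hdbL : diag b ∈ JF L := (diag_mem_JF_iff L b).2 hb
  refine ⟨x * (diag b * z)⁻¹, ?_, b, hb, z, hz.2, by group⟩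
  apply hL.mem_JF (mul_mem hx (inv_mem (mul_mem hdbL hz.1)))
  rw [smul_mul', smul_inv', smul_mul', smul_diag, hxa, hab, huz, map_div]
  have e1 : ∀ A B C D E : JJ, A * (B / C * (D / E)) * (B * D)⁻¹ = A * (C * E)⁻¹ := by
    intro A B C D E
    rw [div_eq_mul_inv, div_eq_mul_inv, mul_inv, mul_inv]
    calc A * (B * C⁻¹ * (D * E⁻¹)) * (B⁻¹ * D⁻¹)
        = A * (C⁻¹ * E⁻¹) * ((B * B⁻¹) * (D * D⁻¹)) := by
          simp only [mul_assoc, mul_comm, mul_left_comm]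
      _ = A * (C⁻¹ * E⁻¹) := by rw [mul_inv_cancel, mul_inv_cancel, one_mul, mul_one]
  exact e1 _ _ _ _ _

theorem AT_inj (hL : IsLayer p F L σ) (T : Finset Nat.Primes) (hT : T.Nonempty)
    (x : JJ) (hx : x ∈ JF F) (a : Qbarˣ) (ha : a ∈ FX L) (u : JJ) (hu : u ∈ UId T)
    (hxa : x = diag a * u) : a ∈ FX F ∧ u ∈ JF F := by
  haveI := hL.finF
  have hfix : ∀ s ∈ F.fixingSubgroup, s • a = a := by
    intro s hs
    have h1 := hx s hs
    rw [hxa, smul_mul', smul_diag] at h1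
    have h2 : diag (s • a / a) = u * (s • u)⁻¹ := by
      rw [map_div, div_eq_iff_eq_mul]
      calc diag (s • a) = diag (s • a) * s • u * (s • u)⁻¹ := by group
        _ = diag a * u * (s • u)⁻¹ := by rw [h1]
        _ = u * (s • u)⁻¹ * diag a := by
          simp only [mul_assoc, mul_comm, mul_left_comm]
    have h3 : s • a / a = 1 := by
      apply eq_one_of_diag_mem_UId T hT
      rw [h2]
      exact mul_mem hu (inv_mem (SG_smul_mem_UId T s hu))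
    exact div_eq_one.1 h3
  have hda : diag a ∈ JF F := fun s hs => by rw [smul_diag, hfix s hs]
  refine ⟨(diag_mem_JF_iff F a).1 hda, ?_⟩
  have : u = (diag a)⁻¹ * x := by rw [hxa]; group
  rw [this]
  exact mul_mem (inv_mem hda) hx

end DS

lemma mem_fixσ_iff {A : Type} [AddCommGroup A] (σ : AddMonoid.End A) (a : A) :
    a ∈ fixσ σ ↔ σ a = a := by
  have : a ∈ fixσ σ ↔ (σ - 1 : AddMonoid.End A) a = 0 := Iff.rfl
  rw [this]
  exact sub_eq_zero

section FE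
variable {p : ℕ} [Fact p.Prime] {F L : IntermediateField ℚ Qbar} {σ : GQ}

lemma AT.mk_eq_mk_iff {T : Finset Nat.Primes} {L : IntermediateField ℚ Qbar} (x y : JF L) :
    AT.mk T L (Additive.ofMul x) = AT.mk T L (Additive.ofMul y) ↔
      ∃ a ∈ FX L, ∃ u ∈ UId T, (y : JJ) = x * (diag a * u) := by
  have h1 : AT.mk T L (Additive.ofMul x) = AT.mk T L (Additive.ofMul y) ↔
      AT.mk T L (Additive.ofMul (x⁻¹ * y)) = 0 := by
    rw [ofMul_mul, ofMul_inv, map_add, map_neg, neg_add_eq_zero]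
  rw [h1, AT.mk_eq_zero_iff]
  constructor
  · rintro ⟨a, ha, u, hu, h⟩
    refine ⟨a, ha, u, hu, ?_⟩
    rw [← h]
    show (y : JJ) = x * ((x : JJ)⁻¹ * y)
    group
  · rintro ⟨a, ha, u, hu, h⟩
    refine ⟨a, ha, u, hu, ?_⟩
    show (x : JJ)⁻¹ * y = _
    rw [h]; group

/-- every fixed class of `C_T(L)` is the class of an idele of `F` -/
theorem exists_JF_of_fix (hL : IsLayer p F L σ) (T : Finset Nat.Primes) (hT : T.Nonempty)
    (hur : ∀ q ∉ T, UnramAt q F L) (σA : AddMonoid.End (AT T L)) (hσ : IsSigmaAT σ T L σA)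
    (α : AT T L) (hα : α ∈ fixσ σA) :
    ∃ y : JJ, ∃ hy : y ∈ JF F, α = AT.mk T L (Additive.ofMul ⟨y, hL.JF_le hy⟩) := by
  obtain ⟨x, rfl⟩ := AT.mk_surjective T L α
  obtain ⟨x, rfl⟩ := Additive.ofMul.surjective x
  rw [mem_fixσ_iff, hσ x ⟨σ • (x : JJ), hL.smul_mem_JF σ hL.mem x.2⟩ rfl] at hα
  obtain ⟨a, ha, u, hu, h⟩ := (AT.mk_eq_mk_iff _ _).1 hα.symm
  obtain ⟨y, hy, b, hb, v, hv, hxy⟩ := AT_descent hL T hT hur x x.2 ⟨a, ha, u, hu, h⟩
  refine ⟨y, hy, ?_⟩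
  exact ((AT.mk_eq_mk_iff _ _).2 ⟨b, hb, v, hv, hxy⟩).symm

/-- `J(F) → J(L)` -/
def FE_incl (hL : IsLayer p F L σ) : ↥(JF F) →* ↥(JF L) := Subgroup.inclusion hL.JF_le

lemma FE_le (hL : IsLayer p F L σ) (T : Finset Nat.Primes) :
    PT T F ≤ (PT T L).comap (FE_incl hL) := by
  rintro x ⟨a, ha, u, hu, hx⟩
  exact ⟨a, hL.le ha, u, hu, hx⟩

/-- `C_T(F) → C_T(L)` -/
def FE_map (hL : IsLayer p F L σ) (T : Finset Nat.Primes) : AT T F →+ AT T L :=
  MonoidHom.toAdditive (QuotientGroup.map (PT T F) (PT T L) (FE_incl hL) (FE_le hL T))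

lemma FE_map_mk (hL : IsLayer p F L σ) (T : Finset Nat.Primes) (x : JF F) :
    FE_map hL T (AT.mk T F (Additive.ofMul x)) = AT.mk T L (Additive.ofMul (FE_incl hL x)) := rfl

/-- `C_T(L)^σ = C_T(F)` -/
theorem exists_fix_equiv (hL : IsLayer p F L σ) (T : Finset Nat.Primes) (hT : T.Nonempty)
    (hur : ∀ q ∉ T, UnramAt q F L) (σA : AddMonoid.End (AT T L)) (hσ : IsSigmaAT σ T L σA) :
    Nonempty (AT T F ≃+ fixσ σA) := by
  have hmem : ∀ c, FE_map hL T c ∈ fixσ σA := by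
    intro c
    obtain ⟨x, rfl⟩ := AT.mk_surjective T F c
    obtain ⟨x, rfl⟩ := Additive.ofMul.surjective x
    rw [FE_map_mk, mem_fixσ_iff]
    apply hσ
    exact (x.2 σ hL.mem).symm
  refine ⟨AddEquiv.ofBijective ((FE_map hL T).codRestrict (fixσ σA) hmem) ⟨?_, ?_⟩⟩
  · rw [injective_iff_map_eq_zero]
    intro c hc
    obtain ⟨x, rfl⟩ := AT.mk_surjective T F c
    obtain ⟨x, rfl⟩ := Additive.ofMul.surjective x
    have h1 : FE_map hL T (AT.mk T F (Additive.ofMul x)) = 0 := congrArg Subtype.val hc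
    rw [FE_map_mk, AT.mk_eq_zero_iff] at h1
    obtain ⟨a, ha, u, hu, h⟩ := h1
    obtain ⟨haF, -⟩ := AT_inj hL T hT x x.2 a ha u hu h
    rw [AT.mk_eq_zero_iff]
    exact ⟨a, haF, u, hu, h⟩
  · rintro ⟨α, hα⟩
    obtain ⟨y, hy, rfl⟩ := exists_JF_of_fix hL T hT hur σA hσ α hα
    exact ⟨AT.mk T F (Additive.ofMul ⟨y, hy⟩), Subtype.ext rfl⟩

end FE

end

end Fermat.Agent.S55Lib
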