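import Fermat.Agent.S55.G1b.Defs

/-! # S55 G1b (EQ): equivariant functions -/

set_option autoImplicit false
set_option linter.unusedSectionVars false
set_option linter.unusedVariables false

namespace Fermat.Agent.S55Lib

noncomputable section

open groupCohomology

section EQ
variable {q : Nat.Primes} {L : IntermediateField ℚ Qbar}

lemma coe_smul_Om (h : Gq q) (z : (Om q)ˣ) : ((h • z : (Om q)ˣ) : Om q) = h (z : Om q) := rfl

theorem norm_smul_Om (h : Gq q) (z : (Om q)ˣ) :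
    ‖((h • z : (Om q)ˣ) : Om q)‖ = ‖(z : Om q)‖ := by
  rw [coe_smul_Om]; exact norm_gq q h _

theorem cmp_isEqv {x : JJ} (hx : x ∈ JF L) (q : Nat.Primes) : IsEqv q L (cmp x q) := by
  intro h g s hs
  rw [mul_assoc, cmp_rq, ← cmp_smul, hx s hs]

theorem IsEqv.left {ζ : GQ → (Om q)ˣ} (hζ : IsEqv q L ζ) (h : Gq q) (g : GQ) :
    ζ (rq q h * g) = h • ζ g := by
  have := hζ h g 1 (one_mem _)
  rwa [mul_one] at this

theorem IsEqv.right {ζ : GQ → (Om q)ˣ} (hζ : IsEqv q L ζ) (g s : GQ)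
    (hs : s ∈ L.fixingSubgroup) : ζ (g * s) = ζ g := by
  have := hζ 1 g s hs
  rwa [map_one, one_mul, one_smul] at this

theorem isEqv_one : IsEqv q L (fun _ => 1) := fun h _ _ _ => (smul_one h).symm

theorem IsEqv.mul {ζ ζ' : GQ → (Om q)ˣ} (hζ : IsEqv q L ζ) (hζ' : IsEqv q L ζ') :
    IsEqv q L (fun g => ζ g * ζ' g) := fun h g s hs => by
  simp only [hζ h g s hs, hζ' h g s hs, smul_mul']

theorem IsEqv.div {ζ ζ' : GQ → (Om q)ˣ} (hζ : IsEqv q L ζ) (hζ' : IsEqv q L ζ') :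
    IsEqv q L (fun g => ζ g / ζ' g) := fun h g s hs => by
  simp only [hζ h g s hs, hζ' h g s hs, smul_div']

theorem IsEqv.prod {ι : Type*} (s : Finset ι) {ζ : ι → GQ → (Om q)ˣ}
    (hζ : ∀ i ∈ s, IsEqv q L (ζ i)) : IsEqv q L (fun g => ∏ i ∈ s, ζ i g) := fun h g t ht => by
  simp only [Finset.smul_prod']
  exact Finset.prod_congr rfl (fun i hi => hζ i hi h g t ht)

theorem IsEqv.mono {F : IntermediateField ℚ Qbar} (hFL : F ≤ L) {ζ : GQ → (Om q)ˣ}
    (hζ : IsEqv q F ζ) : IsEqv q L ζ :=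
  fun h g s hs => hζ h g s (IntermediateField.fixingSubgroup_antitone hFL hs)

/-- values are fixed by the decomposition group -/
theorem IsEqv.smul_eq {ζ : GQ → (Om q)ˣ} (hζ : IsEqv q L ζ) (g : GQ) (h : Gq q)
    (hh : h ∈ Wg q g L) : h • ζ g = ζ g := by
  rw [← hζ.left h g]
  have h1 : rq q h * g = g * (g⁻¹ * rq q h * g) := by group
  rw [h1]
  exact hζ.right g _ hh

/-- two equivariant functions which agree at `g₀` agree on the whole place of `g₀` -/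
theorem IsEqv.eq_of_samePlace {ζ ζ' : GQ → (Om q)ˣ} (hζ : IsEqv q L ζ) (hζ' : IsEqv q L ζ')
    {g₀ g : GQ} (hg : SamePlace q L g₀ g) (h0 : ζ g₀ = ζ' g₀) : ζ g = ζ' g := by
  obtain ⟨h, s, hs, rfl⟩ := hg
  rw [hζ h g₀ s hs, hζ' h g₀ s hs, h0]

theorem IsEqv.norm_eq {ζ : GQ → (Om q)ˣ} (hζ : IsEqv q L ζ) {g₀ g : GQ}
    (hg : SamePlace q L g₀ g) :
    ‖((ζ g : (Om q)ˣ) : Om q)‖ = ‖((ζ g₀ : (Om q)ˣ) : Om q)‖ := by
  obtain ⟨h, s, hs, rfl⟩ := hg
  rw [hζ h g₀ s hs, norm_smul_Om]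

theorem IsUnitVal.mul {ζ ζ' : GQ → (Om q)ˣ} (hζ : IsUnitVal q ζ) (hζ' : IsUnitVal q ζ') :
    IsUnitVal q (fun g => ζ g * ζ' g) := fun g => by
  simp only [Units.val_mul, norm_mul, hζ g, hζ' g, mul_one]

theorem IsUnitVal.prod {ι : Type*} (s : Finset ι) {ζ : ι → GQ → (Om q)ˣ}
    (hζ : ∀ i ∈ s, IsUnitVal q (ζ i)) : IsUnitVal q (fun g => ∏ i ∈ s, ζ i g) := fun g => by
  classical
  induction s using Finset.induction_on with
  | empty => simp
  | insert a s ha ih =>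
    simp only [Finset.prod_insert ha, Units.val_mul, norm_mul]
    rw [hζ a (Finset.mem_insert_self a s) g, one_mul]
    exact ih (fun i hi => hζ i (Finset.mem_insert_of_mem hi))

end EQ

end

end Fermat.Agent.S55Lib
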