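import Fermat.Agent.S55.G1b.CardJTMod
import Fermat.Agent.S55.G.Descent
import Fermat.Agent.S55.G.Cut
import Fermat.Agent.S55.G.TUnits

/-! # S55 G1b (RR): `q_p(C_T(F)) = p^([F:ℚ]/2 + 1)` -/

set_option autoImplicit false
set_option linter.unusedSectionVars false
set_option linter.unusedVariables false
set_option linter.style.haveILetI false

namespace Fermat.Agent.S55Lib

noncomputable section

theorem RR_cmp_diag (a : Qbarˣ) (q : Nat.Primes) (g : GQ) :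
    ((cmp (diag a) q g : (Om q)ˣ) : Om q) = iq q (g (a : Qbar)) := rfl

/-- `E_T → J_T(F)` -/
theorem cutT_diag_mem (F : IntermediateField ℚ Qbar) [FiniteDimensional ℚ F]
    (T : Finset Nat.Primes) (a : Qbarˣ) (ha : a ∈ FX F) : cutT T (diag a) ∈ JF F ⊓ JT T := by
  refine Subgroup.mem_inf.mpr ⟨?_, fun q hq g => cmp_cutT_of_not_mem _ hq g⟩
  exact cut_mem_JF ((diag_mem_JF_iff F a).mpr ha) (T := T)
    (fun q hq g => cmp_cutT_of_mem _ hq g) (fun q hq g => cmp_cutT_of_not_mem _ hq g)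

/-- exactness of `1 → E_T → J_T(F) → C_T(F)` -/
theorem AT_mk_JT_eq_zero_iff (F : IntermediateField ℚ Qbar) [FiniteDimensional ℚ F]
    (T : Finset Nat.Primes) (y : JJ) (hy : y ∈ JF F ⊓ JT T) :
    AT.mk T F (Additive.ofMul ⟨y, hy.1⟩) = 0 ↔ ∃ a ∈ EFT F T, cutT T (diag a) = y := by
  rw [AT.mk_eq_zero_iff]
  constructor
  · rintro ⟨a, ha, u, hu, hyu⟩
    have hyu' : y = diag a * u := hyu
    refine ⟨a, ⟨ha, fun q hq g => ?_⟩, ?_⟩
    · have h1 : cmp y q g = 1 := hy.2 q hq g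
      rw [hyu', cmp_mul] at h1
      have h2 := congrArg (fun z : (Om q)ˣ => ‖(z : Om q)‖) h1
      simp only [Units.val_mul, norm_mul, Units.val_one, norm_one, hu.2 q hq g, mul_one] at h2
      rw [← RR_cmp_diag]
      exact h2
    · apply JJ.ext
      intro q g
      by_cases hq : q ∈ T
      · rw [cmp_cutT_of_mem _ hq, hyu', cmp_mul, hu.1 q hq g, mul_one]
      · rw [cmp_cutT_of_not_mem _ hq, hy.2 q hq g]
  · rintro ⟨a, ha, rfl⟩
    refine ⟨a, ha.1, (diag a)⁻¹ * cutT T (diag a), ⟨fun q hq g => ?_, fun q hq g => ?_⟩, ?_⟩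
    · rw [cmp_mul, cmp_inv, cmp_cutT_of_mem _ hq, inv_mul_cancel]
    · rw [cmp_mul, cmp_inv, cmp_cutT_of_not_mem _ hq, mul_one, Units.val_inv_eq_inv_val, norm_inv,
        RR_cmp_diag, ha.2 q hq g, inv_one]
    · show cutT T (diag a) = diag a * ((diag a)⁻¹ * cutT T (diag a))
      rw [mul_inv_cancel_left]

/-- `E_T → J_T(F)` as a homomorphism -/
def RR_i (F : IntermediateField ℚ Qbar) [FiniteDimensional ℚ F] (T : Finset Nat.Primes) :
    Additive (EFT F T) →+ Additive ↥(JF F ⊓ JT T) :=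
  MonoidHom.toAdditive
    { toFun := fun a => ⟨cutT T (diag (a : Qbarˣ)), cutT_diag_mem F T _ a.2.1⟩
      map_one' := Subtype.ext (by simp)
      map_mul' := fun a b => Subtype.ext (by simp) }

/-- `J_T(F) → C_T(F)` -/
def RR_pi (F : IntermediateField ℚ Qbar) (T : Finset Nat.Primes) :
    Additive ↥(JF F ⊓ JT T) →+ AT T F :=
  (AT.mk T F).comp (MonoidHom.toAdditive (Subgroup.inclusion inf_le_left))

theorem RR_arith (p : ℕ) (hp : p ≠ 0) (t k : ℕ) (x y z : ℚ)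
    (h1 : x * (p : ℚ) ^ t = (p : ℚ) ^ (2 * t + 2 * k))
    (h2 : y * (p : ℚ) ^ 1 = (p : ℚ) ^ (t + k)) (h3 : x = y * z) : z = (p : ℚ) ^ (k + 1) := by
  have hp' : (p : ℚ) ≠ 0 := by exact_mod_cast hp
  have hx : x = (p : ℚ) ^ (t + 2 * k) := by
    apply mul_right_cancel₀ (pow_ne_zero t hp')
    rw [h1, ← pow_add]; congr 1; ring
  have h4 : (y * (p : ℚ) ^ 1) * z = (p : ℚ) ^ (t + k) * (p : ℚ) ^ (k + 1) := by
    calc (y * (p : ℚ) ^ 1) * z = (y * z) * (p : ℚ) ^ 1 := by ring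
      _ = (p : ℚ) ^ (t + 2 * k) * (p : ℚ) ^ 1 := by rw [← h3, hx]
      _ = (p : ℚ) ^ (t + k) * (p : ℚ) ^ (k + 1) := by rw [← pow_add, ← pow_add]; congr 1; ring
  rw [h2] at h4
  exact mul_left_cancel₀ (pow_ne_zero _ hp') h4

/-- **(R)** `q_p(C_T(F)) = p^([F:ℚ]/2 + 1)` when `Cl_T(F) = 1` -/
theorem qInd_AT (p : ℕ) [Fact p.Prime] (hp2 : p ≠ 2) (F : IntermediateField ℚ Qbar)
    [FiniteDimensional ℚ F] (hμ : HasMu p F) (T : Finset Nat.Primes)
    (hpT : (⟨p, Fact.out⟩ : Nat.Primes) ∈ T)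
    (hT : ∀ x ∈ JF F, ∃ a ∈ FX F, ∃ y ∈ JF F ⊓ JT T, ∃ u ∈ JF F ⊓ UId T, x = diag a * y * u) :
    QFin (mulp p (AT T F)) ∧ qInd (mulp p (AT T F)) = (p : ℚ) ^ (Module.finrank ℚ F / 2 + 1) ∧
      2 ∣ Module.finrank ℚ F := by
  have hp : p.Prime := Fact.out
  obtain ⟨t, ht⟩ := exists_isPlaceCount F T
  obtain ⟨hE, h2⟩ := card_TUnits_mod_p p hp2 F hμ T t ht
  obtain ⟨k, hk⟩ := h2
  have hk2 : Module.finrank ℚ F / 2 = k := by omega
  have hJ := card_JT_mod_p p hp2 F hμ T hpT t ht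
  have hJt := card_JT_tor_p p F hμ T t ht
  have hEt : Nat.card (torp p (Additive (EFT F T))) = p ^ 1 := by
    rw [pow_one]; exact card_torp_EFT p F hμ T
  rw [← card_modp_additive] at hE hJ
  obtain ⟨qE, qE'⟩ := qInd_of_card p hE hEt
  obtain ⟨qJ, qJ'⟩ := qInd_of_card p hJ hJt
  have hinj : Function.Injective (RR_i F T) := by
    intro a b hab
    have h1 : cutT T (diag ((Additive.toMul a : EFT F T) : Qbarˣ)) =
        cutT T (diag ((Additive.toMul b : EFT F T) : Qbarˣ)) :=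
      congrArg (fun z : Additive ↥(JF F ⊓ JT T) => ((Additive.toMul z : ↥(JF F ⊓ JT T)) : JJ)) hab
    obtain ⟨p0, hp0⟩ : ∃ p0 : Nat.Primes, p0 = ⟨p, Fact.out⟩ := ⟨_, rfl⟩
    rw [← hp0] at hpT
    have h2 := congrArg (fun z : JJ => ((cmp z p0 1 : (Om p0)ˣ) : Om p0)) h1
    simp only [cmp_cutT_of_mem _ hpT, RR_cmp_diag] at h2
    have h3 := (iq p0).injective h2
    exact Subtype.ext (Units.ext h3)
  have hsurj : Function.Surjective (RR_pi F T) := by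
    intro c
    obtain ⟨x, rfl⟩ := AT.mk_surjective T F c
    obtain ⟨a, ha, y, hy, u, hu, hx⟩ := hT _ (Additive.toMul x : ↥(JF F)).2
    refine ⟨Additive.ofMul ⟨y, hy⟩, ?_⟩
    have h1 : AT.mk T F (x - Additive.ofMul (⟨y, hy.1⟩ : ↥(JF F))) = 0 := by
      rw [AT.mk_eq_zero_iff]
      refine ⟨a, ha, u, hu.2, ?_⟩
      show ((Additive.toMul x : ↥(JF F)) : JJ) * y⁻¹ = diag a * u
      rw [hx]
      rw [mul_right_comm, mul_inv_cancel_right]
    rw [map_sub, sub_eq_zero] at h1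
    exact h1.symm
  have hex : ∀ y, RR_pi F T y = 0 ↔ ∃ a, RR_i F T a = y := by
    intro y
    have h1 := AT_mk_JT_eq_zero_iff F T ((Additive.toMul y : ↥(JF F ⊓ JT T)) : JJ)
      (Additive.toMul y : ↥(JF F ⊓ JT T)).2
    constructor
    · intro h
      obtain ⟨a, ha, hay⟩ := h1.mp h
      exact ⟨Additive.ofMul ⟨a, ha⟩, Subtype.ext hay⟩
    · rintro ⟨a, rfl⟩
      exact h1.mpr ⟨_, (Additive.toMul a : EFT F T).2, rfl⟩
  obtain ⟨qA, qA'⟩ := qInd_ses_quot (RR_i F T) (RR_pi F T) hinj hsurj hex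
    (mulp p _) (mulp p _) (mulp p _) (fun a => (map_nsmul _ _ _)) (fun a => map_nsmul _ _ _) qJ qE
  refine ⟨qA, ?_, ⟨k, hk⟩⟩
  rw [hk2]
  rw [hk] at qJ'
  rw [hk2] at qE'
  exact RR_arith p hp.ne_zero t k _ _ _ qJ' qE' qA'

end

end Fermat.Agent.S55Lib
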