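import Fermat.Agent.S55.G1b.Defs

/-! # S55 G1b (RM): finite ramification -/

set_option autoImplicit false
set_option linter.unusedSectionVars false
set_option linter.unusedVariables false
set_option linter.style.haveILetI false

namespace Fermat.Agent.S55Lib

noncomputable section

open groupCohomology

/-- the primes where `a` is not a unit -/
def RM_bad (a : Qbar) : Set Nat.Primes := {q | ∃ g : GQ, ‖iq q (g a)‖ ≠ 1}

lemma RM_bad_finite {a : Qbar} (ha : a ≠ 0) : (RM_bad a).Finite := by
  refine (finite_diagq_notMem (Units.mk0 a ha)).subset ?_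
  rintro q ⟨g, hg⟩ hcon
  exact hg (hcon g)

theorem exists_unram_outside (F L : IntermediateField ℚ Qbar) [FiniteDimensional ℚ L] :
    ∃ T : Finset Nat.Primes, ∀ q ∉ T, UnramAt q F L := by
  classical
  haveI : Algebra.IsAlgebraic ℚ Qbar := AlgebraicClosure.isAlgebraic ℚ
  set b := Module.finBasis ℚ L with hb
  -- the finite set of conjugates, with `0`
  set C : Finset Qbar := insert 0 (Finset.univ.biUnion
    (fun i => ((minpoly ℚ ((b i : L) : Qbar)).aroots Qbar).toFinset)) with hC
  have hCstable : ∀ (g : GQ) (c : Qbar), c ∈ C → g c ∈ C := by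
    intro g c hc
    rw [hC, Finset.mem_insert] at hc ⊢
    rcases hc with rfl | hc
    · left; exact map_zero g
    · right
      rw [Finset.mem_biUnion] at hc ⊢
      obtain ⟨i, hi, hc⟩ := hc
      refine ⟨i, hi, ?_⟩
      rw [Multiset.mem_toFinset, Polynomial.mem_aroots] at hc ⊢
      refine ⟨hc.1, ?_⟩
      have := Polynomial.aeval_algHom_apply (g : Qbar →ₐ[ℚ] Qbar) c (minpoly ℚ ((b i : L) : Qbar))
      rw [hc.2, map_zero] at this
      exact this
  have hbC : ∀ i, ((b i : L) : Qbar) ∈ C := by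
    intro i
    rw [hC, Finset.mem_insert]
    right
    rw [Finset.mem_biUnion]
    refine ⟨i, Finset.mem_univ _, ?_⟩
    rw [Multiset.mem_toFinset, Polynomial.mem_aroots]
    exact ⟨minpoly.ne_zero (Algebra.IsIntegral.isIntegral _), minpoly.aeval _ _⟩
  have hfin : (⋃ x ∈ ((C ×ˢ C).filter (fun x => x.1 - x.2 ≠ 0) : Finset (Qbar × Qbar)),
      RM_bad (x.1 - x.2)).Finite := by
    apply Set.Finite.biUnion (Finset.finite_toSet _)
    intro x hx
    exact RM_bad_finite (Finset.mem_filter.1 hx).2
  refine ⟨hfin.toFinset, ?_⟩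
  intro q hq g h hi _
  have hunit : ∀ c ∈ C, ∀ c' ∈ C, c ≠ c' → ‖iq q (c - c')‖ = 1 := by
    intro c hc c' hc' hne
    by_contra hcon
    apply hq
    rw [Set.Finite.mem_toFinset, Set.mem_iUnion₂]
    refine ⟨(c, c'), ?_, 1, hcon⟩
    exact Finset.mem_coe.2 (Finset.mem_filter.2 ⟨Finset.mem_product.2 ⟨hc, hc'⟩, sub_ne_zero.2 hne⟩)
  have h0C : (0 : Qbar) ∈ C := Finset.mem_insert_self _ _
  have hfixC : ∀ c ∈ C, rq q h c = c := by
    intro c hc
    by_contra hne
    have h1 : ‖iq q c‖ ≤ 1 := by
      by_cases hc0 : c = 0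
      · rw [hc0, map_zero, norm_zero]; exact zero_le_one
      · have := hunit c hc 0 h0C hc0
        rw [sub_zero] at this
        exact this.le
    have h2 := hi (iq q c) h1
    rw [← iq_rq, ← map_sub, hunit _ (hCstable _ c hc) c hc hne] at h2
    exact lt_irrefl _ h2
  rw [IntermediateField.mem_fixingSubgroup_iff]
  intro x hx
  set τ : GQ := g⁻¹ * rq q h * g with hτ
  have hτb : ∀ i, τ ((b i : L) : Qbar) = ((b i : L) : Qbar) := by
    intro i
    show g⁻¹ (rq q h (g ((b i : L) : Qbar))) = _
    rw [hfixC _ (hCstable g _ (hbC i))]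
    exact g.symm_apply_apply _
  have hlin : (τ.toLinearMap).comp L.val.toLinearMap = L.val.toLinearMap := by
    apply b.ext
    intro i
    exact hτb i
  exact LinearMap.congr_fun hlin ⟨x, hx⟩

end

end Fermat.Agent.S55Lib
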