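import Fermat.Agent.S55.G1b.FirstIneqA
import Fermat.Agent.S55.G1b.AbsCard
import Fermat.Agent.S55.G1b.Ramif
import Fermat.Agent.S55.G1b.RIndex
import Fermat.Agent.S55.G.RootG1a

/-! # S55 G1b: the first inequality (ROOT `first_inequality`) -/

set_option autoImplicit false
set_option linter.unusedSectionVars false
set_option linter.unusedVariables false
set_option linter.style.haveILetI false

namespace Fermat.Agent.S55Lib

noncomputable section

open groupCohomology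

theorem herbrand_AT {p : ℕ} [Fact p.Prime] (hp2 : p ≠ 2) {F L : IntermediateField ℚ Qbar} {σ : GQ}
    (hL : IsLayer p F L σ) (hμ : HasMu p F) (T : Finset Nat.Primes)
    (hpT : (⟨p, Fact.out⟩ : Nat.Primes) ∈ T) (hur : ∀ q ∉ T, UnramAt q F L)
    (hTF : ∀ x ∈ JF F, ∃ a ∈ FX F, ∃ y ∈ JF F ⊓ JT T, ∃ u ∈ JF F ⊓ UId T, x = diag a * y * u)
    (hTL : ∀ x ∈ JF L, ∃ a ∈ FX L, ∃ y ∈ JF L ⊓ JT T, ∃ u ∈ JF L ⊓ UId T, x = diag a * y * u)
    (σA : AddMonoid.End (AT T L)) (hσA : σA ^ p = 1) (hσ : IsSigmaAT σ T L σA) :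
    Finite (Hhat0 p σA) ∧ Finite (Hhat1 p σA) ∧
      Nat.card (Hhat0 p σA) = p * Nat.card (Hhat1 p σA) := by
  haveI := hL.finF
  haveI := hL.finL
  obtain ⟨hF1, hF2, hF3⟩ := qInd_AT p hp2 F hμ T hpT hTF
  obtain ⟨hL1, hL2, -⟩ := qInd_AT p hp2 L (hL.hasMu hμ) T hpT hTL
  obtain ⟨e⟩ := exists_fix_equiv hL T ⟨_, hpT⟩ hur σA hσ
  obtain ⟨hB1, hB2⟩ := qInd_congr e p hF1
  obtain ⟨k, hk⟩ := hF3
  have h1 : Module.finrank ℚ F / 2 = k := by omega
  have h2 : Module.finrank ℚ L / 2 = p * k := by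
    rw [hL.finrank_eq, hk, show p * (2 * k) = 2 * (p * k) by ring]
    omega
  refine herbrand_of_qInd p σA hσA k hL1 ?_ hB1 ?_
  · rw [hL2, h2]
  · rw [hB2, hF2, h1]

/-- **First inequality** for a cyclic layer `L/F` of degree `p`, `μ_p ⊆ F`. -/
theorem first_inequality (p : ℕ) [Fact p.Prime] (hp2 : p ≠ 2)
    (F L : IntermediateField ℚ Qbar) (σ : GQ) (hL : IsLayer p F L σ) (hμ : HasMu p F) :
    ¬ (∀ c ∈ CF F, ∃ d ∈ CF L, c = ∏ i ∈ Finset.range p, σ ^ i • d) ∧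
    ((∃ c₀ ∈ CF F, ∀ c ∈ CF F, ∃ k : ℕ, ∃ d ∈ CF L, c = c₀ ^ k * ∏ i ∈ Finset.range p, σ ^ i • d) →
      ∀ d ∈ CF L, (∏ i ∈ Finset.range p, σ ^ i • d) = 1 → ∃ e ∈ CF L, d = σ • e / e) := by
  classical
  haveI := hL.finF
  haveI := hL.finL
  obtain ⟨T1, hT1⟩ := exists_T_classGroup_trivial F
  obtain ⟨T2, hT2⟩ := exists_T_classGroup_trivial L
  obtain ⟨T3, hT3⟩ := exists_unram_outside F L
  set T : Finset Nat.Primes := T1 ∪ T2 ∪ T3 ∪ {(⟨p, Fact.out⟩ : Nat.Primes)} with hTdef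
  have hpT : (⟨p, Fact.out⟩ : Nat.Primes) ∈ T :=
    Finset.mem_union_right _ (Finset.mem_singleton_self _)
  have hT : T.Nonempty := ⟨_, hpT⟩
  have hur : ∀ q ∉ T, UnramAt q F L := fun q hq => hT3 q (fun h => hq
    (Finset.mem_union_left _ (Finset.mem_union_right _ h)))
  have hTF := hT1 T (fun q h =>
    Finset.mem_union_left _ (Finset.mem_union_left _ (Finset.mem_union_left _ h)))
  have hTL := hT2 T (fun q h =>
    Finset.mem_union_left _ (Finset.mem_union_left _ (Finset.mem_union_right _ h)))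
  obtain ⟨σA, hσA, hσ⟩ := exists_sigma_AT hL T
  obtain ⟨f0, f1, hcard⟩ := herbrand_AT hp2 hL hμ T hpT hur hTF hTL σA hσA hσ
  have hp : 2 ≤ p := (Fact.out : p.Prime).two_le
  have hpos1 : 0 < Nat.card (Hhat1 p σA) := Nat.card_pos
  refine ⟨fun hall => ?_, ?_⟩
  · haveI := Hhat0_subsingleton_of_norm hL T hT hur σA hσ hall
    have h1 : Nat.card (Hhat0 p σA) = 1 := Nat.card_unique
    rw [h1] at hcard
    nlinarith
  · rintro ⟨c₀, hc₀, hgen⟩
    have hle := card_Hhat0_le hL T hT hur σA hσA hσ c₀ hc₀ hgen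
    have h1 : Nat.card (Hhat1 p σA) = 1 := by
      rw [hcard] at hle
      nlinarith
    have hs : Subsingleton (Hhat1 p σA) := (Nat.card_eq_one_iff_unique.1 h1).1
    exact h90_CC_of_Hhat1 hL T hT hur σA hσ hs

end

end Fermat.Agent.S55Lib
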