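import Fermat.Agent.S55.G1b.DescentAT
import Fermat.Agent.S55.G.DescentC
import Fermat.Agent.S55.H.Chevalley

/-! # S55 G1b (FA) (FB) (FC): transfer between `C(L)` and `C_T(L)` -/

set_option autoImplicit false
set_option linter.unusedSectionVars false
set_option linter.unusedVariables false
set_option linter.style.haveILetI false

namespace Fermat.Agent.S55Lib

noncomputable section

open groupCohomology

section FI
variable {p : ℕ} [Fact p.Prime] {F L : IntermediateField ℚ Qbar} {σ : GQ}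

lemma CC.mk_mul (x y : JJ) : CC.mk (x * y) = CC.mk x * CC.mk y := rfl
lemma CC.mk_inv (x : JJ) : CC.mk x⁻¹ = (CC.mk x)⁻¹ := rfl
lemma CC.mk_div (x y : JJ) : CC.mk (x / y) = CC.mk x / CC.mk y := by
  rw [div_eq_mul_inv, div_eq_mul_inv]; rfl
lemma CC.mk_pow (x : JJ) (k : ℕ) : CC.mk (x ^ k) = CC.mk x ^ k := rfl
lemma CC.mk_diag (a : Qbarˣ) : CC.mk (diag a) = 1 :=
  (QuotientGroup.eq_one_iff _).2 ⟨a, rfl⟩
lemma CC.mk_eq_one_iff (x : JJ) : CC.mk x = 1 ↔ ∃ a, diag a = x :=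
  QuotientGroup.eq_one_iff _
lemma CC.mk_mem_CF {F : IntermediateField ℚ Qbar} {x : JJ} (hx : x ∈ JF F) : CC.mk x ∈ CF F :=
  fun s hs => by rw [CC.smul_mk, hx s hs]

lemma FA_pow_mk (hL : IsLayer p F L σ) (T : Finset Nat.Primes)
    (σA : AddMonoid.End (AT T L)) (hσ : IsSigmaAT σ T L σA) (i : ℕ) (x : JJ) (hx : x ∈ JF L) :
    (σA ^ i) (AT.mk T L (Additive.ofMul ⟨x, hx⟩)) =
      AT.mk T L (Additive.ofMul ⟨σ ^ i • x, hL.smul_mem_JF _ (Subgroup.pow_mem _ hL.mem i) hx⟩) := by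
  induction i with
  | zero =>
    have : (⟨σ ^ 0 • x, hL.smul_mem_JF _ (Subgroup.pow_mem _ hL.mem 0) hx⟩ : JF L) = ⟨x, hx⟩ :=
      Subtype.ext (by simp)
    rw [this]; rfl
  | succ i ih =>
    rw [pow_succ']
    show σA ((σA ^ i) _) = _
    rw [ih]
    apply hσ
    show σ ^ (i + 1) • x = σ • σ ^ i • x
    rw [pow_succ', mul_smul]

/-- the norm of `C_T(L)` on classes of ideles -/
theorem normσ_AT_mk (hL : IsLayer p F L σ) (T : Finset Nat.Primes)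
    (σA : AddMonoid.End (AT T L)) (hσ : IsSigmaAT σ T L σA) (x : JJ) (hx : x ∈ JF L) :
    normσ p σA (AT.mk T L (Additive.ofMul ⟨x, hx⟩)) =
      AT.mk T L (Additive.ofMul ⟨Nσ p σ x, hL.JF_le (hL.Nσ_mem_JF hx)⟩) := by
  have h1 : normσ p σA (AT.mk T L (Additive.ofMul ⟨x, hx⟩)) =
      ∑ i ∈ Finset.range p, (σA ^ i) (AT.mk T L (Additive.ofMul ⟨x, hx⟩)) := by
    unfold normσ
    exact AddMonoidHom.finsetSum_apply _ _ _
  rw [h1]
  simp only [FA_pow_mk hL T σA hσ _ x hx]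
  rw [← map_sum, ← ofMul_prod]
  congr 2
  apply Subtype.ext
  rw [Subgroup.val_finsetProd]
  rfl

/-- an idele `y` of `F` whose class in `C(F)` is `c₀^k N d` -/
theorem exists_idele_of_class_eq (hL : IsLayer p F L σ) (y y₀ : JJ) (hy : y ∈ JF F)
    (hy₀ : y₀ ∈ JF F) (k : ℕ) (d : CC) (hd : d ∈ CF L)
    (h : CC.mk y = CC.mk y₀ ^ k * ∏ i ∈ Finset.range p, σ ^ i • d) :
    ∃ x ∈ JF L, ∃ a ∈ FX L, y = y₀ ^ k * Nσ p σ x * diag a := by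
  haveI := hL.finL
  obtain ⟨x, hx, rfl⟩ := exists_JF_of_mem_CF L d hd
  have h1 : ∏ i ∈ Finset.range p, σ ^ i • CC.mk x = CC.mk (Nσ p σ x) := Nσ_CC_mk p σ x
  rw [h1, ← CC.mk_pow, ← CC.mk_mul] at h
  have h2 : CC.mk ((y₀ ^ k * Nσ p σ x)⁻¹ * y) = 1 := by
    rw [CC.mk_mul, CC.mk_inv, h, inv_mul_cancel]
  obtain ⟨a, ha⟩ := (CC.mk_eq_one_iff _).1 h2
  refine ⟨x, hx, a, ?_, ?_⟩
  · rw [← diag_mem_JF_iff L a, ha]
    exact mul_mem (inv_mem (mul_mem (Subgroup.pow_mem _ (hL.JF_le hy₀) k)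
      (hL.JF_le (hL.Nσ_mem_JF hx)))) (hL.JF_le hy)
  · rw [ha]; group

/-- (FA) if every class of `C(F)` is a norm then `Ĥ⁰(C_T(L)) = 0`. -/
theorem Hhat0_subsingleton_of_norm (hL : IsLayer p F L σ) (T : Finset Nat.Primes)
    (hT : T.Nonempty) (hur : ∀ q ∉ T, UnramAt q F L) (σA : AddMonoid.End (AT T L))
    (hσ : IsSigmaAT σ T L σA)
    (hall : ∀ c ∈ CF F, ∃ d ∈ CF L, c = ∏ i ∈ Finset.range p, σ ^ i • d) :
    Subsingleton (Hhat0 p σA) := by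
  have htop : (AddMonoidHom.range (normσ p σA)).addSubgroupOf (fixσ σA) = ⊤ := by
    rw [eq_top_iff]
    rintro ⟨α, hα⟩ -
    rw [AddSubgroup.mem_addSubgroupOf]
    show α ∈ AddMonoidHom.range (normσ p σA)
    obtain ⟨y, hy, rfl⟩ := exists_JF_of_fix hL T hT hur σA hσ α hα
    obtain ⟨d, hd, hyd⟩ := hall _ (CC.mk_mem_CF hy)
    obtain ⟨x, hx, a, ha, hxa⟩ := exists_idele_of_class_eq hL y 1 hy (one_mem _) 0 d hd
      (by rw [pow_zero, one_mul]; exact hyd)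
    refine ⟨AT.mk T L (Additive.ofMul ⟨x, hx⟩), ?_⟩
    refine (normσ_AT_mk hL T σA hσ x hx).trans ?_
    rw [AT.mk_eq_mk_iff]
    refine ⟨a, ha, 1, one_mem _, ?_⟩
    show y = Nσ p σ x * (diag a * 1)
    rw [hxa, pow_zero, one_mul, mul_one]
  rw [Hhat0, htop]
  exact QuotientAddGroup.subsingleton_quotient_top

/-- (FB) if `C(F)/N C(L)` is generated by `c₀` then `|Ĥ⁰(C_T(L))| ≤ p`. -/
theorem card_Hhat0_le (hL : IsLayer p F L σ) (T : Finset Nat.Primes)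
    (hT : T.Nonempty) (hur : ∀ q ∉ T, UnramAt q F L) (σA : AddMonoid.End (AT T L))
    (hσA : σA ^ p = 1) (hσ : IsSigmaAT σ T L σA)
    (c₀ : CC) (hc₀ : c₀ ∈ CF F)
    (hgen : ∀ c ∈ CF F, ∃ k : ℕ, ∃ d ∈ CF L, c = c₀ ^ k * ∏ i ∈ Finset.range p, σ ^ i • d) :
    Nat.card (Hhat0 p σA) ≤ p := by
  haveI := hL.finF
  have hp : p.Prime := Fact.out
  obtain ⟨y₀, hy₀, rfl⟩ := exists_JF_of_mem_CF F c₀ hc₀
  set α₀ : AT T L := AT.mk T L (Additive.ofMul ⟨y₀, hL.JF_le hy₀⟩) with hα₀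
  have hα₀fix : α₀ ∈ fixσ σA := by
    rw [mem_fixσ_iff]
    apply hσ
    exact (hy₀ σ hL.mem).symm
  set γ₀ : Hhat0 p σA := QuotientAddGroup.mk (⟨α₀, hα₀fix⟩ : fixσ σA) with hγ₀
  have hpγ : p • γ₀ = 0 := by
    rw [hγ₀, ← QuotientAddGroup.mk_nsmul, QuotientAddGroup.eq_zero_iff,
      AddSubgroup.mem_addSubgroupOf]
    exact ⟨α₀, Chev_N_fix p σA hα₀fix⟩
  have hsurj : Function.Surjective (fun k : Fin p => (k : ℕ) • γ₀) := by
    intro c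
    induction c using QuotientAddGroup.induction_on with
    | H α =>
      obtain ⟨α, hα⟩ := α
      obtain ⟨y, hy, rfl⟩ := exists_JF_of_fix hL T hT hur σA hσ α hα
      obtain ⟨k, d, hd, hyd⟩ := hgen _ (CC.mk_mem_CF hy)
      obtain ⟨x, hx, a, ha, hxa⟩ := exists_idele_of_class_eq hL y y₀ hy hy₀ k d hd hyd
      refine ⟨⟨k % p, Nat.mod_lt _ hp.pos⟩, ?_⟩
      have h1 : (k % p) • γ₀ = k • γ₀ := by
        conv_rhs => rw [← Nat.div_add_mod k p, add_smul, mul_comm p, mul_smul, hpγ, smul_zero, zero_add]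
      show (k % p) • γ₀ = _
      rw [h1, hγ₀, ← QuotientAddGroup.mk_nsmul, QuotientAddGroup.eq, AddSubgroup.mem_addSubgroupOf]
      refine ⟨AT.mk T L (Additive.ofMul ⟨x, hx⟩), ?_⟩
      refine (normσ_AT_mk hL T σA hσ x hx).trans ?_
      show _ = -(k • α₀) + AT.mk T L (Additive.ofMul ⟨y, hL.JF_le hy⟩)
      rw [eq_neg_add_iff_add_eq, hα₀, ← map_nsmul, ← map_add, ← ofMul_pow, ← ofMul_mul,
        AT.mk_eq_mk_iff]
      refine ⟨a, ha, 1, one_mem _, ?_⟩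
      show y = y₀ ^ k * Nσ p σ x * (diag a * 1)
      rw [hxa, mul_one]
  have := Nat.card_le_card_of_surjective _ hsurj
  rwa [Nat.card_fin] at this

/-- (FC) `Ĥ¹(C_T(L)) = 0` ⇒ `Ĥ^{-1}(C(L)) = 0`. -/
theorem h90_CC_of_Hhat1 (hL : IsLayer p F L σ) (T : Finset Nat.Primes)
    (hT : T.Nonempty) (hur : ∀ q ∉ T, UnramAt q F L) (σA : AddMonoid.End (AT T L))
    (hσ : IsSigmaAT σ T L σA) (h1 : Subsingleton (Hhat1 p σA)) :
    ∀ d ∈ CF L, (∏ i ∈ Finset.range p, σ ^ i • d) = 1 → ∃ e ∈ CF L, d = σ • e / e := by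
  haveI := hL.finL
  intro d hd hNd
  obtain ⟨x, hx, rfl⟩ := exists_JF_of_mem_CF L d hd
  have hN1 : CC.mk (Nσ p σ x) = 1 := by rw [← Nσ_CC_mk]; exact hNd
  obtain ⟨e, he⟩ := (CC.mk_eq_one_iff _).1 hN1
  have heL : e ∈ FX L := by
    rw [← diag_mem_JF_iff L e, he]
    exact hL.JF_le (hL.Nσ_mem_JF hx)
  have hker : AT.mk T L (Additive.ofMul ⟨x, hx⟩) ∈ AddMonoidHom.ker (normσ p σA) := by
    rw [AddMonoidHom.mem_ker]
    refine (normσ_AT_mk hL T σA hσ x hx).trans ?_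
    rw [AT.mk_eq_zero_iff]
    exact ⟨e, heL, 1, one_mem _, by rw [mul_one]; exact he.symm⟩
  have hzero : (QuotientAddGroup.mk (⟨_, hker⟩ : AddMonoidHom.ker (normσ p σA)) : Hhat1 p σA) = 0 :=
    Subsingleton.elim _ _
  rw [QuotientAddGroup.eq_zero_iff, AddSubgroup.mem_addSubgroupOf] at hzero
  obtain ⟨β, hβ⟩ := hzero
  obtain ⟨x₁, rfl⟩ := AT.mk_surjective T L β
  obtain ⟨x₁, rfl⟩ := Additive.ofMul.surjective x₁
  have hσx₁ : σ • (x₁ : JJ) ∈ JF L := hL.smul_mem_JF σ hL.mem x₁.2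
  have hβ' : AT.mk T L (Additive.ofMul ((⟨σ • (x₁ : JJ), hσx₁⟩ : JF L) * x₁⁻¹)) =
      AT.mk T L (Additive.ofMul ⟨x, hx⟩) := by
    have hβ2 : σA (AT.mk T L (Additive.ofMul x₁)) - AT.mk T L (Additive.ofMul x₁) =
        AT.mk T L (Additive.ofMul ⟨x, hx⟩) := hβ
    rw [← hβ2, ofMul_mul, ofMul_inv, map_add, map_neg, ← sub_eq_add_neg,
      hσ x₁ ⟨σ • (x₁ : JJ), hσx₁⟩ rfl]
  obtain ⟨a, ha, u, hu, hxa⟩ := (AT.mk_eq_mk_iff _ _).1 hβ'
  have hxa' : x = σ • (x₁ : JJ) * (x₁ : JJ)⁻¹ * (diag a * u) := hxa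
  have hdaL : diag a ∈ JF L := (diag_mem_JF_iff L a).2 ha
  have huL : u ∈ JF L := by
    have : u = (diag a)⁻¹ * ((σ • (x₁ : JJ) * (x₁ : JJ)⁻¹)⁻¹ * x) := by rw [hxa']; group
    rw [this]
    exact mul_mem (inv_mem hdaL) (mul_mem (inv_mem (mul_mem hσx₁ (inv_mem x₁.2))) hx)
  have hNx : Nσ p σ x = diag (Nσ p σ a) * Nσ p σ u := by
    rw [hxa', Nσ_mul, Nσ_mul, Nσ_mul, Nσ_inv, hL.Nσ_smul x₁.2, mul_inv_cancel, one_mul, Nσ_diag]
  have hNu' : diag (e / Nσ p σ a) = Nσ p σ u := by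
    rw [map_div, he, hNx, div_eq_iff_eq_mul, mul_comm]
  have hea : e / Nσ p σ a = 1 := by
    apply eq_one_of_diag_mem_UId T hT
    rw [hNu']
    exact Nσ_mem_UId p σ T hu
  have hNu : Nσ p σ u = 1 := by rw [← hNu', hea, map_one]
  obtain ⟨z, hz, huz⟩ := unit_ideles_h90 p F L σ hL T hur u ⟨huL, hu⟩ hNu
  refine ⟨CC.mk ((x₁ : JJ) * z), CC.mk_mem_CF (mul_mem x₁.2 hz.1), ?_⟩
  rw [CC.smul_mk, ← CC.mk_div, hxa', huz, smul_mul']
  have e1 : σ • (x₁ : JJ) * (x₁ : JJ)⁻¹ * (diag a * (σ • z / z)) =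
      (σ • (x₁ : JJ) * σ • z / ((x₁ : JJ) * z)) * diag a := by
    rw [div_eq_mul_inv, div_eq_mul_inv, mul_inv]
    simp only [mul_assoc, mul_comm, mul_left_comm]
  rw [e1, CC.mk_mul, CC.mk_diag, mul_one]

end FI

end

end Fermat.Agent.S55Lib
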