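import Fermat.Agent.S55.G1b.Eqv
import Fermat.Agent.S55.G.Single
import Fermat.Agent.S55.G.LocFix

/-! # S55 G1b (JE): `J_T(F) = ∏_{w | T} F_w^×` -/

set_option autoImplicit false
set_option linter.unusedSectionVars false
set_option linter.unusedVariables false

namespace Fermat.Agent.S55Lib

noncomputable section

/-- the component map as a monoid hom -/
def JE_cmpHom (q : Nat.Primes) (g : GQ) : JJ →* (Om q)ˣ where
  toFun x := cmp x q g
  map_one' := rfl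
  map_mul' _ _ := rfl

theorem JE_cmp_prod {ι : Type} (s : Finset ι) (f : ι → JJ) (q : Nat.Primes) (g : GQ) :
    cmp (∏ i ∈ s, f i) q g = ∏ i ∈ s, cmp (f i) q g :=
  map_prod (JE_cmpHom q g) f s

/-- a unit of `Ω_q` lying in `K` as a unit of `K` -/
def JE_unit {q : Nat.Primes} (K : IntermediateField ℚ_[(q : ℕ)] (Om q)) (z : (Om q)ˣ)
    (hz : (z : Om q) ∈ K) : (↥K)ˣ :=
  Units.mk0 ⟨(z : Om q), hz⟩ (fun h => z.ne_zero (congrArg Subtype.val h))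

theorem JE_unit_coe {q : Nat.Primes} (K : IntermediateField ℚ_[(q : ℕ)] (Om q)) (z : (Om q)ˣ)
    (hz : (z : Om q) ∈ K) : (((JE_unit K z hz : (↥K)ˣ) : ↥K) : Om q) = (z : Om q) := rfl

/-- a unit of `K` as a unit of `Ω_q` -/
def JE_incl {q : Nat.Primes} (K : IntermediateField ℚ_[(q : ℕ)] (Om q)) : (↥K)ˣ →* (Om q)ˣ :=
  Units.map (K.val : ↥K →+* Om q).toMonoidHom

theorem JE_incl_coe {q : Nat.Primes} (K : IntermediateField ℚ_[(q : ℕ)] (Om q)) (z : (↥K)ˣ) :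
    ((JE_incl K z : (Om q)ˣ) : Om q) = ((z : ↥K) : Om q) := rfl

/-- the component homomorphism -/
def JE_hom (F : IntermediateField ℚ Qbar) [FiniteDimensional ℚ F]
    (T : Finset Nat.Primes) (R : ∀ q : Nat.Primes, Finset GQ) :
    ↥(JF F ⊓ JT T) →* (∀ w : PlT T R, (↥(locF w.1.1 w.2.1 F))ˣ) where
  toFun x w := JE_unit (locF w.1.1 w.2.1 F) (cmp (x : JJ) w.1.1 w.2.1)
    (cmp_mem_locF F (x : JJ) (Subgroup.mem_inf.mp x.2).1 w.1.1 w.2.1)
  map_one' := by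
    funext w
    exact Units.ext (Subtype.ext rfl)
  map_mul' x y := by
    funext w
    exact Units.ext (Subtype.ext rfl)

theorem JE_hom_coe (F : IntermediateField ℚ Qbar) [FiniteDimensional ℚ F]
    (T : Finset Nat.Primes) (R : ∀ q : Nat.Primes, Finset GQ) (x : ↥(JF F ⊓ JT T))
    (w : PlT T R) :
    (((JE_hom F T R x w : (↥(locF w.1.1 w.2.1 F))ˣ) : ↥(locF w.1.1 w.2.1 F)) : Om w.1.1) =
      ((cmp (x : JJ) w.1.1 w.2.1 : (Om w.1.1)ˣ) : Om w.1.1) := rfl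

theorem JE_injective (F : IntermediateField ℚ Qbar) [FiniteDimensional ℚ F]
    (T : Finset Nat.Primes) (R : ∀ q : Nat.Primes, Finset GQ)
    (hR : ∀ q g, ∃ g₀ ∈ R q, SamePlace q F g₀ g) : Function.Injective (JE_hom F T R) := by
  intro x y hxy
  apply Subtype.ext
  apply JJ.ext
  intro q g
  have hx := Subgroup.mem_inf.mp x.2
  have hy := Subgroup.mem_inf.mp y.2
  by_cases hq : q ∈ T
  · obtain ⟨g₀, hg₀, hs⟩ := hR q g
    refine (cmp_isEqv hx.1 q).eq_of_samePlace (cmp_isEqv hy.1 q) hs ?_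
    have h := congrFun hxy (⟨⟨q, hq⟩, ⟨g₀, hg₀⟩⟩ : PlT T R)
    have h2 := congrArg (fun u : (↥(locF q g₀ F))ˣ => ((u : ↥(locF q g₀ F)) : Om q)) h
    exact Units.ext h2
  · rw [hx.2 q hq g, hy.2 q hq g]

theorem JE_surjective (F : IntermediateField ℚ Qbar) [FiniteDimensional ℚ F]
    (T : Finset Nat.Primes) (R : ∀ q : Nat.Primes, Finset GQ)
    (hR' : ∀ q, ∀ g ∈ R q, ∀ g' ∈ R q, SamePlace q F g g' → g = g') :
    Function.Surjective (JE_hom F T R) := by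
  classical
  intro f
  have key : ∀ w : PlT T R, ∃ x ∈ JF F, cmp x w.1.1 w.2.1 = JE_incl _ (f w) ∧
      (∀ g, ¬ SamePlace w.1.1 F w.2.1 g → cmp x w.1.1 g = 1) ∧
      ∀ q' ≠ w.1.1, ∀ g, cmp x q' g = 1 := fun w =>
    exists_single F w.1.1 w.2.1 (JE_incl _ (f w)) (f w : ↥(locF w.1.1 w.2.1 F)).2
  choose X hX1 hX2 hX3 hX4 using key
  have hmem : (∏ w, X w) ∈ JF F ⊓ JT T := by
    refine Subgroup.mem_inf.mpr ⟨Subgroup.prod_mem _ fun w _ => hX1 w, fun q hq g => ?_⟩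
    rw [JE_cmp_prod]
    refine Finset.prod_eq_one fun w _ => hX4 w q ?_ g
    rintro rfl
    exact hq w.1.2
  refine ⟨⟨∏ w, X w, hmem⟩, ?_⟩
  funext w
  apply Units.ext
  apply Subtype.ext
  rw [JE_hom_coe]
  show ((cmp (∏ w, X w) w.1.1 w.2.1 : (Om w.1.1)ˣ) : Om w.1.1) = _
  rw [JE_cmp_prod, Finset.prod_eq_single w, hX2 w, JE_incl_coe]
  · intro w' _ hne
    by_cases hq : w.1.1 = w'.1.1
    · obtain ⟨⟨q, hq1⟩, ⟨g, hg⟩⟩ := w
      obtain ⟨⟨q', hq1'⟩, ⟨g', hg'⟩⟩ := w'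
      simp only at hq
      subst hq
      refine hX3 _ g ?_
      intro hs
      apply hne
      have := hR' q g' hg' g hg hs
      subst this
      rfl
    · exact hX4 w' _ hq _
  · intro h
    exact absurd (Finset.mem_univ w) h

theorem exists_JT_equiv (F : IntermediateField ℚ Qbar) [FiniteDimensional ℚ F]
    (T : Finset Nat.Primes) (R : ∀ q : Nat.Primes, Finset GQ)
    (hR : ∀ q g, ∃ g₀ ∈ R q, SamePlace q F g₀ g)
    (hR' : ∀ q, ∀ g ∈ R q, ∀ g' ∈ R q, SamePlace q F g g' → g = g') :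
    ∃ e : ↥(JF F ⊓ JT T) ≃* (∀ w : PlT T R, (↥(locF w.1.1 w.2.1 F))ˣ),
      ∀ (x : ↥(JF F ⊓ JT T)) (w : PlT T R),
        (((e x w : (↥(locF w.1.1 w.2.1 F))ˣ) : ↥(locF w.1.1 w.2.1 F)) : Om w.1.1) =
          ((cmp (x : JJ) w.1.1 w.2.1 : (Om w.1.1)ˣ) : Om w.1.1) :=
  ⟨MulEquiv.ofBijective (JE_hom F T R) ⟨JE_injective F T R hR, JE_surjective F T R hR'⟩,
    fun x w => JE_hom_coe F T R x w⟩

end

end Fermat.Agent.S55Lib
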