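import Fermat.Agent.S55.G1b.LBInertia
import Fermat.Agent.S55.G.LocFix

/-! # S55 G1b (LB3): an extension on which inertia acts trivially lies in `K(ζ)` -/

set_option autoImplicit false
set_option linter.unusedSectionVars false
set_option linter.unusedVariables false
set_option linter.style.haveILetI false

namespace Fermat.Agent.S55Lib

noncomputable section

open groupCohomology IntermediateField

lemma LB_fix_adjoin {k Ω : Type*} [Field k] [Field Ω] [Algebra k Ω] (h : Ω ≃ₐ[k] Ω) (S : Set Ω)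
    (hS : ∀ x ∈ S, h x = x) : ∀ y ∈ IntermediateField.adjoin k S, h y = y := by
  have hle : IntermediateField.adjoin k S ≤ IntermediateField.fixedField (Subgroup.zpowers h) := by
    rw [IntermediateField.adjoin_le_iff]
    intro x hx
    rw [SetLike.mem_coe, IntermediateField.mem_fixedField_iff]
    intro g hg
    obtain ⟨n, rfl⟩ := Subgroup.mem_zpowers_iff.mp hg
    have h4 : h ∈ MulAction.stabilizer (Ω ≃ₐ[k] Ω) x := hS x hx
    exact Subgroup.zpow_mem _ h4 n
  intro y hy
  have := hle hy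
  rw [IntermediateField.mem_fixedField_iff] at this
  exact this h (Subgroup.mem_zpowers h)

section LB
variable (q : Nat.Primes)

/-- (LB3) -/
theorem exists_unram_level (K K' : IntermediateField ℚ_[(q : ℕ)] (Om q))
    [FiniteDimensional ℚ_[(q : ℕ)] K] [FiniteDimensional ℚ_[(q : ℕ)] K']
    (hur : ∀ h ∈ inertiaq q, h ∈ K.fixingSubgroup → h ∈ K'.fixingSubgroup) :
    ∃ m : ℕ, 0 < m ∧ ∀ ζ : Om q, IsPrimitiveRoot ζ (QQ (q : ℕ) K ^ m - 1) →
      ∀ h ∈ K.fixingSubgroup, h ζ = ζ → h ∈ K'.fixingSubgroup := by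
  classical
  set W : Set (Om q) := {ζ | ∃ N : ℕ, ¬ (q : ℕ) ∣ N ∧ ζ ^ N = 1} with hW
  set E : IntermediateField ℚ_[(q : ℕ)] (Om q) :=
    IntermediateField.adjoin ℚ_[(q : ℕ)] ((K : Set (Om q)) ∪ W) with hE
  have hK'E : K' ≤ E := by
    intro x hx
    rw [← InfiniteGalois.fixedField_fixingSubgroup E, IntermediateField.mem_fixedField_iff]
    intro h hh
    rw [IntermediateField.mem_fixingSubgroup_iff] at hh
    have h1 : h ∈ K.fixingSubgroup := by
      rw [IntermediateField.mem_fixingSubgroup_iff]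
      intro y hy
      exact hh y (IntermediateField.subset_adjoin _ _ (Or.inl hy))
    have h2 : h ∈ inertiaq q := by
      apply mem_inertiaq_of_fix_roots
      intro N ζ hN hζ
      exact hh ζ (IntermediateField.subset_adjoin _ _ (Or.inr ⟨N, hN, hζ⟩))
    exact (IntermediateField.mem_fixingSubgroup_iff _ _).1 (hur h h2 h1) x hx
  set b := Module.finBasis ℚ_[(q : ℕ)] K' with hb
  have hex : ∀ i, ∃ T : Finset (Om q), (T : Set (Om q)) ⊆ (K : Set (Om q)) ∪ W ∧
      ((b i : K') : Om q) ∈ IntermediateField.adjoin ℚ_[(q : ℕ)] (T : Set (Om q)) := fun i =>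
    IntermediateField.exists_finset_of_mem_adjoin (hK'E (b i).2)
  choose T hT1 hT2 using hex
  set TT : Finset (Om q) := Finset.univ.biUnion T with hTT
  have hTTsub : ∀ t ∈ TT, t ∈ K ∨ t ∈ W := by
    intro t ht
    rw [hTT, Finset.mem_biUnion] at ht
    obtain ⟨i, -, hi⟩ := ht
    exact hT1 i hi
  -- exponents
  set e : Om q → ℕ := fun t => if ht : t ∈ W then ht.choose else 1 with he
  have he1 : ∀ t, ¬ (q : ℕ) ∣ e t := by
    intro t
    by_cases ht : t ∈ W
    · simp only [he, dif_pos ht]; exact ht.choose_spec.1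
    · simp only [he, dif_neg ht]
      exact (Nat.Prime.one_lt q.2).ne' ∘ Nat.dvd_one.1
  have he2 : ∀ t ∈ W, t ^ e t = 1 := by
    intro t ht
    simp only [he, dif_pos ht]; exact ht.choose_spec.2
  set N : ℕ := ∏ t ∈ TT, e t with hN
  have hqN : ¬ (q : ℕ) ∣ N := by
    rw [hN, Prime.dvd_finsetProd_iff (Nat.Prime.prime q.2)]
    rintro ⟨t, -, ht⟩
    exact he1 t ht
  have hN0 : 0 < N := Nat.pos_of_ne_zero (fun h0 => hqN (h0 ▸ dvd_zero _))
  obtain ⟨f, hf, hQ⟩ := exists_QQ_eq (q : ℕ) (F := K)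
  have hcop : Nat.Coprime (QQ (q : ℕ) K) N := by
    rw [hQ]
    exact Nat.Coprime.pow_left _ ((Nat.Prime.coprime_iff_not_dvd q.2).2 hqN)
  have hdvd : N ∣ QQ (q : ℕ) K ^ (Nat.totient N) - 1 := by
    have := Nat.ModEq.pow_totient hcop
    exact (Nat.modEq_iff_dvd' (Nat.one_le_pow _ _ (by rw [hQ]; exact pow_pos q.2.pos _))).1 this.symm
  refine ⟨Nat.totient N, Nat.totient_pos.2 hN0, ?_⟩
  intro ζ hζ h hhK hhζ
  have hfixT : ∀ t ∈ TT, h t = t := by
    intro t ht
    rcases hTTsub t ht with hK | hWt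
    · exact (IntermediateField.mem_fixingSubgroup_iff _ _).1 hhK t hK
    · have h1 : t ^ N = 1 := by
        obtain ⟨c, hc⟩ := Finset.dvd_prod_of_mem e ht
        rw [hN, hc, pow_mul, he2 t hWt, one_pow]
      have h2 : t ^ (QQ (q : ℕ) K ^ (Nat.totient N) - 1) = 1 := by
        obtain ⟨c, hc⟩ := hdvd
        rw [hc, pow_mul, h1, one_pow]
      have hpos : 0 < QQ (q : ℕ) K ^ (Nat.totient N) - 1 := by
        have h2Q := U3_two_le_QQ (q : ℕ) (F := K)
        have := Nat.one_lt_pow (Nat.totient_pos.2 hN0).ne' (show 1 < QQ (q : ℕ) K by omega)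
        omega
      haveI : NeZero (QQ (q : ℕ) K ^ (Nat.totient N) - 1) := ⟨hpos.ne'⟩
      obtain ⟨i, -, rfl⟩ := hζ.eq_pow_of_pow_eq_one h2
      rw [map_pow, hhζ]
  rw [IntermediateField.mem_fixingSubgroup_iff]
  intro x hx
  have hfixb : ∀ i, h ((b i : K') : Om q) = ((b i : K') : Om q) := by
    intro i
    apply LB_fix_adjoin h (T i : Set (Om q)) _ _ (hT2 i)
    intro t ht
    exact hfixT t (Finset.mem_biUnion.2 ⟨i, Finset.mem_univ _, ht⟩)
  have hlin : (h.toLinearMap).comp K'.val.toLinearMap = K'.val.toLinearMap := by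
    apply b.ext
    intro i
    exact hfixb i
  exact LinearMap.congr_fun hlin ⟨x, hx⟩

end LB

end

end Fermat.Agent.S55Lib
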