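import Fermat.Agent.S55.G1b.LBRes

/-! # S55 G1b (LB6): identification of an unramified local layer of degree `p` -/

set_option autoImplicit false
set_option linter.unusedSectionVars false
set_option linter.unusedVariables false
set_option linter.style.haveILetI false

namespace Fermat.Agent.S55Lib

noncomputable section

/-- abstract: in a "layer" `B ◁ A` generated by `h₀` with `h₀ ^ p ∈ B`, every `φ ∈ A ∖ B` has
order exactly `p` modulo `B`. -/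
theorem LB6_pow_mem_iff {G : Type*} [Group G] (A B : Subgroup G) {p : ℕ} [Fact p.Prime] (h₀ : G)
    (hpow : h₀ ^ p ∈ B)
    (gen : ∀ h ∈ A, ∃ i < p, ∃ w ∈ B, h = h₀ ^ i * w)
    (conj : ∀ h ∈ A, ∀ w ∈ B, h * w * h⁻¹ ∈ B) (h₀A : h₀ ∈ A)
    (φ : G) (hφ : φ ∈ A) (hφB : φ ∉ B) (c : ℕ) : φ ^ c ∈ B ↔ p ∣ c := by
  haveI : (B.subgroupOf A).Normal := by
    constructor
    intro n hn g
    rw [Subgroup.mem_subgroupOf] at hn ⊢
    exact conj g g.2 n hn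
  set π := QuotientGroup.mk' (B.subgroupOf A) with hπ
  have hker : ∀ x : A, π x = 1 ↔ (x : G) ∈ B := by
    intro x
    rw [hπ, QuotientGroup.mk'_apply, QuotientGroup.eq_one_iff, Subgroup.mem_subgroupOf]
  have h1 : π ⟨φ, hφ⟩ ≠ 1 := fun h => hφB ((hker _).1 h)
  have h2 : π ⟨φ, hφ⟩ ^ p = 1 := by
    obtain ⟨i, -, w, hw, hi⟩ := gen φ hφ
    have hwA : w ∈ A := by
      have : w = (h₀ ^ i)⁻¹ * φ := by rw [hi]; group
      rw [this]
      exact A.mul_mem (A.inv_mem (A.pow_mem h₀A i)) hφ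
    have h3 : (⟨φ, hφ⟩ : A) = ⟨h₀, h₀A⟩ ^ i * ⟨w, hwA⟩ := Subtype.ext hi
    have h4 : π ⟨w, hwA⟩ = 1 := (hker _).2 hw
    have h5 : π ⟨h₀, h₀A⟩ ^ p = 1 := by
      rw [← map_pow]
      exact (hker _).2 hpow
    rw [h3, map_mul, h4, mul_one, map_pow, ← pow_mul, mul_comm, pow_mul, h5, one_pow]
  have h3 : orderOf (π ⟨φ, hφ⟩) = p := orderOf_eq_prime h2 h1
  rw [← h3, orderOf_dvd_iff_pow_eq_one, ← map_pow, hker]
  rfl

variable {q : Nat.Primes}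

theorem IsLocLayer.pow_mem_iff {p : ℕ} [Fact p.Prime]
    {K K' : IntermediateField ℚ_[(q : ℕ)] (Om q)} {h₀ : Gq q}
    (H : IsLocLayer p q K K' h₀) (φ : Gq q) (hφ : φ ∈ K.fixingSubgroup)
    (hφ' : φ ∉ K'.fixingSubgroup) (c : ℕ) : φ ^ c ∈ K'.fixingSubgroup ↔ p ∣ c :=
  LB6_pow_mem_iff K.fixingSubgroup K'.fixingSubgroup h₀ H.pow_mem H.gen H.conj H.mem φ hφ hφ' c

theorem Om_exists_prim (n : ℕ) (hn : n ≠ 0) : ∃ ζ : Om q, IsPrimitiveRoot ζ n := by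
  haveI : NeZero (n : Om q) := ⟨Nat.cast_ne_zero.2 hn⟩
  exact HasEnoughRootsOfUnity.exists_primitiveRoot (Om q) n

/-- (LB6) the unramified layer `K'/K` of degree `p` is `K(μ_{Q^p-1})`. -/
theorem IsLocLayer.fix_iff {p : ℕ} [Fact p.Prime] {K K' : IntermediateField ℚ_[(q : ℕ)] (Om q)}
    [FiniteDimensional ℚ_[(q : ℕ)] K] [FiniteDimensional ℚ_[(q : ℕ)] K'] {h₀ : Gq q}
    (H : IsLocLayer p q K K' h₀) (ζ' : Om q) (hζ' : IsPrimitiveRoot ζ' (QQ (q : ℕ) K ^ p - 1))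
    (h : Gq q) (hh : h ∈ K.fixingSubgroup) : h ∈ K'.fixingSubgroup ↔ h ζ' = ζ' := by
  have hp : p.Prime := Fact.out
  obtain ⟨m₀, hm₀, hlev⟩ := exists_unram_level q K K' H.unram
  set Q := QQ (q : ℕ) K with hQ
  have hM : 0 < p * m₀ := Nat.mul_pos hp.pos hm₀
  obtain ⟨ζ, hζ⟩ := Om_exists_prim (q := q) (Q ^ (p * m₀) - 1) (LB_Npos (q := q) (K := K) _ hM)
  obtain ⟨ζ₀, hζ₀⟩ := Om_exists_prim (q := q) (Q ^ m₀ - 1) (LB_Npos (q := q) (K := K) _ hm₀)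
  obtain ⟨φ, hφ, hφζ⟩ := Om_exists_frob (p * m₀) hM ζ hζ
  -- `ζ₀`, `ζ'` are powers of `ζ`
  haveI : NeZero (Q ^ (p * m₀) - 1) := ⟨LB_Npos (q := q) (K := K) _ hM⟩
  obtain ⟨a₀, -, ha₀⟩ := hζ.eq_pow_of_pow_eq_one (ξ := ζ₀) (by
    obtain ⟨d, hd⟩ := Nat.pow_sub_one_dvd_pow_sub_one Q (Dvd.intro_left p rfl : m₀ ∣ p * m₀)
    rw [hd, pow_mul, hζ₀.pow_eq_one, one_pow])
  obtain ⟨a', -, ha'⟩ := hζ.eq_pow_of_pow_eq_one (ξ := ζ') (by
    obtain ⟨d, hd⟩ := Nat.pow_sub_one_dvd_pow_sub_one Q (Dvd.intro m₀ rfl : p ∣ p * m₀)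
    rw [hd, pow_mul, hζ'.pow_eq_one, one_pow])
  have hφpow : ∀ c : ℕ, (φ ^ c) ζ = ζ ^ (Q ^ c) := by
    intro c
    induction c with
    | zero => simp
    | succ c ih =>
      rw [pow_succ', AlgEquiv.mul_apply, ih, map_pow, hφζ, ← pow_mul, ← pow_succ']
  -- decomposition
  have hdec : ∀ g ∈ K.fixingSubgroup, ∀ c : ℕ, g ζ = ζ ^ (Q ^ c) →
      (φ ^ c)⁻¹ * g ∈ K'.fixingSubgroup := by
    intro g hg c hc
    apply hlev ζ₀ hζ₀ _ (Subgroup.mul_mem _ (Subgroup.inv_mem _ (Subgroup.pow_mem _ hφ c)) hg)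
    have h1 : ((φ ^ c)⁻¹ * g) ζ = ζ := by
      rw [AlgEquiv.mul_apply, hc, ← hφpow c]
      exact (φ ^ c).symm_apply_apply ζ
    rw [← ha₀, map_pow, h1]
  have hex : ∀ g ∈ K.fixingSubgroup, ∃ c : ℕ, g ζ = ζ ^ (Q ^ c) := fun g hg =>
    Om_frob_pow g hg (not_dvd_QQ_pow_sub_one (q : ℕ) (F := K) _ hM) hζ.pow_eq_one
  have hφ' : φ ∉ K'.fixingSubgroup := by
    intro hφ'
    apply H.not_mem
    obtain ⟨c, hc⟩ := hex h₀ H.mem
    have := Subgroup.mul_mem _ (Subgroup.pow_mem _ hφ' c) (hdec h₀ H.mem c hc)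
    rwa [mul_inv_cancel_left] at this
  obtain ⟨c, hc⟩ := hex h hh
  have h1 : h ∈ K'.fixingSubgroup ↔ p ∣ c := by
    rw [← H.pow_mem_iff φ hφ hφ' c]
    have h2 := hdec h hh c hc
    constructor
    · intro h3
      have := Subgroup.mul_mem _ h3 (Subgroup.inv_mem _ h2)
      rwa [mul_inv_rev, inv_inv, mul_inv_cancel_left] at this
    · intro h3
      have := Subgroup.mul_mem _ h3 h2
      rwa [mul_inv_cancel_left] at this
  have h2 : h ζ' = ζ' ^ (Q ^ c) := by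
    rw [← ha', map_pow, hc, ← pow_mul, ← pow_mul, mul_comm]
  rw [h1, h2]
  constructor
  · intro hpc
    obtain ⟨d, hd⟩ := Nat.pow_sub_one_dvd_pow_sub_one Q hpc
    have h3 : Q ^ c = (Q ^ p - 1) * d + 1 := by
      have : 0 < Q ^ c := Nat.pow_pos (by have := U3_two_le_QQ (q : ℕ) (F := K); omega)
      omega
    rw [h3, pow_succ, pow_mul, hζ'.pow_eq_one, one_pow, one_mul]
  · intro h3
    haveI : NeZero p := ⟨hp.ne_zero⟩
    have := Om_QQ_pow_inj_mod p ζ' hζ' c 0 (by rw [pow_zero, pow_one]; exact h3)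
    rwa [Nat.cast_zero, ZMod.natCast_eq_zero_iff] at this

end

end Fermat.Agent.S55Lib
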