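import Fermat.Agent.S55.G1b.Defs
import Fermat.Agent.S55.L.Unram

/-! # S55 G1b (LB0) (LB1) (LB2): norms, roots of unity and inertia in `Ω_q` -/

set_option autoImplicit false
set_option linter.unusedSectionVars false
set_option linter.unusedVariables false
set_option linter.style.haveILetI false

namespace Fermat.Agent.S55Lib

noncomputable section

open groupCohomology IntermediateField

section LB
variable (q : Nat.Primes)

/-- (LB0) -/
theorem nm_Om (x : Om q) : nm (q : ℕ) x = ‖x‖ := rfl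

/-- (LB0) -/
theorem nm_coe_Om (K : IntermediateField ℚ_[(q : ℕ)] (Om q)) (x : K) :
    nm (q : ℕ) x = ‖(x : Om q)‖ := by
  rw [← nm_Om, ← nm_algebraMap (q : ℕ) (F := K) (E := Om q) x]
  rfl

lemma LB_norm_sub_le (x y : Om q) : ‖x - y‖ ≤ max ‖x‖ ‖y‖ := by
  have := PadicAlgCl.isNonarchimedean (q : ℕ) x (-y)
  rwa [norm_neg, ← sub_eq_add_neg] at this

lemma LB_norm_root {N : ℕ} (hN : N ≠ 0) {ζ : Om q} (hζ : ζ ^ N = 1) : ‖ζ‖ = 1 := by
  have h1 : ‖ζ‖ ^ N = 1 := by rw [← norm_pow, hζ, norm_one]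
  exact (pow_eq_one_iff_of_nonneg (norm_nonneg _) hN).1 h1

lemma LB1_prod_ge (x : Om q) (s : Multiset (Om q)) (h : ∀ a ∈ s, 1 ≤ ‖x - a‖) :
    1 ≤ ‖(s.map (fun a => x - a)).prod‖ := by
  induction s using Multiset.induction_on with
  | empty => simp
  | cons a s ih =>
    rw [Multiset.map_cons, Multiset.prod_cons, norm_mul]
    exact one_le_mul_of_one_le_of_one_le (h a (Multiset.mem_cons_self a s))
      (ih fun b hb => h b (Multiset.mem_cons_of_mem hb))

/-- (LB1) every unit of `Ω_q` is congruent to a root of unity of order prime to `q`. -/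
theorem exists_root_near (x : Om q) (hx : ‖x‖ = 1) :
    ∃ N : ℕ, ¬ (q : ℕ) ∣ N ∧ ∃ ζ : Om q, ζ ^ N = 1 ∧ ‖x - ζ‖ < 1 := by
  classical
  set E : IntermediateField ℚ_[(q : ℕ)] (Om q) := ℚ_[(q : ℕ)]⟮x⟯ with hE
  haveI : FiniteDimensional ℚ_[(q : ℕ)] E :=
    IntermediateField.adjoin.finiteDimensional (Algebra.IsIntegral.isIntegral x)
  haveI : Finite (kk (q : ℕ) E) := finite_kk (q : ℕ)
  letI : Fintype (kk (q : ℕ) E) := Fintype.ofFinite _
  set x' : E := ⟨x, mem_adjoin_simple_self _ x⟩ with hx'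
  have hnx : nm (q : ℕ) x' = 1 := by rw [nm_coe_Om]; exact hx
  have hxO : x' ∈ OO (q : ℕ) E := hnx.le
  set r : kk (q : ℕ) E := red (q : ℕ) E ⟨x', hxO⟩ with hr
  have hr0 : r ≠ 0 := by
    rw [hr, Ne, red_eq_zero, not_lt]
    exact hnx.ge
  have hpow : r ^ (Fintype.card (kk (q : ℕ) E) - 1) = 1 := FiniteField.pow_card_sub_one_eq_one r hr0
  have hcard : QQ (q : ℕ) E = Fintype.card (kk (q : ℕ) E) := Nat.card_eq_fintype_card
  set N : ℕ := Fintype.card (kk (q : ℕ) E) - 1 with hN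
  have hqN : ¬ (q : ℕ) ∣ N := by
    have := not_dvd_QQ_pow_sub_one (q : ℕ) (F := E) 1 one_pos
    rwa [pow_one, hcard] at this
  have hN0 : N ≠ 0 := fun h0 => hqN (h0 ▸ dvd_zero _)
  rw [hr, ← map_pow, ← map_one (red (q : ℕ) E), red_eq_red] at hpow
  have hlt : ‖x ^ N - 1‖ < 1 := by
    have h2 : nm (q : ℕ) (x' ^ N - 1 : E) < 1 := hpow
    rw [nm_coe_Om] at h2
    exact h2
  refine ⟨N, hqN, ?_⟩
  by_contra hcon
  push Not at hcon
  set P : Polynomial (Om q) := Polynomial.X ^ N - 1 with hP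
  have hmonic : P.Monic := Polynomial.monic_X_pow_sub_C (1 : Om q) hN0
  have hsplit : P.Splits := IsAlgClosed.splits P
  have heval := hsplit.eval_eq_prod_roots x
  rw [hmonic.leadingCoeff, one_mul] at heval
  have hev : P.eval x = x ^ N - 1 := by simp [hP]
  rw [hev] at heval
  have hge : 1 ≤ ‖(P.roots.map (fun a => x - a)).prod‖ := by
    apply LB1_prod_ge
    intro a ha
    apply hcon a
    have h3 : P.eval a = 0 := (Polynomial.mem_roots hmonic.ne_zero).1 ha
    simp only [hP, Polynomial.eval_sub, Polynomial.eval_pow, Polynomial.eval_X,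
      Polynomial.eval_one] at h3
    exact sub_eq_zero.1 h3
  rw [← heval] at hge
  exact absurd hlt (not_lt.2 hge)

/-- (LB2) `h x - x = h (x - ζ) - (x - ζ)`. -/
theorem mem_inertiaq_of_fix_roots (h : Gq q)
    (hh : ∀ (N : ℕ) (ζ : Om q), ¬ (q : ℕ) ∣ N → ζ ^ N = 1 → h ζ = ζ) : h ∈ inertiaq q := by
  intro x hx
  rcases lt_or_eq_of_le hx with hlt | heq
  · refine lt_of_le_of_lt (LB_norm_sub_le q _ _) (max_lt ?_ hlt)
    rw [norm_gq]; exact hlt
  · obtain ⟨N, hN, ζ, hζ, hnear⟩ := exists_root_near q x heq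
    have e : h x - x = h (x - ζ) - (x - ζ) := by
      rw [map_sub, hh N ζ hN hζ]; ring
    rw [e]
    refine lt_of_le_of_lt (LB_norm_sub_le q _ _) (max_lt ?_ hnear)
    rw [norm_gq]; exact hnear

end LB

end

end Fermat.Agent.S55Lib
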