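import Fermat.Agent.S55.G1b.Defs
import Fermat.Agent.S55.G3.ClassMod

/-! # S55 G1b (LB7): group theory of a local layer; the norm does not depend on the generator -/

set_option autoImplicit false
set_option linter.unusedSectionVars false
set_option linter.unusedVariables false

namespace Fermat.Agent.S55Lib

noncomputable section

open IntermediateField

variable {q : Nat.Primes}

section
variable {p : ℕ} [Fact p.Prime] {K K' : IntermediateField ℚ_[(q : ℕ)] (Om q)} {h₀ : Gq q}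

omit [Fact p.Prime] in
lemma IsLocLayer.LB7_le (H : IsLocLayer p q K K' h₀) : K'.fixingSubgroup ≤ K.fixingSubgroup :=
  IntermediateField.fixingSubgroup_antitone H.le

omit [Fact p.Prime] in
lemma IsLocLayer.LB7_normal (H : IsLocLayer p q K K' h₀) :
    (K'.fixingSubgroup.subgroupOf K.fixingSubgroup).Normal := by
  refine ⟨fun n hn g => ?_⟩
  rw [Subgroup.mem_subgroupOf] at hn ⊢
  exact H.conj g g.2 n hn

lemma IsLocLayer.LB7_relIndex (H : IsLocLayer p q K K' h₀) :
    K'.fixingSubgroup.relIndex K.fixingSubgroup = p := by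
  have := H.LB7_normal
  set N := K'.fixingSubgroup.subgroupOf K.fixingSubgroup with hN
  let x : K.fixingSubgroup ⧸ N := QuotientGroup.mk ⟨h₀, H.mem⟩
  have hxp : x ^ p = 1 := by
    show (QuotientGroup.mk ((⟨h₀, H.mem⟩ : K.fixingSubgroup) ^ p) : K.fixingSubgroup ⧸ N) = 1
    rw [QuotientGroup.eq_one_iff, hN, Subgroup.mem_subgroupOf]
    exact H.pow_mem
  have hx1 : x ≠ 1 := by
    intro h
    rw [QuotientGroup.eq_one_iff, hN, Subgroup.mem_subgroupOf] at h
    exact H.not_mem h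
  have hord : orderOf x = p := orderOf_eq_prime hxp hx1
  have htop : Subgroup.zpowers x = ⊤ := by
    rw [Subgroup.eq_top_iff']
    intro y
    induction y using QuotientGroup.induction_on with
    | H h =>
      obtain ⟨i, -, w, hw, hh⟩ := H.gen h h.2
      rw [Subgroup.mem_zpowers_iff]
      refine ⟨i, ?_⟩
      rw [zpow_natCast]
      show (QuotientGroup.mk ((⟨h₀, H.mem⟩ : K.fixingSubgroup) ^ i) : K.fixingSubgroup ⧸ N) = _
      rw [QuotientGroup.eq, hN, Subgroup.mem_subgroupOf]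
      have : (((⟨h₀, H.mem⟩ : K.fixingSubgroup) ^ i)⁻¹ * h : K.fixingSubgroup).1 = w := by
        show (h₀ ^ i)⁻¹ * (h : Gq q) = w
        rw [hh]; group
      rw [this]
      exact hw
  show Nat.card (K.fixingSubgroup ⧸ N) = p
  rw [← Subgroup.card_top, ← htop, Nat.card_zpowers, hord]

lemma IsLocLayer.LB7_gen (H : IsLocLayer p q K K' h₀) (h₁ : Gq q) (h₁K : h₁ ∈ K.fixingSubgroup)
    (h₁K' : h₁ ∉ K'.fixingSubgroup) :
    ∀ h ∈ K.fixingSubgroup, ∃ i : ℕ, (h₁ ^ i)⁻¹ * h ∈ K'.fixingSubgroup :=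
  CM3_gen p _ _ H.LB7_le H.LB7_normal H.LB7_relIndex h₁ h₁K h₁K'

end

lemma LB7_coe_sum {ι : Type*} (s : Finset ι) (g : ι → Gq q) (b : Additive (Om q)ˣ) :
    ((Additive.toMul (∑ i ∈ s, g i • b) : (Om q)ˣ) : Om q) =
      ∏ i ∈ s, g i ((Additive.toMul b : (Om q)ˣ) : Om q) := by
  rw [toMul_sum, Units.coe_prod]
  rfl

/-- (LB7) LBProd.lean : the product over `h₀^i` does not depend on the generator. -/
theorem IsLocLayer.prod_eq {p : ℕ} [Fact p.Prime] {K K' : IntermediateField ℚ_[(q : ℕ)] (Om q)}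
    {h₀ : Gq q} (H : IsLocLayer p q K K' h₀) (h₁ : Gq q) (h₁K : h₁ ∈ K.fixingSubgroup)
    (h₁K' : h₁ ∉ K'.fixingSubgroup) (w : Om q) (hw : w ∈ K') :
    ∏ i ∈ Finset.range p, (h₁ ^ i) w = ∏ i ∈ Finset.range p, (h₀ ^ i) w := by
  rcases eq_or_ne w 0 with rfl | hw0
  · simp
  let a : Additive (Om q)ˣ := Additive.ofMul (Units.mk0 w hw0)
  have ha : a ∈ inv K'.fixingSubgroup (Additive (Om q)ˣ) := by
    intro n hn
    apply Additive.toMul.injective
    apply Units.ext
    exact (IntermediateField.mem_fixingSubgroup_iff _ _).1 hn w hw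
  have e0 := nrm_cyclic H.LB7_le H.mem H.LB7_relIndex (H.LB7_gen h₀ H.mem H.not_mem) ha
  have e1 := nrm_cyclic H.LB7_le h₁K H.LB7_relIndex (H.LB7_gen h₁ h₁K h₁K') ha
  have e2 := congrArg (fun c : Additive (Om q)ˣ => ((Additive.toMul c : (Om q)ˣ) : Om q))
    (e1.symm.trans e0)
  simp only [LB7_coe_sum] at e2
  exact e2

end

end Fermat.Agent.S55Lib
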