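import Fermat.Agent.S55.G1b.LBAdjoin
import Fermat.Agent.S55.L.UnramUnits
import Fermat.Agent.S55.L.Chi

/-! # S55 G1b (LB4) (LB5): transport between `Ω_q` and abstract `q`-adic fields;
the unramified theory of chapter L restated inside `Ω_q` -/

set_option autoImplicit false
set_option linter.unusedSectionVars false
set_option linter.unusedVariables false
set_option linter.style.haveILetI false

namespace Fermat.Agent.S55Lib

noncomputable section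

open groupCohomology IntermediateField Polynomial

variable (q : Nat.Primes) (K : IntermediateField ℚ_[(q : ℕ)] (Om q))

/-- the cyclotomic extension `K(μ_N)` inside `Ω_q` -/
def LBE (N : ℕ) : IntermediateField K (Om q) :=
  IntermediateField.adjoin K ((X ^ N - 1 : K[X]).rootSet (Om q))

instance LBE_isSplittingField (N : ℕ) : (X ^ N - 1 : K[X]).IsSplittingField K (LBE q K N) :=
  IntermediateField.adjoin_rootSet_isSplittingField (IsAlgClosed.splits _)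

instance LBE_normal (N : ℕ) : Normal K (LBE q K N) := Normal.of_isSplittingField (X ^ N - 1 : K[X])

instance LBE_finiteDimensional (N : ℕ) : FiniteDimensional K (LBE q K N) :=
  Polynomial.IsSplittingField.finiteDimensional _ (X ^ N - 1 : K[X])

instance LBE_isGalois (N : ℕ) : IsGalois K (LBE q K N) := ⟨⟩

instance LBE_finiteDimensional' (N : ℕ) [FiniteDimensional ℚ_[(q : ℕ)] K] :
    FiniteDimensional ℚ_[(q : ℕ)] (LBE q K N) :=
  FiniteDimensional.trans ℚ_[(q : ℕ)] K (LBE q K N)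

lemma mem_LBE {N : ℕ} (hN : N ≠ 0) {ζ : Om q} (hζ : ζ ^ N = 1) : ζ ∈ LBE q K N := by
  apply IntermediateField.subset_adjoin
  rw [Polynomial.mem_rootSet]
  refine ⟨(Polynomial.monic_X_pow_sub_C (1 : K) hN).ne_zero, ?_⟩
  simp [hζ]

variable {q K}

lemma LB4_nm (E : IntermediateField K (Om q)) (x : E) : nm (q : ℕ) x = ‖(x : Om q)‖ := by
  rw [← nm_Om, ← nm_algHom (q : ℕ) ((E.val).restrictScalars ℚ_[(q : ℕ)]) x]
  rfl

theorem LB4_down (E : IntermediateField K (Om q)) [Normal K E] (h : Gq q)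
    (hh : h ∈ K.fixingSubgroup) :
    ∃ τ : E ≃ₐ[K] E, ∀ x : E, ((τ x : E) : Om q) = h (x : Om q) :=
  ⟨AlgEquiv.restrictNormal (IntermediateField.fixingSubgroupEquiv K ⟨h, hh⟩) E, fun x =>
    AlgEquiv.restrictNormal_commutes _ E x⟩

theorem LB4_up (E : IntermediateField K (Om q)) [Normal K E] (τ : E ≃ₐ[K] E) :
    ∃ h ∈ K.fixingSubgroup, ∀ x : E, ((τ x : E) : Om q) = h (x : Om q) := by
  obtain ⟨χ, hχ⟩ := AlgEquiv.restrictNormalHom_surjective (Om q) τ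
  refine ⟨((IntermediateField.fixingSubgroupEquiv K).symm χ : K.fixingSubgroup),
    ((IntermediateField.fixingSubgroupEquiv K).symm χ).2, fun x => ?_⟩
  rw [← hχ]
  exact AlgEquiv.restrictNormal_commutes χ E x

lemma LB4_pow (E : IntermediateField K (Om q)) (τ : E ≃ₐ[K] E) (h : Gq q)
    (hτ : ∀ x : E, ((τ x : E) : Om q) = h (x : Om q)) (i : ℕ) (x : E) :
    (((τ ^ i) x : E) : Om q) = (h ^ i) (x : Om q) := by
  induction i generalizing x with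
  | zero => rfl
  | succ i ih =>
    rw [pow_succ, pow_succ, AlgEquiv.mul_apply, AlgEquiv.mul_apply, ih, hτ]

/-- elements of `Ω_q` fixed by everything that fixes `K` and `ζ` lie in `K(μ_N)` -/
lemma LB4_mem_of_fixed {N : ℕ} (hN : N ≠ 0) {ζ : Om q} (hζ : ζ ^ N = 1) (x : Om q)
    (hx : ∀ h ∈ K.fixingSubgroup, h ζ = ζ → h x = x) : x ∈ LBE q K N := by
  rw [← InfiniteGalois.fixedField_fixingSubgroup (LBE q K N), IntermediateField.mem_fixedField_iff]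
  intro χ hχ
  have h1 : χ ζ = ζ := (IntermediateField.mem_fixingSubgroup_iff _ _).1 hχ ζ (mem_LBE q K hN hζ)
  exact hx ((IntermediateField.fixingSubgroupEquiv K).symm χ : K.fixingSubgroup)
    ((IntermediateField.fixingSubgroupEquiv K).symm χ).2 h1

variable [FiniteDimensional ℚ_[(q : ℕ)] K]

/-- (U2) in `Ω_q` -/
theorem Om_frob_pow (h : Gq q) (hh : h ∈ K.fixingSubgroup) {N : ℕ} (hN : ¬ (q : ℕ) ∣ N)
    {ζ : Om q} (hζ : ζ ^ N = 1) : ∃ i : ℕ, h ζ = ζ ^ (QQ (q : ℕ) K ^ i) := by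
  have hN0 : N ≠ 0 := fun h0 => hN (h0 ▸ dvd_zero _)
  obtain ⟨τ, hτ⟩ := LB4_down (LBE q K N) h hh
  obtain ⟨i, hi⟩ := exists_frob_pow (q : ℕ) τ hN (ζ := (⟨ζ, mem_LBE q K hN0 hζ⟩ : LBE q K N))
    (Subtype.ext hζ)
  refine ⟨i, ?_⟩
  have := congrArg (Subtype.val) hi
  rw [hτ] at this
  exact this

lemma LB_Npos (m : ℕ) (hm : 0 < m) : QQ (q : ℕ) K ^ m - 1 ≠ 0 := by
  have h2Q := U3_two_le_QQ (q : ℕ) (F := K)
  have := Nat.one_lt_pow hm.ne' (show 1 < QQ (q : ℕ) K by omega)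
  omega

variable (m : ℕ) (hm : 0 < m) (ζ : Om q) (hζ : IsPrimitiveRoot ζ (QQ (q : ℕ) K ^ m - 1))

include hm hζ

/-- (U3) in `Ω_q` -/
theorem Om_exists_frob : ∃ φ ∈ K.fixingSubgroup, φ ζ = ζ ^ QQ (q : ℕ) K := by
  have hN0 := LB_Npos (q := q) (K := K) m hm
  set ζ' : LBE q K (QQ (q : ℕ) K ^ m - 1) := ⟨ζ, mem_LBE q K hN0 hζ.pow_eq_one⟩ with hζ'
  have hp : IsPrimitiveRoot ζ' (QQ (q : ℕ) K ^ m - 1) :=
    IsPrimitiveRoot.coe_submonoidClass_iff.1 hζ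
  obtain ⟨σ, hσ⟩ := unram_exists_frob (q : ℕ) m hm ζ' hp
  obtain ⟨φ, hφ, hφσ⟩ := LB4_up _ σ
  refine ⟨φ, hφ, ?_⟩
  have := congrArg (Subtype.val) hσ
  rw [hφσ] at this
  exact this

/-- `unram_nm` in `Ω_q` -/
theorem Om_unram_nm (x : Om q) (hx : ∀ h ∈ K.fixingSubgroup, h ζ = ζ → h x = x) :
    ∃ y ∈ K, ‖x‖ = ‖y‖ := by
  have hN0 := LB_Npos (q := q) (K := K) m hm
  set ζ' : LBE q K (QQ (q : ℕ) K ^ m - 1) := ⟨ζ, mem_LBE q K hN0 hζ.pow_eq_one⟩ with hζ'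
  have hp : IsPrimitiveRoot ζ' (QQ (q : ℕ) K ^ m - 1) :=
    IsPrimitiveRoot.coe_submonoidClass_iff.1 hζ
  have hxE := LB4_mem_of_fixed hN0 hζ.pow_eq_one x hx
  obtain ⟨y, hy⟩ := unram_nm (q : ℕ) m hm ζ' hp (⟨x, hxE⟩ : LBE q K (QQ (q : ℕ) K ^ m - 1)) (by
    intro τ hτ
    obtain ⟨h, hh, hhτ⟩ := LB4_up _ τ
    apply Subtype.ext
    rw [hhτ]
    apply hx h hh
    have := congrArg (Subtype.val) hτ
    rw [hhτ] at this
    exact this)
  refine ⟨y, y.2, ?_⟩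
  rw [LB4_nm, nm_coe_Om] at hy
  exact hy

/-- (U7) in `Ω_q` -/
theorem Om_units_norm (φ : Gq q) (hφ : φ ∈ K.fixingSubgroup) (hφζ : φ ζ = ζ ^ QQ (q : ℕ) K)
    (u : Om q) (hu : u ∈ K) (hu1 : ‖u‖ = 1) :
    ∃ b : Om q, ‖b‖ = 1 ∧ (∀ h ∈ K.fixingSubgroup, h ζ = ζ → h b = b) ∧
      u = ∏ i ∈ Finset.range m, (φ ^ i) b := by
  have hN0 := LB_Npos (q := q) (K := K) m hm
  set ζ' : LBE q K (QQ (q : ℕ) K ^ m - 1) := ⟨ζ, mem_LBE q K hN0 hζ.pow_eq_one⟩ with hζ'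
  have hp : IsPrimitiveRoot ζ' (QQ (q : ℕ) K ^ m - 1) :=
    IsPrimitiveRoot.coe_submonoidClass_iff.1 hζ
  obtain ⟨σ, hσ⟩ := LB4_down (LBE q K (QQ (q : ℕ) K ^ m - 1)) φ hφ
  have hσζ : σ ζ' = ζ' ^ QQ (q : ℕ) K := by
    apply Subtype.ext
    rw [hσ]
    exact hφζ
  obtain ⟨b, hb1, hb2, hb3⟩ := unram_units_norm (q : ℕ) m hm ζ' hp σ hσζ (⟨u, hu⟩ : K)
    (by rw [nm_coe_Om]; exact hu1)
  refine ⟨b, ?_, ?_, ?_⟩
  · rw [← LB4_nm]; exact hb1
  · intro h hh hhζ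
    obtain ⟨τ, hτ⟩ := LB4_down (LBE q K (QQ (q : ℕ) K ^ m - 1)) h hh
    have := hb2 τ (by apply Subtype.ext; rw [hτ]; exact hhζ)
    rw [← hτ, this]
  · have := congrArg (Subtype.val) hb3
    rw [show ((∏ i ∈ Finset.range m, (σ ^ i) b : LBE q K (QQ (q : ℕ) K ^ m - 1)) : Om q) =
      ∏ i ∈ Finset.range m, (((σ ^ i) b : LBE q K (QQ (q : ℕ) K ^ m - 1)) : Om q) from
      map_prod (LBE q K (QQ (q : ℕ) K ^ m - 1)).val _ _] at this
    simp only [LB4_pow _ σ φ hσ] at this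
    exact this

omit hm in
/-- (U9) in `Ω_q` -/
theorem Om_QQ_pow_inj_mod [NeZero m] (i j : ℕ)
    (h : ζ ^ (QQ (q : ℕ) K ^ i) = ζ ^ (QQ (q : ℕ) K ^ j)) : (i : ZMod m) = (j : ZMod m) := by
  have hm : 0 < m := Nat.pos_of_ne_zero (NeZero.ne m)
  have hN0 := LB_Npos (q := q) (K := K) m hm
  set ζ' : LBE q K (QQ (q : ℕ) K ^ m - 1) := ⟨ζ, mem_LBE q K hN0 hζ.pow_eq_one⟩ with hζ'
  have hp : IsPrimitiveRoot ζ' (QQ (q : ℕ) K ^ m - 1) :=
    IsPrimitiveRoot.coe_submonoidClass_iff.1 hζ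
  exact QQ_pow_inj_mod (q : ℕ) m ζ' hp i j (Subtype.ext h)

end

end Fermat.Agent.S55Lib
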