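import Fermat.Agent.S55.G1b.LBIdent
import Fermat.Agent.S55.G1b.LBProd

/-! # S55 G1b (LB8): units are norms of units in an unramified local layer -/

set_option autoImplicit false
set_option linter.unusedSectionVars false
set_option linter.unusedVariables false

namespace Fermat.Agent.S55Lib

noncomputable section

variable {q : Nat.Primes}

/-- a primitive root of unity of order `Q^m - 1` in `Ω_q` -/
lemma LB8_exists_prim (K : IntermediateField ℚ_[(q : ℕ)] (Om q))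
    [FiniteDimensional ℚ_[(q : ℕ)] K] (m : ℕ) (hm : 0 < m) :
    ∃ ζ : Om q, IsPrimitiveRoot ζ (QQ (q : ℕ) K ^ m - 1) := by
  haveI : NeZero (QQ (q : ℕ) K ^ m - 1) := ⟨LB_Npos (q := q) (K := K) m hm⟩
  exact HasEnoughRootsOfUnity.exists_primitiveRoot (Om q) (QQ (q : ℕ) K ^ m - 1)

/-- elements fixed by `Fix K'` lie in `K'` -/
lemma LB8_mem_of_fixed (K' : IntermediateField ℚ_[(q : ℕ)] (Om q)) (x : Om q)
    (hx : ∀ h ∈ K'.fixingSubgroup, h x = x) : x ∈ K' := by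
  rw [← InfiniteGalois.fixedField_fixingSubgroup K', IntermediateField.mem_fixedField_iff]
  exact hx

lemma LB8_val_prod (p : ℕ) (h : Gq q) (w : (Om q)ˣ) :
    ((∏ i ∈ Finset.range p, h ^ i • w : (Om q)ˣ) : Om q) =
      ∏ i ∈ Finset.range p, (h ^ i) (w : Om q) := by
  rw [Units.coe_prod]
  rfl

/-- (LB8) LBUnitsNorm.lean : units are norms of units.  (LB6) ⇒ `ζ' ∈ K'`; (LB4) for `K ≤ K'`;
helper29's `unram_exists_frob` + (U7) `unram_units_norm` with `m = p`; (LB7). -/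
theorem LB_units_norm {p : ℕ} [Fact p.Prime] {K K' : IntermediateField ℚ_[(q : ℕ)] (Om q)}
    [FiniteDimensional ℚ_[(q : ℕ)] K] [FiniteDimensional ℚ_[(q : ℕ)] K'] {h₀ : Gq q}
    (H : IsLocLayer p q K K' h₀) (u : (Om q)ˣ) (hu : (u : Om q) ∈ K) (hu1 : ‖(u : Om q)‖ = 1) :
    ∃ w : (Om q)ˣ, (w : Om q) ∈ K' ∧ ‖(w : Om q)‖ = 1 ∧ ∏ i ∈ Finset.range p, h₀ ^ i • w = u := by
  have hp : 0 < p := (Fact.out : p.Prime).pos
  obtain ⟨ζ', hζ'⟩ := LB8_exists_prim K p hp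
  obtain ⟨φ, hφ, hφζ⟩ := Om_exists_frob p hp ζ' hζ'
  obtain ⟨b, hb1, hb2, hb3⟩ := Om_units_norm p hp ζ' hζ' φ hφ hφζ u hu hu1
  have hbK' : b ∈ K' := LB8_mem_of_fixed K' b fun h hh =>
    hb2 h (H.LB7_le hh) ((H.fix_iff ζ' hζ' h (H.LB7_le hh)).1 hh)
  have hφ' : φ ∉ K'.fixingSubgroup := by
    intro hc
    have h1 := (H.fix_iff ζ' hζ' φ hφ).1 hc
    have h2 := Om_QQ_pow_inj_mod p ζ' hζ' 1 0 (by rw [pow_one, pow_zero, pow_one, ← hφζ, h1])
    rw [Nat.cast_one, Nat.cast_zero] at h2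
    exact one_ne_zero h2
  have h3 := H.prod_eq φ hφ hφ' b hbK'
  have hb0 : b ≠ 0 := by
    intro h0
    rw [h0, norm_zero] at hb1
    exact zero_ne_one hb1
  refine ⟨Units.mk0 b hb0, hbK', hb1, ?_⟩
  apply Units.ext
  rw [LB8_val_prod, Units.val_mk0, ← h3, hb3]

end

end Fermat.Agent.S55Lib
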