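import Fermat.Agent.S55.G1b.Defs

/-! # S55 G1b (LY): elementary facts on layers -/

set_option autoImplicit false
set_option linter.unusedSectionVars false
set_option linter.unusedVariables false
set_option linter.style.haveILetI false

namespace Fermat.Agent.S55Lib

noncomputable section

open groupCohomology

section LY
variable {p : ℕ} [Fact p.Prime] {F L : IntermediateField ℚ Qbar} {σ : GQ}

theorem IsLayer.fix_le (hL : IsLayer p F L σ) : L.fixingSubgroup ≤ F.fixingSubgroup :=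
  IntermediateField.fixingSubgroup_antitone hL.le

/-- `t s t⁻¹ ∈ U_L` (from `hL.normal`). -/
theorem IsLayer.conj_mem (hL : IsLayer p F L σ) (t : GQ) (ht : t ∈ F.fixingSubgroup) (s : GQ)
    (hs : s ∈ L.fixingSubgroup) : t * s * t⁻¹ ∈ L.fixingSubgroup := by
  rw [IntermediateField.mem_fixingSubgroup_iff] at hs ⊢
  intro x hx
  have h1 := hs (t⁻¹ x) (hL.normal t⁻¹ (inv_mem ht) x hx)
  show t (s (t⁻¹ x)) = x
  have h2 : s (t⁻¹ x) = t⁻¹ x := h1
  rw [h2]
  exact t.apply_symm_apply x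

theorem IsLayer.conj_mem' (hL : IsLayer p F L σ) (t : GQ) (ht : t ∈ F.fixingSubgroup) (s : GQ)
    (hs : s ∈ L.fixingSubgroup) : t⁻¹ * s * t ∈ L.fixingSubgroup := by
  have := hL.conj_mem t⁻¹ (inv_mem ht) s hs
  simpa using this

lemma IsLayer.LY_normal (hL : IsLayer p F L σ) :
    (L.fixingSubgroup.subgroupOf F.fixingSubgroup).Normal := by
  constructor
  intro s hs t
  rw [Subgroup.mem_subgroupOf] at hs ⊢
  exact hL.conj_mem t t.2 s hs

lemma IsLayer.LY_card (hL : IsLayer p F L σ) :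
    Nat.card (↥F.fixingSubgroup ⧸ L.fixingSubgroup.subgroupOf F.fixingSubgroup) = p :=
  hL.index

/-- the quotient `U_F/U_L` has order `p`. -/
theorem IsLayer.pow_mem (hL : IsLayer p F L σ) : σ ^ p ∈ L.fixingSubgroup := by
  haveI := hL.LY_normal
  have h1 : ((⟨σ, hL.mem⟩ : F.fixingSubgroup) :
      ↥F.fixingSubgroup ⧸ L.fixingSubgroup.subgroupOf F.fixingSubgroup) ^ p = 1 := by
    have h0 := pow_card_eq_one' (G := ↥F.fixingSubgroup ⧸ L.fixingSubgroup.subgroupOf F.fixingSubgroup)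
      (x := ((⟨σ, hL.mem⟩ : F.fixingSubgroup) :
      ↥F.fixingSubgroup ⧸ L.fixingSubgroup.subgroupOf F.fixingSubgroup))
    rwa [hL.LY_card] at h0
  rw [← QuotientGroup.mk_pow, QuotientGroup.eq_one_iff, Subgroup.mem_subgroupOf] at h1
  exact h1

theorem IsLayer.pow_mem_iff (hL : IsLayer p F L σ) (k : ℕ) :
    σ ^ k ∈ L.fixingSubgroup ↔ p ∣ k := by
  constructor
  · intro hk
    by_contra hpk
    have hcop : Nat.Coprime k p := ((Nat.Prime.coprime_iff_not_dvd Fact.out).2 hpk).symm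
    apply hL.not_mem
    have h1 : σ ^ (Nat.gcd k p) ∈ L.fixingSubgroup := by
      have hz : (σ ^ (Nat.gcd k p : ℕ) : GQ) = σ ^ ((Nat.gcd k p : ℕ) : ℤ) := (zpow_natCast _ _).symm
      rw [hz, Nat.gcd_eq_gcd_ab, zpow_add, zpow_mul, zpow_mul, zpow_natCast, zpow_natCast]
      exact mul_mem (zpow_mem hk _) (zpow_mem hL.pow_mem _)
    rw [hcop, pow_one] at h1
    exact h1
  · rintro ⟨c, rfl⟩
    rw [pow_mul]
    exact Subgroup.pow_mem _ hL.pow_mem c

theorem IsLayer.exists_pow (hL : IsLayer p F L σ) (t : GQ) (ht : t ∈ F.fixingSubgroup) :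
    ∃ i < p, ∃ s ∈ L.fixingSubgroup, t = σ ^ i * s := by
  haveI := hL.LY_normal
  have hp : p.Prime := Fact.out
  set Q := ↥F.fixingSubgroup ⧸ L.fixingSubgroup.subgroupOf F.fixingSubgroup with hQ
  set σ' : Q := ((⟨σ, hL.mem⟩ : F.fixingSubgroup) : Q) with hσ'
  have hne : σ' ≠ 1 := by
    intro h
    rw [hσ', QuotientGroup.eq_one_iff, Subgroup.mem_subgroupOf] at h
    exact hL.not_mem h
  have hmem : ((⟨t, ht⟩ : F.fixingSubgroup) : Q) ∈ Subgroup.zpowers σ' :=
    mem_zpowers_of_prime_card hL.LY_card hne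
  haveI : Finite Q := Nat.finite_of_card_ne_zero (by rw [hL.LY_card]; exact hp.ne_zero)
  rw [← mem_powers_iff_mem_zpowers] at hmem
  obtain ⟨n, hn⟩ := hmem
  have hσp : σ' ^ p = 1 := by
    have h0 := pow_card_eq_one' (G := Q) (x := σ')
    rwa [hL.LY_card] at h0
  have hn' : σ' ^ (n % p) = ((⟨t, ht⟩ : F.fixingSubgroup) : Q) := by
    have hn2 : σ' ^ n = ((⟨t, ht⟩ : F.fixingSubgroup) : Q) := hn
    rw [← hn2]
    conv_rhs => rw [← Nat.div_add_mod n p, pow_add, pow_mul, hσp, one_pow, one_mul]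
  refine ⟨n % p, Nat.mod_lt _ hp.pos, (σ ^ (n % p))⁻¹ * t, ?_, by group⟩
  rw [hσ', ← QuotientGroup.mk_pow, QuotientGroup.eq, Subgroup.mem_subgroupOf] at hn'
  exact hn'

theorem IsLayer.smul_mem_JF (hL : IsLayer p F L σ) (t : GQ) (ht : t ∈ F.fixingSubgroup) {x : JJ}
    (hx : x ∈ JF L) : t • x ∈ JF L := by
  intro s hs
  have h1 := hx (t⁻¹ * s * t) (hL.conj_mem' t ht s hs)
  calc s • t • x = t • (t⁻¹ * s * t) • x := by
        simp only [smul_smul]; group
    _ = t • x := by rw [h1]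

/-- fixed by `σ` and `U_L` ⇒ fixed by `U_F` -/
theorem IsLayer.mem_JF (hL : IsLayer p F L σ) {x : JJ} (hx : x ∈ JF L) (hσ : σ • x = x) :
    x ∈ JF F := by
  intro t ht
  obtain ⟨i, -, s, hs, rfl⟩ := hL.exists_pow t ht
  rw [mul_smul, hx s hs]
  clear ht
  induction i with
  | zero => simp
  | succ i ih => rw [pow_succ, mul_smul, hσ, ih]

theorem IsLayer.JF_le (hL : IsLayer p F L σ) : JF F ≤ JF L :=
  fun x hx s hs => hx s (hL.fix_le hs)

theorem IsLayer.Nσ_mem_JF (hL : IsLayer p F L σ) {x : JJ} (hx : x ∈ JF L) : Nσ p σ x ∈ JF F := by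
  apply hL.mem_JF
  · unfold Nσ
    exact Subgroup.prod_mem _ (fun i _ => hL.smul_mem_JF _ (Subgroup.pow_mem _ hL.mem i) hx)
  · unfold Nσ
    rw [Finset.smul_prod']
    have h1 : ∀ i, σ • σ ^ i • x = σ ^ (i + 1) • x := fun i => by
      rw [smul_smul, pow_succ']
    simp only [h1]
    have h2 := Finset.prod_range_succ (fun i => σ ^ i • x) p
    have h3 := Finset.prod_range_succ' (fun i => σ ^ i • x) p
    rw [h2] at h3
    have h4 : σ ^ p • x = x := hx _ hL.pow_mem
    rw [h4, pow_zero, one_smul] at h3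
    exact (mul_right_cancel h3).symm

/-- `[L:ℚ] = p [F:ℚ]` -/
theorem IsLayer.finrank_eq (hL : IsLayer p F L σ) :
    Module.finrank ℚ L = p * Module.finrank ℚ F := by
  rw [IntermediateField.finrank_eq_fixingSubgroup_index, IntermediateField.finrank_eq_fixingSubgroup_index,
    ← hL.index]
  exact (Subgroup.relIndex_mul_index hL.fix_le).symm

theorem IsLayer.hasMu (hL : IsLayer p F L σ) (hμ : HasMu p F) : HasMu p L :=
  fun z hz => hL.le (hμ z hz)

end LY

end

end Fermat.Agent.S55Lib
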