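import Fermat.Agent.S55.G1b.Layer
import Fermat.Agent.S55.G1b.Eqv
import Fermat.Agent.S55.G.Reps

/-! # S55 G1b (PL): places of a layer -/

set_option autoImplicit false
set_option linter.unusedSectionVars false
set_option linter.unusedVariables false
set_option linter.style.haveILetI false

namespace Fermat.Agent.S55Lib

noncomputable section

open groupCohomology

section PL
variable {p : ℕ} [Fact p.Prime] {F L : IntermediateField ℚ Qbar} {σ : GQ} {q : Nat.Primes}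

theorem IsLayer.isEqv_shift (hL : IsLayer p F L σ) {ζ : GQ → (Om q)ˣ} (hζ : IsEqv q L ζ) (t : GQ)
    (ht : t ∈ F.fixingSubgroup) : IsEqv q L (fun g => ζ (g * t)) := by
  intro h g s hs
  show ζ (rq q h * g * s * t) = h • ζ (g * t)
  have : rq q h * g * s * t = rq q h * (g * t) * (t⁻¹ * s * t) := by group
  rw [this]
  exact hζ h (g * t) _ (hL.conj_mem' t ht s hs)

lemma IsLayer.PL_norm_sigma (hL : IsLayer p F L σ) {ζ : GQ → (Om q)ˣ} (hζ : IsEqv q L ζ) (g : GQ) :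
    ∏ i ∈ Finset.range p, ζ (g * σ * σ ^ i) = ∏ i ∈ Finset.range p, ζ (g * σ ^ i) := by
  have h1 : ∀ i, ζ (g * σ * σ ^ i) = ζ (g * σ ^ (i + 1)) := fun i => by
    rw [pow_succ', mul_assoc]
  simp only [h1]
  have h2 := Finset.prod_range_succ (fun i => ζ (g * σ ^ i)) p
  have h3 := Finset.prod_range_succ' (fun i => ζ (g * σ ^ i)) p
  rw [h2] at h3
  have h4 : ζ (g * σ ^ p) = ζ g := hζ.right g _ hL.pow_mem
  rw [h4, pow_zero, mul_one] at h3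
  exact (mul_right_cancel h3).symm

lemma IsLayer.PL_norm_pow (hL : IsLayer p F L σ) {ζ : GQ → (Om q)ˣ} (hζ : IsEqv q L ζ) (g : GQ)
    (j : ℕ) :
    ∏ i ∈ Finset.range p, ζ (g * σ ^ j * σ ^ i) = ∏ i ∈ Finset.range p, ζ (g * σ ^ i) := by
  induction j with
  | zero => simp
  | succ j ih =>
    rw [← ih, ← hL.PL_norm_sigma hζ (g * σ ^ j)]
    simp only [pow_succ, mul_assoc]

/-- the norm of an `L`-equivariant function is `F`-equivariant -/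
theorem IsLayer.isEqv_norm (hL : IsLayer p F L σ) {ζ : GQ → (Om q)ˣ} (hζ : IsEqv q L ζ) :
    IsEqv q F (fun g => ∏ i ∈ Finset.range p, ζ (g * σ ^ i)) := by
  intro h g s hs
  obtain ⟨j, -, s', hs', rfl⟩ := hL.exists_pow s hs
  show ∏ i ∈ Finset.range p, ζ (rq q h * g * (σ ^ j * s') * σ ^ i) =
    h • ∏ i ∈ Finset.range p, ζ (g * σ ^ i)
  have h1 : ∀ i, ζ (rq q h * g * (σ ^ j * s') * σ ^ i) = h • ζ (g * σ ^ j * σ ^ i) := by
    intro i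
    have e : rq q h * g * (σ ^ j * s') * σ ^ i =
        rq q h * (g * σ ^ j * σ ^ i) * ((σ ^ i)⁻¹ * s' * σ ^ i) := by group
    rw [e]
    exact hζ h _ _ (hL.conj_mem' _ (Subgroup.pow_mem _ hL.mem i) s' hs')
  simp only [h1]
  rw [← Finset.smul_prod', hL.PL_norm_pow hζ g j]

theorem IsLayer.samePlace_of_shift (hL : IsLayer p F L σ) {g₀ g t : GQ}
    (ht : t ∈ F.fixingSubgroup) (h : SamePlace q L g₀ (g * t)) : SamePlace q F g₀ g := by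
  obtain ⟨h₁, s, hs, heq⟩ := h
  refine ⟨h₁, s * t⁻¹, mul_mem (hL.fix_le hs) (inv_mem ht), ?_⟩
  calc g = g * t * t⁻¹ := by group
    _ = rq q h₁ * g₀ * s * t⁻¹ := by rw [heq]
    _ = _ := by group

theorem IsLayer.Wg_shift (hL : IsLayer p F L σ) (g₀ t : GQ) (ht : t ∈ F.fixingSubgroup) :
    Wg q (g₀ * t) L = Wg q g₀ L := by
  ext h
  rw [mem_Wg, mem_Wg]
  have e : (g₀ * t)⁻¹ * rq q h * (g₀ * t) = t⁻¹ * (g₀⁻¹ * rq q h * g₀) * t := by group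
  rw [e]
  constructor
  · intro hh
    have := hL.conj_mem t ht _ hh
    have e2 : t * (t⁻¹ * (g₀⁻¹ * rq q h * g₀) * t) * t⁻¹ = g₀⁻¹ * rq q h * g₀ := by group
    rwa [e2] at this
  · intro hh
    exact hL.conj_mem' t ht _ hh

/-- every place of `L` above the place `g₀` of `F` is one of the `g₀ σ^k` -/
theorem IsLayer.exists_samePlace (hL : IsLayer p F L σ) {g₀ g : GQ} (h : SamePlace q F g₀ g) :
    ∃ k < p, SamePlace q L (g₀ * σ ^ k) g := by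
  obtain ⟨h₁, s, hs, rfl⟩ := h
  obtain ⟨k, hk, s', hs', rfl⟩ := hL.exists_pow s hs
  exact ⟨k, hk, h₁, s', hs', by group⟩

/-- DICHOTOMY: a place of `F` either splits into `p` places of `L` or is non-split. -/
theorem layer_dichotomy (hL : IsLayer p F L σ) (q : Nat.Primes) (g₀ : GQ) :
    (∀ i j, i < p → j < p → SamePlace q L (g₀ * σ ^ i) (g₀ * σ ^ j) → i = j) ∨
    (∃ h₀ : Gq q, ∃ s ∈ L.fixingSubgroup, rq q h₀ * g₀ = g₀ * σ * s) := by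
  by_cases H : ∀ i j, i < p → j < p → SamePlace q L (g₀ * σ ^ i) (g₀ * σ ^ j) → i = j
  · exact Or.inl H
  right
  push Not at H
  obtain ⟨i, j, hi, hj, ⟨h, s, hs, heq⟩, hij⟩ := H
  have hp : p.Prime := Fact.out
  haveI := hL.LY_normal
  set Q := ↥F.fixingSubgroup ⧸ L.fixingSubgroup.subgroupOf F.fixingSubgroup with hQ
  set σF : F.fixingSubgroup := ⟨σ, hL.mem⟩ with hσF
  set σ' : Q := (σF : Q) with hσ'
  have hne : σ' ≠ 1 := by
    intro h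
    rw [hσ', QuotientGroup.eq_one_iff, Subgroup.mem_subgroupOf] at h
    exact hL.not_mem h
  have hσp : σ' ^ p = 1 := by
    have h0 := pow_card_eq_one' (G := Q) (x := σ')
    rwa [hL.LY_card] at h0
  have hord : orderOf σ' = p := orderOf_eq_prime hσp hne
  -- τ = g₀⁻¹ r(h) g₀
  have hτ : g₀⁻¹ * rq q h * g₀ = σ ^ j * s⁻¹ * (σ ^ i)⁻¹ := by
    calc g₀⁻¹ * rq q h * g₀ = g₀⁻¹ * (rq q h * (g₀ * σ ^ i) * s) * s⁻¹ * (σ ^ i)⁻¹ := by group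
      _ = g₀⁻¹ * (g₀ * σ ^ j) * s⁻¹ * (σ ^ i)⁻¹ := by rw [heq]
      _ = _ := by group
  have hsF : s ∈ F.fixingSubgroup := hL.fix_le hs
  set sF : F.fixingSubgroup := ⟨s, hsF⟩ with hsFdef
  have hs1 : (sF : Q) = 1 := by
    rw [QuotientGroup.eq_one_iff, Subgroup.mem_subgroupOf]; exact hs
  set τF : F.fixingSubgroup := σF ^ j * sF⁻¹ * (σF ^ i)⁻¹ with hτF
  have hτF' : (τF : GQ) = g₀⁻¹ * rq q h * g₀ := by rw [hτ]; rfl
  have hτQ : (τF : Q) = σ' ^ ((j : ℤ) - i) := by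
    rw [hτF, QuotientGroup.mk_mul, QuotientGroup.mk_mul, QuotientGroup.mk_inv, QuotientGroup.mk_inv,
      QuotientGroup.mk_pow, QuotientGroup.mk_pow, hs1, inv_one, mul_one, zpow_sub, zpow_natCast,
      zpow_natCast]
  -- k with (j - i) k ≡ 1 mod p
  haveI : Fact p.Prime := ⟨hp⟩
  set a : ZMod p := (j : ZMod p) - i with ha
  have ha0 : a ≠ 0 := by
    intro h0
    rw [ha, sub_eq_zero, ZMod.natCast_eq_natCast_iff'] at h0
    rw [Nat.mod_eq_of_lt hj, Nat.mod_eq_of_lt hi] at h0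
    exact hij h0.symm
  set k : ℕ := (a⁻¹).val with hk
  have hk1 : (((j : ℤ) - i) * k : ℤ) ≡ 1 [ZMOD p] := by
    rw [← ZMod.intCast_eq_intCast_iff]
    push_cast
    rw [hk, ZMod.natCast_val, ZMod.cast_id', id, ← ha, mul_inv_cancel₀ ha0]
  have hτk : ((τF ^ k : F.fixingSubgroup) : Q) = σ' := by
    rw [QuotientGroup.mk_pow, hτQ, ← zpow_natCast, ← zpow_mul]
    have : σ' ^ (((j : ℤ) - i) * k) = σ' ^ (1 : ℤ) := by
      rw [zpow_eq_zpow_iff_modEq, hord]; exact hk1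
    rw [this, zpow_one]
  have hmem : (σF⁻¹ * τF ^ k : F.fixingSubgroup) ∈ L.fixingSubgroup.subgroupOf F.fixingSubgroup := by
    rw [← QuotientGroup.eq]; exact hτk.symm
  rw [Subgroup.mem_subgroupOf] at hmem
  refine ⟨h ^ k, _, hmem, ?_⟩
  have e1 : ((σF⁻¹ * τF ^ k : F.fixingSubgroup) : GQ) = σ⁻¹ * (g₀⁻¹ * rq q h * g₀) ^ k := by
    rw [← hτF']; rfl
  rw [e1, map_pow]
  have e2 : (g₀⁻¹ * rq q h * g₀) ^ k = g₀⁻¹ * (rq q h) ^ k * g₀ := by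
    have := conj_pow (a := g₀⁻¹) (b := rq q h) (i := k)
    simpa using this
  rw [e2]
  group

lemma IsLayer.PL_pow_nonsplit (hL : IsLayer p F L σ) {g₀ : GQ} {h₀ : Gq q} {s : GQ}
    (hs : s ∈ L.fixingSubgroup) (hh : rq q h₀ * g₀ = g₀ * σ * s) (k : ℕ) :
    ∃ sk ∈ L.fixingSubgroup, g₀ * σ ^ k = rq q (h₀ ^ k) * g₀ * sk := by
  induction k with
  | zero => exact ⟨1, one_mem _, by simp⟩
  | succ k ih =>
    obtain ⟨sk, hsk, hk⟩ := ih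
    refine ⟨s⁻¹ * (σ⁻¹ * sk * σ), mul_mem (inv_mem hs) (hL.conj_mem' σ hL.mem sk hsk), ?_⟩
    have e1 : g₀ * σ = rq q h₀ * g₀ * s⁻¹ := by rw [hh]; group
    calc g₀ * σ ^ (k + 1) = (g₀ * σ ^ k) * σ := by rw [pow_succ, mul_assoc]
      _ = rq q (h₀ ^ k) * g₀ * sk * σ := by rw [hk]
      _ = rq q (h₀ ^ k) * (g₀ * σ) * (σ⁻¹ * sk * σ) := by group
      _ = rq q (h₀ ^ k) * (rq q h₀ * g₀ * s⁻¹) * (σ⁻¹ * sk * σ) := by rw [e1]
      _ = rq q (h₀ ^ (k + 1)) * g₀ * (s⁻¹ * (σ⁻¹ * sk * σ)) := by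
        rw [pow_succ, map_mul]; group

/-- non-split case: translation by `σ` is the action of `h₀`. -/
theorem IsLayer.eqv_nonsplit (hL : IsLayer p F L σ) {g₀ : GQ} {h₀ : Gq q} {s : GQ}
    (hs : s ∈ L.fixingSubgroup) (hh : rq q h₀ * g₀ = g₀ * σ * s) {ζ : GQ → (Om q)ˣ}
    (hζ : IsEqv q L ζ) (i : ℕ) : ζ (g₀ * σ ^ i) = h₀ ^ i • ζ g₀ := by
  obtain ⟨sk, hsk, hk⟩ := hL.PL_pow_nonsplit hs hh i
  rw [hk]
  exact hζ _ _ _ hsk

theorem IsLayer.samePlace_nonsplit (hL : IsLayer p F L σ) {g₀ : GQ} {h₀ : Gq q} {s : GQ}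
    (hs : s ∈ L.fixingSubgroup) (hh : rq q h₀ * g₀ = g₀ * σ * s) {g : GQ}
    (hg : SamePlace q F g₀ g) : SamePlace q L g₀ g := by
  obtain ⟨k, -, hk⟩ := hL.exists_samePlace hg
  obtain ⟨sk, hsk, hk'⟩ := hL.PL_pow_nonsplit hs hh k
  exact SamePlace.trans ⟨h₀ ^ k, sk, hsk, hk'⟩ hk

/-- group theory of the non-split case -/
theorem Wg_nonsplit (hL : IsLayer p F L σ) (q : Nat.Primes) (g₀ : GQ) (h₀ : Gq q) (s : GQ)
    (hs : s ∈ L.fixingSubgroup) (hh : rq q h₀ * g₀ = g₀ * σ * s) :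
    h₀ ∈ Wg q g₀ F ∧ h₀ ∉ Wg q g₀ L ∧ h₀ ^ p ∈ Wg q g₀ L ∧ Wg q g₀ L ≤ Wg q g₀ F ∧
    (∀ h ∈ Wg q g₀ F, ∃ i < p, ∃ w ∈ Wg q g₀ L, h = h₀ ^ i * w) ∧
    (∀ h ∈ Wg q g₀ F, ∀ w ∈ Wg q g₀ L, h * w * h⁻¹ ∈ Wg q g₀ L) := by
  have e0 : g₀⁻¹ * rq q h₀ * g₀ = σ * s := by
    rw [mul_assoc, hh]; group
  have epow : ∀ k, ∃ sk ∈ L.fixingSubgroup, g₀⁻¹ * rq q (h₀ ^ k) * g₀ = σ ^ k * sk⁻¹ := by
    intro k
    obtain ⟨sk, hsk, hk⟩ := hL.PL_pow_nonsplit hs hh k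
    refine ⟨sk, hsk, ?_⟩
    calc g₀⁻¹ * rq q (h₀ ^ k) * g₀ = g₀⁻¹ * (rq q (h₀ ^ k) * g₀ * sk) * sk⁻¹ := by group
      _ = g₀⁻¹ * (g₀ * σ ^ k) * sk⁻¹ := by rw [hk]
      _ = _ := by group
  refine ⟨?_, ?_, ?_, ?_, ?_, ?_⟩
  · rw [mem_Wg, e0]; exact mul_mem hL.mem (hL.fix_le hs)
  · rw [mem_Wg, e0]
    intro h
    apply hL.not_mem
    have := mul_mem h (inv_mem hs)
    rwa [mul_inv_cancel_right] at this
  · obtain ⟨sk, hsk, hk⟩ := epow p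
    rw [mem_Wg, hk]
    exact mul_mem hL.pow_mem (inv_mem hsk)
  · intro h hh'
    exact hL.fix_le hh'
  · intro h hh'
    rw [mem_Wg] at hh'
    obtain ⟨i, hi, s', hs', hτ⟩ := hL.exists_pow _ hh'
    obtain ⟨sk, hsk, hk⟩ := epow i
    refine ⟨i, hi, (h₀ ^ i)⁻¹ * h, ?_, by group⟩
    rw [mem_Wg]
    have : g₀⁻¹ * rq q ((h₀ ^ i)⁻¹ * h) * g₀ =
        (g₀⁻¹ * rq q (h₀ ^ i) * g₀)⁻¹ * (g₀⁻¹ * rq q h * g₀) := by
      rw [map_mul, map_inv]; group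
    rw [this, hk, hτ]
    have e : (σ ^ i * sk⁻¹)⁻¹ * (σ ^ i * s') = sk * s' := by group
    rw [e]
    exact mul_mem hsk hs'
  · intro h hh' w hw
    rw [mem_Wg] at hh' hw ⊢
    have : g₀⁻¹ * rq q (h * w * h⁻¹) * g₀ =
        (g₀⁻¹ * rq q h * g₀) * (g₀⁻¹ * rq q w * g₀) * (g₀⁻¹ * rq q h * g₀)⁻¹ := by
      rw [map_mul, map_mul, map_inv]; group
    rw [this]
    exact hL.conj_mem _ hh' _ hw

end PL

end

end Fermat.Agent.S55Lib
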