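import Fermat.Agent.S55.G1b.UnitNorm
import Fermat.Agent.S55.G1b.UnitH90
import Fermat.Agent.S55.G1b.CardJTMod
import Fermat.Agent.S55.G1b.FirstIneq

/-! # S55 chapter G1b: aggregator of the four roots
`unit_ideles_norm`, `unit_ideles_h90`, `card_JT_mod_p`, `first_inequality`. -/
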