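import Fermat.Agent.S55.G1b.Layer
import Fermat.Agent.S55.G.Descent

/-! # S55 G1b (SG): the layer acting on `C_T(L)` -/

set_option autoImplicit false
set_option linter.unusedSectionVars false
set_option linter.unusedVariables false
set_option linter.style.haveILetI false

namespace Fermat.Agent.S55Lib

noncomputable section

open groupCohomology

lemma SG_smul_mem_UId (T : Finset Nat.Primes) (γ : GQ) {x : JJ} (hx : x ∈ UId T) :
    γ • x ∈ UId T :=
  ⟨fun q hq g => hx.1 q hq (g * γ), fun q hq g => hx.2 q hq (g * γ)⟩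

lemma SG_smul_mem_FX {p : ℕ} {F L : IntermediateField ℚ Qbar} {σ : GQ}
    (hL : IsLayer p F L σ) (t : GQ) (ht : t ∈ F.fixingSubgroup) {a : Qbarˣ} (ha : a ∈ FX L) :
    t • a ∈ FX L := hL.normal t ht _ ha

section
variable {p : ℕ} [Fact p.Prime] {F L : IntermediateField ℚ Qbar} {σ : GQ}

/-- `x ↦ σ x` on `J(L)` -/
def SG_hom (hL : IsLayer p F L σ) : ↥(JF L) →* ↥(JF L) where
  toFun x := ⟨σ • (x : JJ), hL.smul_mem_JF σ hL.mem x.2⟩
  map_one' := Subtype.ext (smul_one σ)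
  map_mul' x y := Subtype.ext (smul_mul' σ _ _)

lemma SG_le (hL : IsLayer p F L σ) (T : Finset Nat.Primes) :
    PT T L ≤ (PT T L).comap (SG_hom hL) := by
  rintro x ⟨a, ha, u, hu, hx⟩
  refine ⟨σ • a, SG_smul_mem_FX hL σ hL.mem ha, σ • u, SG_smul_mem_UId T σ hu, ?_⟩
  show σ • (x : JJ) = _
  rw [hx, smul_mul', smul_diag]

/-- the action of `σ` on `C_T(L)` -/
def SG_end (hL : IsLayer p F L σ) (T : Finset Nat.Primes) : AddMonoid.End (AT T L) :=
  MonoidHom.toAdditive (QuotientGroup.map (PT T L) (PT T L) (SG_hom hL) (SG_le hL T))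

lemma SG_end_mk (hL : IsLayer p F L σ) (T : Finset Nat.Primes) (x : JF L) :
    SG_end hL T (AT.mk T L (Additive.ofMul x)) = AT.mk T L (Additive.ofMul (SG_hom hL x)) := rfl

lemma SG_end_pow_mk (hL : IsLayer p F L σ) (T : Finset Nat.Primes) (k : ℕ) (x : JF L) :
    (SG_end hL T ^ k) (AT.mk T L (Additive.ofMul x)) =
      AT.mk T L (Additive.ofMul ((SG_hom hL)^[k] x)) := by
  induction k generalizing x with
  | zero => rfl
  | succ k ih =>
    rw [pow_succ, Function.iterate_succ_apply]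
    show (SG_end hL T ^ k) (SG_end hL T (AT.mk T L (Additive.ofMul x))) = _
    rw [SG_end_mk, ih]

lemma SG_iterate (hL : IsLayer p F L σ) (k : ℕ) (x : JF L) :
    (((SG_hom hL)^[k] x : JF L) : JJ) = σ ^ k • (x : JJ) := by
  induction k generalizing x with
  | zero => simp
  | succ k ih =>
    rw [Function.iterate_succ_apply, ih, pow_succ, mul_smul]
    rfl

theorem exists_sigma_AT (hL : IsLayer p F L σ) (T : Finset Nat.Primes) :
    ∃ σA : AddMonoid.End (AT T L), σA ^ p = 1 ∧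
      ∀ (x : JF L) (y : JF L), (y : JJ) = σ • (x : JJ) →
        σA (AT.mk T L (Additive.ofMul x)) = AT.mk T L (Additive.ofMul y) := by
  refine ⟨SG_end hL T, ?_, ?_⟩
  · apply AddMonoidHom.ext
    intro c
    obtain ⟨x, rfl⟩ := AT.mk_surjective T L c
    obtain ⟨x, rfl⟩ := Additive.ofMul.surjective x
    have : (SG_hom hL)^[p] x = x := by
      apply Subtype.ext
      rw [SG_iterate]
      exact x.2 _ hL.pow_mem
    refine (SG_end_pow_mk hL T p x).trans ?_
    rw [this]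
    rfl
  · intro x y hxy
    rw [SG_end_mk]
    congr 2
    exact Subtype.ext hxy.symm

end

/-! ### the norm `Nσ` -/

lemma Nσ_mul {A : Type} [CommGroup A] [MulDistribMulAction GQ A] (p : ℕ) (σ : GQ) (a b : A) :
    Nσ p σ (a * b) = Nσ p σ a * Nσ p σ b := by
  unfold Nσ
  simp only [smul_mul', Finset.prod_mul_distrib]

lemma Nσ_one {A : Type} [CommGroup A] [MulDistribMulAction GQ A] (p : ℕ) (σ : GQ) :
    Nσ p σ (1 : A) = 1 := by
  unfold Nσ
  simp only [smul_one, Finset.prod_const_one]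

lemma Nσ_inv {A : Type} [CommGroup A] [MulDistribMulAction GQ A] (p : ℕ) (σ : GQ) (a : A) :
    Nσ p σ a⁻¹ = (Nσ p σ a)⁻¹ := by
  unfold Nσ
  simp only [smul_inv', Finset.prod_inv_distrib]

lemma Nσ_div {A : Type} [CommGroup A] [MulDistribMulAction GQ A] (p : ℕ) (σ : GQ) (a b : A) :
    Nσ p σ (a / b) = Nσ p σ a / Nσ p σ b := by
  rw [div_eq_mul_inv, Nσ_mul, Nσ_inv, div_eq_mul_inv]

lemma Nσ_pow {A : Type} [CommGroup A] [MulDistribMulAction GQ A] (p : ℕ) (σ : GQ) (a : A) (k : ℕ) :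
    Nσ p σ (a ^ k) = Nσ p σ a ^ k := by
  unfold Nσ
  simp only [smul_pow', Finset.prod_pow]

lemma Nσ_diag (p : ℕ) (σ : GQ) (a : Qbarˣ) : Nσ p σ (diag a) = diag (Nσ p σ a) := by
  unfold Nσ
  rw [map_prod]
  simp only [smul_diag]

lemma Nσ_mem_UId (p : ℕ) (σ : GQ) (T : Finset Nat.Primes) {u : JJ} (hu : u ∈ UId T) :
    Nσ p σ u ∈ UId T := by
  unfold Nσ
  exact Subgroup.prod_mem _ (fun i _ => SG_smul_mem_UId T _ hu)

lemma Nσ_CC_mk (p : ℕ) (σ : GQ) (x : JJ) : Nσ p σ (CC.mk x) = CC.mk (Nσ p σ x) := by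
  unfold Nσ
  simp only [CC.smul_mk]
  exact (map_prod (QuotientGroup.mk' diag.range) _ _).symm

/-- `N (σ x) = N x` for `x` of level `L` -/
lemma IsLayer.Nσ_smul {p : ℕ} [Fact p.Prime] {F L : IntermediateField ℚ Qbar} {σ : GQ}
    (hL : IsLayer p F L σ) {x : JJ} (hx : x ∈ JF L) : Nσ p σ (σ • x) = Nσ p σ x := by
  have h1 : Nσ p σ (σ • x) = σ • Nσ p σ x := by
    unfold Nσ
    rw [Finset.smul_prod']
    apply Finset.prod_congr rfl
    intro i _
    rw [smul_smul, smul_smul, ← pow_succ, ← pow_succ']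
  rw [h1]
  exact (hL.Nσ_mem_JF hx) σ hL.mem

/-- an element of `diag(ℚ̄^×) ∩ UId T` is trivial (`T ≠ ∅`) -/
theorem eq_one_of_diag_mem_UId (T : Finset Nat.Primes) (hT : T.Nonempty) (a : Qbarˣ)
    (h : diag a ∈ UId T) : a = 1 := by
  obtain ⟨q, hq⟩ := hT
  have h1 := h.1 q hq 1
  have h2 := diag_comp a q 1
  rw [h1] at h2
  apply Units.ext
  apply (iq q).injective
  rw [Units.val_one, map_one]
  exact h2.symm

end

end Fermat.Agent.S55Lib
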