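import Fermat.Agent.S55.G1b.WgFix
import Fermat.Agent.S55.G1b.DcExt
import Fermat.Agent.S55.G1b.Glue
import Fermat.Agent.S55.G1b.LBUnitsNorm

/-! # S55 G1b (UN): unramified unit ideles are norms (ROOT `unit_ideles_norm`) -/

set_option autoImplicit false
set_option linter.unusedSectionVars false
set_option linter.unusedVariables false
set_option linter.style.haveILetI false

namespace Fermat.Agent.S55Lib

noncomputable section

open groupCohomology

section UN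
variable {p : ℕ} [Fact p.Prime] {F L : IntermediateField ℚ Qbar} {σ : GQ}

lemma UN_units_fixed_iff {q : Nat.Primes} (h : Gq q) (z : (Om q)ˣ) :
    h • z = z ↔ h (z : Om q) = (z : Om q) := by
  rw [Units.ext_iff]; rfl

/-- one place. -/
theorem layer_norm_place (hL : IsLayer p F L σ) (q : Nat.Primes) (hur : UnramAt q F L)
    (u : GQ → (Om q)ˣ) (hu : IsEqv q F u) (hu1 : IsUnitVal q u) (g₀ : GQ) :
    ∃ w : GQ → (Om q)ˣ, IsEqv q L w ∧ IsUnitVal q w ∧
      (∀ g, SamePlace q F g₀ g → ∏ i ∈ Finset.range p, w (g * σ ^ i) = u g) ∧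
      (∀ g, ¬ SamePlace q F g₀ g → ∏ i ∈ Finset.range p, w (g * σ ^ i) = 1) := by
  haveI := hL.finF
  haveI := hL.finL
  have hp : p.Prime := Fact.out
  have main : ∀ z : (Om q)ˣ, (∀ h ∈ Wg q g₀ L, h • z = z) → ‖(z : Om q)‖ = 1 →
      (∀ ζ : GQ → (Om q)ˣ, IsEqv q L ζ → ζ g₀ = z → (∀ g, ¬ SamePlace q L g₀ g → ζ g = 1) →
        ∏ i ∈ Finset.range p, ζ (g₀ * σ ^ i) = u g₀) →
      ∃ w : GQ → (Om q)ˣ, IsEqv q L w ∧ IsUnitVal q w ∧
      (∀ g, SamePlace q F g₀ g → ∏ i ∈ Finset.range p, w (g * σ ^ i) = u g) ∧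
      (∀ g, ¬ SamePlace q F g₀ g → ∏ i ∈ Finset.range p, w (g * σ ^ i) = 1) := by
    intro z hz hz1 H
    obtain ⟨ζ, h1, h2, h3, h4⟩ := exists_dcExt L q g₀ z hz
    refine ⟨ζ, h1, h4 hz1, ?_, ?_⟩
    · intro g hg
      exact (hL.isEqv_norm h1).eq_of_samePlace hu hg (H ζ h1 h2 h3)
    · intro g hg
      apply Finset.prod_eq_one
      intro i _
      apply h3
      intro hcon
      exact hg (hL.samePlace_of_shift (Subgroup.pow_mem _ hL.mem i) hcon)
  rcases layer_dichotomy hL q g₀ with Hs | ⟨h₀, s, hs, hh⟩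
  · apply main (u g₀) (fun h hh => hu.smul_eq g₀ h (hL.fix_le hh)) (hu1 g₀)
    intro ζ h1 h2 h3
    rw [Finset.prod_eq_single 0]
    · rw [pow_zero, mul_one, h2]
    · intro i hi hi0
      apply h3
      intro hcon
      apply hi0
      have := Hs 0 i hp.pos (Finset.mem_range.1 hi) (by rwa [pow_zero, mul_one])
      exact this.symm
    · intro h0
      exact absurd (Finset.mem_range.2 hp.pos) h0
  · have HL := isLocLayer_of_nonsplit hL q hur g₀ h₀ s hs hh
    have hmem : ((u g₀ : (Om q)ˣ) : Om q) ∈ locF q g₀ F := by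
      rw [mem_locF_iff_fixed]
      intro h hh'
      exact (UN_units_fixed_iff h _).1 (hu.smul_eq g₀ h hh')
    obtain ⟨b, hb, hb1, hbN⟩ := LB_units_norm HL (u g₀) hmem (hu1 g₀)
    apply main b (fun h hh' => (UN_units_fixed_iff h b).2
      ((mem_locF_iff_fixed L q g₀ _).1 hb h hh')) hb1
    intro ζ h1 h2 h3
    rw [← hbN]
    apply Finset.prod_congr rfl
    intro i _
    rw [hL.eqv_nonsplit hs hh h1 i, h2]

/-- all places above `q`: product over `exists_reps F q`. -/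
theorem layer_norm_local (hL : IsLayer p F L σ) (q : Nat.Primes) (hur : UnramAt q F L)
    (u : GQ → (Om q)ˣ) (hu : IsEqv q F u) (hu1 : IsUnitVal q u) :
    ∃ w : GQ → (Om q)ˣ, IsEqv q L w ∧ IsUnitVal q w ∧
      ∀ g, ∏ i ∈ Finset.range p, w (g * σ ^ i) = u g := by
  classical
  haveI := hL.finF
  obtain ⟨R, hR, hR'⟩ := exists_reps F q
  choose w hw1 hw2 hw3 hw4 using layer_norm_place hL q hur u hu hu1
  refine ⟨fun g => ∏ g₀ ∈ R, w g₀ g, IsEqv.prod R (fun g₀ _ => hw1 g₀),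
    IsUnitVal.prod R (fun g₀ _ => hw2 g₀), ?_⟩
  intro g
  rw [Finset.prod_comm]
  obtain ⟨g₁, hg₁, hsp⟩ := hR g
  rw [Finset.prod_eq_single g₁]
  · exact hw3 g₁ g hsp
  · intro g₀ hg₀ hne
    apply hw4
    intro hcon
    exact hne (hR' g₀ hg₀ g₁ hg₁ (hcon.trans hsp.symm))
  · intro h
    exact absurd hg₁ h

end UN

/-! ## ROOT -/

theorem unit_ideles_norm (p : ℕ) [Fact p.Prime] (F L : IntermediateField ℚ Qbar) (σ : GQ)
    (hL : IsLayer p F L σ) (T : Finset Nat.Primes) (hur : ∀ q ∉ T, UnramAt q F L)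
    (u : JJ) (hu : u ∈ JF F ⊓ UId T) :
    ∃ w ∈ JF L ⊓ UId T, u = ∏ i ∈ Finset.range p, σ ^ i • w := by
  classical
  haveI := hL.finL
  have key : ∀ q : Nat.Primes, ∃ w : GQ → (Om q)ˣ, IsEqv q L w ∧ IsUnitVal q w ∧
      (q ∈ T → ∀ g, w g = 1) ∧ ∀ g, ∏ i ∈ Finset.range p, w (g * σ ^ i) = cmp u q g := by
    intro q
    by_cases hq : q ∈ T
    · refine ⟨fun _ => 1, isEqv_one, fun g => by simp, fun _ _ => rfl, fun g => ?_⟩
      rw [hu.2.1 q hq g]; simp
    · obtain ⟨w, h1, h2, h3⟩ := layer_norm_local hL q (hur q hq) (cmp u q) (cmp_isEqv hu.1 q)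
        (fun g => hu.2.2 q hq g)
      exact ⟨w, h1, h2, fun h => absurd h hq, h3⟩
  choose w hw1 hw2 hw3 hw4 using key
  obtain ⟨x, hx, hxc⟩ := exists_idele_of_family L w hw1 (by
    have : {q : Nat.Primes | ¬ IsUnitVal q (w q)} = ∅ := by
      ext q; simp [hw2 q]
    rw [this]; exact Set.finite_empty)
  refine ⟨x, ⟨hx, fun q hq g => by rw [hxc, hw3 q hq g], fun q hq g => by
    rw [hxc]; exact hw2 q g⟩, ?_⟩
  apply JJ.ext
  intro q g
  have h := cmp_Nσ p σ x q g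
  unfold Nσ at h
  rw [h]
  simp only [hxc]
  exact (hw4 q g).symm

end

end Fermat.Agent.S55Lib
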