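import Fermat.Agent.S55.G1b.Place
import Fermat.Agent.S55.G.LocFix
import Fermat.Agent.S55.G.LocFin

/-! # S55 G1b (WF) (LL): `Wg` is the fixing subgroup of `locF`; non-split places give local layers -/

set_option autoImplicit false
set_option linter.unusedSectionVars false
set_option linter.unusedVariables false
set_option linter.style.haveILetI false

namespace Fermat.Agent.S55Lib

noncomputable section

open groupCohomology

/-- `Wg q g L` is the fixing subgroup of `locF q g L` -/
theorem Wg_eq_fixingSubgroup (L : IntermediateField ℚ Qbar) (q : Nat.Primes) (g : GQ) :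
    Wg q g L = (locF q g L).fixingSubgroup := by
  ext h
  rw [mem_fixingSubgroup_locF_iff, mem_Wg]

/-- fixed by `Wg` ⇔ in `locF` -/
theorem mem_locF_iff_fixed (L : IntermediateField ℚ Qbar) (q : Nat.Primes) (g : GQ) (z : Om q) :
    z ∈ locF q g L ↔ ∀ h ∈ Wg q g L, h z = z := by
  rw [Wg_eq_fixingSubgroup]
  conv_lhs => rw [← InfiniteGalois.fixedField_fixingSubgroup (locF q g L)]
  rw [IntermediateField.mem_fixedField_iff]

theorem WF_locF_mono {F L : IntermediateField ℚ Qbar} (h : F ≤ L) (q : Nat.Primes) (g : GQ) :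
    locF q g F ≤ locF q g L :=
  IntermediateField.adjoin.mono _ _ _ (Set.image_mono h)

theorem isLocLayer_of_nonsplit {p : ℕ} [Fact p.Prime] {F L : IntermediateField ℚ Qbar} {σ : GQ}
    (hL : IsLayer p F L σ) (q : Nat.Primes) (hur : UnramAt q F L) (g₀ : GQ) (h₀ : Gq q) (s : GQ)
    (hs : s ∈ L.fixingSubgroup) (hh : rq q h₀ * g₀ = g₀ * σ * s) :
    IsLocLayer p q (locF q g₀ F) (locF q g₀ L) h₀ := by
  obtain ⟨h1, h2, h3, h4, h5, h6⟩ := Wg_nonsplit hL q g₀ h₀ s hs hh
  rw [Wg_eq_fixingSubgroup, Wg_eq_fixingSubgroup] at *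
  refine ⟨WF_locF_mono hL.le q g₀, h1, h2, h3, h5, h6, ?_⟩
  intro h hi hK
  rw [← Wg_eq_fixingSubgroup, mem_Wg] at hK ⊢
  exact hur g₀ h hi hK

end

end Fermat.Agent.S55Lib
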